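/-
S55 / GC1 (helper27): change-of-group maps commute with the connecting homomorphisms.

`groupCohomology.map f φ n : Hⁿ(G, A) ⟶ Hⁿ(H, B)` for `f : H →* G`, `φ : res f A ⟶ B`.
Given short exact sequences `X` in `Rep k G`, `X'` in `Rep k H` and a morphism of short complexes
`res f X ⟶ X'`, the maps `map f φᵢ` commute with `δ`.
-/
import Mathlib

set_option autoImplicit false

namespace Fermat.Agent.S55.GC.ResDelta

open CategoryTheory groupCohomology Rep

universe u

variable {k G H : Type u} [CommRing k] [Group G] [Group H]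

/-- The morphism of short complexes of cochain complexes induced by a group homomorphism
`f : H →* G` and a morphism of short complexes `res f X ⟶ X'`. -/
noncomputable def cochainsMapShortComplex (f : H →* G) {X : ShortComplex (Rep k G)}
    {X' : ShortComplex (Rep k H)}
    (φ₁ : res f X.X₁ ⟶ X'.X₁) (φ₂ : res f X.X₂ ⟶ X'.X₂) (φ₃ : res f X.X₃ ⟶ X'.X₃)
    (h₁₂ : (resFunctor f).map X.f ≫ φ₂ = φ₁ ≫ X'.f)
    (h₂₃ : (resFunctor f).map X.g ≫ φ₃ = φ₂ ≫ X'.g) :
    X.map (cochainsFunctor k G) ⟶ X'.map (cochainsFunctor k H) where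
  τ₁ := cochainsMap f φ₁
  τ₂ := cochainsMap f φ₂
  τ₃ := cochainsMap f φ₃
  comm₁₂ := by
    have e1 : cochainsMap (MonoidHom.id G) X.f ≫ cochainsMap f φ₂ =
        cochainsMap ((MonoidHom.id G).comp f) ((resFunctor f).map X.f ≫ φ₂) :=
      (cochainsMap_comp (MonoidHom.id G) f X.f φ₂).symm
    have e2 : cochainsMap f φ₁ ≫ cochainsMap (MonoidHom.id H) X'.f =
        cochainsMap (f.comp (MonoidHom.id H)) ((resFunctor (MonoidHom.id H)).map φ₁ ≫ X'.f) :=
      (cochainsMap_comp f (MonoidHom.id H) φ₁ X'.f).symm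
    show cochainsMap f φ₁ ≫ cochainsMap (MonoidHom.id H) X'.f =
      cochainsMap (MonoidHom.id G) X.f ≫ cochainsMap f φ₂
    rw [e1, e2]
    exact cochainsMap_congr rfl (by rw [h₁₂]; rfl)
  comm₂₃ := by
    have e1 : cochainsMap (MonoidHom.id G) X.g ≫ cochainsMap f φ₃ =
        cochainsMap ((MonoidHom.id G).comp f) ((resFunctor f).map X.g ≫ φ₃) :=
      (cochainsMap_comp (MonoidHom.id G) f X.g φ₃).symm
    have e2 : cochainsMap f φ₂ ≫ cochainsMap (MonoidHom.id H) X'.g =
        cochainsMap (f.comp (MonoidHom.id H)) ((resFunctor (MonoidHom.id H)).map φ₂ ≫ X'.g) :=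
      (cochainsMap_comp f (MonoidHom.id H) φ₂ X'.g).symm
    show cochainsMap f φ₂ ≫ cochainsMap (MonoidHom.id H) X'.g =
      cochainsMap (MonoidHom.id G) X.g ≫ cochainsMap f φ₃
    rw [e1, e2]
    exact cochainsMap_congr rfl (by rw [h₂₃]; rfl)

/-- **Change-of-group maps commute with connecting homomorphisms.** -/
theorem δ_map_comm (f : H →* G) {X : ShortComplex (Rep k G)} {X' : ShortComplex (Rep k H)}
    (hX : X.ShortExact) (hX' : X'.ShortExact)
    (φ₁ : res f X.X₁ ⟶ X'.X₁) (φ₂ : res f X.X₂ ⟶ X'.X₂) (φ₃ : res f X.X₃ ⟶ X'.X₃)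
    (h₁₂ : (resFunctor f).map X.f ≫ φ₂ = φ₁ ≫ X'.f)
    (h₂₃ : (resFunctor f).map X.g ≫ φ₃ = φ₂ ≫ X'.g) (i j : ℕ) (hij : i + 1 = j) :
    δ hX i j hij ≫ map f φ₁ j = map f φ₃ i ≫ δ hX' i j hij :=
  HomologicalComplex.HomologySequence.δ_naturality
    (cochainsMapShortComplex f φ₁ φ₂ φ₃ h₁₂ h₂₃)
    (map_cochainsFunctor_shortExact hX) (map_cochainsFunctor_shortExact hX') i j hij

/-- **Restriction commutes with connecting homomorphisms.** -/
theorem δ_res_comm (f : H →* G) {X : ShortComplex (Rep k G)} (hX : X.ShortExact)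
    (i j : ℕ) (hij : i + 1 = j) :
    δ hX i j hij ≫ map f (𝟙 (res f X.X₁)) j =
      map f (𝟙 (res f X.X₃)) i ≫ δ ((shortExact_res f).2 hX) i j hij :=
  δ_map_comm f hX ((shortExact_res f).2 hX) (𝟙 _) (𝟙 _) (𝟙 _)
    ((Category.comp_id _).trans (Category.id_comp _).symm)
    ((Category.comp_id _).trans (Category.id_comp _).symm) i j hij

end Fermat.Agent.S55.GC.ResDelta
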