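/-
S55 / GC1 (helper27): the EXPLICIT form of Shapiro's lemma.

For a subgroup `S ≤ G` and `B : Rep k S` the map
`sh S B n : Hⁿ(G, Coind_S^G B) ⟶ Hⁿ(S, B)` = restriction to `S` followed by evaluation at `1`
is an isomorphism for every `n`.  (Mathlib's `groupCohomology.coindIso` is an abstract isomorphism
through `Ext`; here the isomorphism is identified with the natural map, which is what one needs to
identify localisation maps, corestriction etc.)

Proof: both sides are δ-functors in `B`, `sh` is a morphism of δ-functors (`δ_map_comm`), an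
isomorphism in degree `0`, and both sides are effaced by `B ↪ hull B = Coind_1^S B`.
-/
import Mathlib
import Fermat.Agent.S55.GC.ResDelta

set_option autoImplicit false

namespace Fermat.Agent.S55.GC.Shapiro

open CategoryTheory groupCohomology Rep Limits Fermat.Agent.S55.GC.ResDelta

universe u

section Embedding

variable {k S : Type u} [CommRing k] [Group S]

/-- The acyclic hull `Coind_1^S B`. -/
noncomputable abbrev hull (B : Rep.{u} k S) : Rep.{u} k S :=
  coind (⊥ : Subgroup S).subtype (res (⊥ : Subgroup S).subtype B)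

/-- `b ↦ (h ↦ ρ(h) b)`. -/
noncomputable def hullι (B : Rep.{u} k S) : B ⟶ hull B :=
  resCoindToHom (⊥ : Subgroup S).subtype B (res (⊥ : Subgroup S).subtype B) (𝟙 _)

lemma hullι_apply (B : Rep.{u} k S) (b : B.V) (h : S) : ((hullι B).hom b).1 h = B.ρ h b := rfl

instance hullι_mono (B : Rep.{u} k S) : Mono (hullι B) := by
  rw [Rep.mono_iff_injective]
  intro b b' h
  have h1 : ((hullι B).hom b).1 1 = ((hullι B).hom b').1 1 := by rw [h]
  rw [hullι_apply, hullι_apply, map_one] at h1
  exact h1

/-- `hull B` is acyclic. -/
lemma isZero_groupCohomology_hull (B : Rep.{u} k S) (m : ℕ) :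
    IsZero (groupCohomology (hull B) (m + 1)) := by
  have h1 : IsZero (groupCohomology (res (⊥ : Subgroup S).subtype B) (m + 1)) :=
    isZero_groupCohomology_succ_of_subsingleton _ m
  exact h1.of_iso (groupCohomology.coindIso (res (⊥ : Subgroup S).subtype B) (m + 1))

/-- The short exact sequence `0 → B → hull B → hull B / B → 0`. -/
noncomputable def hullSeq (B : Rep.{u} k S) : ShortComplex (Rep.{u} k S) :=
  ShortComplex.mk (hullι B) (cokernel.π (hullι B)) (cokernel.condition _)

lemma hullSeq_shortExact (B : Rep.{u} k S) : (hullSeq B).ShortExact where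
  exact := ShortComplex.exact_cokernel _
  mono_f := inferInstanceAs (Mono (hullι B))
  epi_g := inferInstanceAs (Epi (cokernel.π (hullι B)))

end Embedding

section Shapiro

variable {k G : Type u} [CommRing k] [Group G] (S : Subgroup G)

/-- Evaluation at `1`: the counit `res (coind B) ⟶ B`. -/
noncomputable def coindEval (B : Rep.{u} k S) : res S.subtype (coind S.subtype B) ⟶ B :=
  Rep.ofHom ⟨LinearMap.proj 1 ∘ₗ (B.ρ.coindV S.subtype).subtype, fun s => by
    ext x
    have h := x.2 s 1
    simp only [Subgroup.subtype_apply, mul_one] at h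
    show x.1 (1 * (s : G)) = B.ρ s (x.1 1)
    rw [one_mul, h]⟩

lemma coindEval_apply (B : Rep.{u} k S) (x : (coind S.subtype B).V) :
    (coindEval S B).hom x = x.1 1 := rfl

/-- **The explicit Shapiro map**: restriction to `S` followed by evaluation at `1`. -/
noncomputable def sh (B : Rep.{u} k S) (n : ℕ) :
    groupCohomology (coind S.subtype B) n ⟶ groupCohomology B n :=
  map S.subtype (coindEval S B) n

lemma coindEval_naturality {B B' : Rep.{u} k S} (φ : B ⟶ B') :
    (resFunctor S.subtype).map (coindMap S.subtype φ) ≫ coindEval S B' = coindEval S B ≫ φ := by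
  ext x
  rfl

/-- `sh` is natural in `B`. -/
lemma sh_naturality {B B' : Rep.{u} k S} (φ : B ⟶ B') (n : ℕ) :
    map (MonoidHom.id G) (coindMap S.subtype φ) n ≫ sh S B' n =
      sh S B n ≫ map (MonoidHom.id S) φ n := by
  unfold sh
  rw [← map_comp, ← map_comp]
  exact map_congr rfl (by rw [coindEval_naturality]; rfl) n

instance coindFunctor_additive : (coindFunctor.{u} k S.subtype).Additive :=
  (resCoindAdjunction.{u} k S.subtype).right_adjoint_additive

instance coindFunctor_preservesFiniteLimits :
    PreservesFiniteLimits (coindFunctor.{u} k S.subtype) := by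
  have : PreservesLimitsOfSize.{0, 0} (coindFunctor.{u} k S.subtype) :=
    (resCoindAdjunction.{u} k S.subtype).rightAdjoint_preservesLimits
  exact PreservesLimitsOfSize.preservesFiniteLimits _

/-- `Coind_S^G` is exact. -/
lemma coind_shortExact {E : ShortComplex (Rep.{u} k S)} (hE : E.ShortExact) :
    (E.map (coindFunctor.{u} k S.subtype)).ShortExact := by
  have h := (Functor.preservesFiniteLimits_iff_forall_exact_map_and_mono
    (coindFunctor.{u} k S.subtype)).1 inferInstance E hE
  have : Epi E.g := hE.epi_g
  exact { exact := h.1, mono_f := h.2,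
          epi_g := inferInstanceAs (Epi ((coindFunctor.{u} k S.subtype).map E.g)) }

/-- `sh` commutes with connecting homomorphisms. -/
lemma sh_δ {E : ShortComplex (Rep.{u} k S)} (hE : E.ShortExact) (i j : ℕ) (hij : i + 1 = j) :
    δ (coind_shortExact S hE) i j hij ≫ sh S E.X₁ j = sh S E.X₃ i ≫ δ hE i j hij :=
  δ_map_comm S.subtype (coind_shortExact S hE) hE (coindEval S E.X₁) (coindEval S E.X₂)
    (coindEval S E.X₃) (coindEval_naturality S E.f) (coindEval_naturality S E.g) i j hij

/-! ### Degree `0` -/

lemma sh_zero_apply (B : Rep.{u} k S) (x : groupCohomology (coind S.subtype B) 0) :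
    ((H0Iso B).hom (sh S B 0 x)).1 = ((H0Iso (coind S.subtype B)).hom x).1.1 1 := by
  have := map_H0Iso_hom_f_apply S.subtype (coindEval S B) x
  exact this

lemma coind_invariants_apply (B : Rep.{u} k S) (f : (coind S.subtype B).ρ.invariants) (g : G) :
    f.1.1 g = f.1.1 1 := by
  have h := f.2 g
  have h' := congrArg (fun F : (coind S.subtype B).V => F.1 1) h
  have e : ((coind S.subtype B).ρ g f.1).1 1 = f.1.1 (1 * g) := rfl
  simp only at h'
  rw [e, one_mul] at h'
  exact h'

/-- The constant function as an invariant of the coinduced representation. -/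
def coindConst (B : Rep.{u} k S) (b : B.ρ.invariants) : (coind S.subtype B).ρ.invariants :=
  ⟨⟨fun _ => b.1, fun s _ => (b.2 s).symm⟩, fun g => by
    apply Subtype.ext
    funext x
    rfl⟩

lemma sh_zero_bijective (B : Rep.{u} k S) : Function.Bijective (sh S B 0) := by
  constructor
  · intro x y hxy
    apply (ConcreteCategory.bijective_of_isIso (H0Iso (coind S.subtype B)).hom).1
    have h1 := sh_zero_apply S B x
    have h2 := sh_zero_apply S B y
    rw [hxy] at h1
    have h3 := h1.symm.trans h2
    apply Subtype.ext
    apply Subtype.ext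
    funext g
    rw [coind_invariants_apply S B _ g, coind_invariants_apply S B _ g]
    exact h3
  · intro b
    refine ⟨(H0Iso (coind S.subtype B)).inv (coindConst S B ((H0Iso B).hom b)), ?_⟩
    apply (ConcreteCategory.bijective_of_isIso (H0Iso B).hom).1
    apply Subtype.ext
    rw [sh_zero_apply]
    have : (H0Iso (coind S.subtype B)).hom ((H0Iso (coind S.subtype B)).inv
        (coindConst S B ((H0Iso B).hom b))) = coindConst S B ((H0Iso B).hom b) := by
      simp
    rw [this]
    rfl

/-! ### The inductive step -/

lemma sh_succ_bijective {E : ShortComplex (Rep.{u} k S)} (hE : E.ShortExact) (n : ℕ)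
    (h2 : Function.Bijective (sh S E.X₂ n)) (h3 : Function.Bijective (sh S E.X₃ n))
    (hz : IsZero (groupCohomology E.X₂ (n + 1)))
    (hz' : IsZero (groupCohomology (coind S.subtype E.X₂) (n + 1))) :
    Function.Bijective (sh S E.X₁ (n + 1)) := by
  have hCE := coind_shortExact S hE
  have hδ_surj : Function.Surjective (δ hE n (n + 1) rfl) :=
    (ModuleCat.epi_iff_surjective _).1 (epi_δ_of_isZero hE n hz)
  have hδ'_surj : Function.Surjective (δ hCE n (n + 1) rfl) :=
    (ModuleCat.epi_iff_surjective _).1 (epi_δ_of_isZero hCE n hz')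
  have hcomm : ∀ x, sh S E.X₁ (n + 1) (δ hCE n (n + 1) rfl x) =
      δ hE n (n + 1) rfl (sh S E.X₃ n x) := by
    intro x
    have := ConcreteCategory.congr_hom (sh_δ S hE n (n + 1) rfl) x
    exact this
  have hnat : ∀ x, sh S E.X₃ n (map (MonoidHom.id G) (coindMap S.subtype E.g) n x) =
      map (MonoidHom.id S) E.g n (sh S E.X₂ n x) := by
    intro x
    have := ConcreteCategory.congr_hom (sh_naturality S E.g n) x
    exact this
  have hex := (ShortComplex.moduleCat_exact_iff _).1 (mapShortComplex₃_exact hE (i := n) rfl)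
  have hzero' : ∀ x : groupCohomology (coind S.subtype E.X₂) n,
      δ hCE n (n + 1) rfl (map (MonoidHom.id G) (coindMap S.subtype E.g) n x) = 0 := by
    intro x
    have := ConcreteCategory.congr_hom (mapShortComplex₃ hCE (i := n) rfl).zero x
    exact this
  constructor
  · rw [injective_iff_map_eq_zero]
    intro x hx
    obtain ⟨z', rfl⟩ := hδ'_surj x
    rw [hcomm] at hx
    obtain ⟨w, hw⟩ := hex _ hx
    obtain ⟨w', rfl⟩ := h2.2 w
    have hw' : map (MonoidHom.id S) E.g n (sh S E.X₂ n w') = sh S E.X₃ n z' := hw
    rw [← hnat] at hw'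
    have := h3.1 hw'
    rw [← this]
    exact hzero' w'
  · intro y
    obtain ⟨z, rfl⟩ := hδ_surj y
    obtain ⟨z', rfl⟩ := h3.2 z
    exact ⟨δ hCE n (n + 1) rfl z', hcomm z'⟩

/-- **Explicit Shapiro**: `sh S B n` is bijective for all `n`. -/
theorem sh_bijective (n : ℕ) : ∀ B : Rep.{u} k S, Function.Bijective (sh S B n) := by
  induction n with
  | zero => exact sh_zero_bijective S
  | succ n ih =>
    intro B
    have hz' : IsZero (groupCohomology (coind.{u, u, u, u} S.subtype (hull B)) (n + 1)) :=
      (isZero_groupCohomology_hull B n).of_iso (groupCohomology.coindIso (hull B) (n + 1))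
    exact sh_succ_bijective S (hullSeq_shortExact B) n (ih _) (ih _)
      (isZero_groupCohomology_hull B n) hz'

instance sh_isIso (B : Rep.{u} k S) (n : ℕ) : IsIso (sh S B n) :=
  (ConcreteCategory.isIso_iff_bijective _).2 (sh_bijective S n B)

/-- **Shapiro's lemma, explicit form**: `Hⁿ(G, Coind_S^G B) ≅ Hⁿ(S, B)` via restriction followed
by evaluation at `1`. -/
noncomputable def shIso (B : Rep.{u} k S) (n : ℕ) :
    groupCohomology (coind S.subtype B) n ≅ groupCohomology B n :=
  asIso (sh S B n)

@[simp] lemma shIso_hom (B : Rep.{u} k S) (n : ℕ) : (shIso S B n).hom = sh S B n := rfl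

end Shapiro

end Fermat.Agent.S55.GC.Shapiro
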