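/-
S55 / ALG12 : semi-local modules.  Recognition criterion for coinduced representations.

`A : Rep k G`, `S ≤ G` of finite index, `B : Rep k S`, `π : res S A ⟶ B` ("projection to the
component at the base point").  If

* (inj)  `a = 0` as soon as `π (g a) = 0` for all `g`,
* (surj) every `b : B` is `π a` for some `a` with `π (g a) = 0` for all `g ∉ S`,

then `toCoind π : A ⟶ coind_S^G B`, `a ↦ (g ↦ π (g a))`, is an isomorphism, and the localisation
map `loc π n : Hⁿ(G, A) → Hⁿ(S, B)` "restrict to `S`, then project by `π`" is an isomorphism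
(= helper27's explicit Shapiro map `Shapiro.sh` for `coind B` transported along `toCoind π`).

Several orbits: for a finite family `(S i, B i, π i)` satisfying the analogous criterion the
product of the localisation maps `Hⁿ(G, A) → ∏ i, Hⁿ(S i, B i)` is bijective
(`semiLocal_bijective`).  Also: `Hⁿ(G, -)` is additive and commutes with finite products
(`bijective_pi_map`).
-/
import Mathlib
import Fermat.Agent.S55.GC.ShapiroExplicit

universe u

namespace Fermat.Agent.S55.GC.SemiLocal

open CategoryTheory Rep

variable {k G : Type u} [CommRing k] [Group G]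

section Recognition

variable {A : Rep.{u} k G} {S : Subgroup G} {B : Rep.{u} k S} (π : res S.subtype A ⟶ B)

/-- The canonical map `A ⟶ coind_S^G B`, `a ↦ (g ↦ π (g a))`, attached to an `S`-equivariant
`π : A → B`. -/
noncomputable abbrev toCoind : A ⟶ coind S.subtype B := resCoindToHom S.subtype A B π

lemma toCoind_apply (a : A) (g : G) : ((toCoind π).hom a).1 g = π.hom (A.ρ g a) := rfl

lemma π_equivariant (s : S) (a : A) : π.hom (A.ρ (s : G) a) = B.ρ s (π.hom a) :=
  hom_comm_apply π s a

/-- (inj) gives injectivity of `toCoind π`. -/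
lemma toCoind_injective (hinj : ∀ a : A, (∀ g : G, π.hom (A.ρ g a) = 0) → a = 0) :
    Function.Injective (toCoind π).hom := by
  rw [injective_iff_map_eq_zero]
  intro a ha
  refine hinj a fun g => ?_
  have := congrArg (fun f : coind S.subtype B => f.1 g) ha
  simpa using this

/-- Explicit preimage under `toCoind π`: if `c : B → A` picks for each `b` an element with
`π`-component `b` at the base point and `0` at the other points, then
`∑_{q ∈ G ⧸ S} q̃ • c (f (q̃⁻¹))` is a preimage of `f`. -/
lemma toCoind_sum_eq [Fintype (G ⧸ S)] (c : B → A) (hc : ∀ b, π.hom (c b) = b)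
    (hc' : ∀ b, ∀ g : G, g ∉ S → π.hom (A.ρ g (c b)) = 0) (f : coind S.subtype B) :
    (toCoind π).hom (∑ q : G ⧸ S, A.ρ q.out (c (f.1 (q.out)⁻¹))) = f := by
  classical
  apply Subtype.ext
  funext g
  change π.hom (A.ρ g (∑ q : G ⧸ S, A.ρ q.out (c (f.1 (q.out)⁻¹)))) = f.1 g
  have hsum : π.hom (A.ρ g (∑ q : G ⧸ S, A.ρ q.out (c (f.1 (q.out)⁻¹)))) =
      ∑ q : G ⧸ S, π.hom (A.ρ (g * q.out) (c (f.1 (q.out)⁻¹))) := by
    simp only [map_sum]
    refine Finset.sum_congr rfl fun q _ => ?_
    rw [map_mul]; rfl
  rw [hsum, Finset.sum_eq_single (QuotientGroup.mk g⁻¹ : G ⧸ S)]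
  · -- the surviving term
    set t : G := (QuotientGroup.mk g⁻¹ : G ⧸ S).out with ht
    have hmem : g * t ∈ S := by
      have h1 : (QuotientGroup.mk t : G ⧸ S) = QuotientGroup.mk g⁻¹ := QuotientGroup.out_eq' _
      have := QuotientGroup.eq.1 h1.symm
      simpa using this
    have h2 : π.hom (A.ρ (g * t) (c (f.1 t⁻¹))) = B.ρ ⟨g * t, hmem⟩ (f.1 t⁻¹) := by
      have := π_equivariant π ⟨g * t, hmem⟩ (c (f.1 t⁻¹))
      rw [hc] at this
      exact this
    rw [h2]
    have h3 := f.2 ⟨g * t, hmem⟩ t⁻¹
    simp only [Subgroup.subtype_apply, mul_inv_cancel_right] at h3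
    exact h3.symm
  · intro q _ hq
    apply hc'
    intro hmem
    apply hq
    have : (QuotientGroup.mk q.out : G ⧸ S) = QuotientGroup.mk g⁻¹ := by
      rw [QuotientGroup.eq]
      simpa using S.inv_mem hmem
    rw [← this, QuotientGroup.out_eq']
  · intro h; exact absurd (Finset.mem_univ _) h

/-- (surj) gives surjectivity of `toCoind π` when `S` has finite index. -/
lemma toCoind_surjective [S.FiniteIndex]
    (hsurj : ∀ b : B, ∃ a : A, π.hom a = b ∧ ∀ g : G, g ∉ S → π.hom (A.ρ g a) = 0) :
    Function.Surjective (toCoind π).hom := by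
  have : Fintype (G ⧸ S) := Fintype.ofFinite _
  intro f
  choose c hc hc' using hsurj
  exact ⟨_, toCoind_sum_eq π c hc hc' f⟩

/-- **Recognition criterion**: under (inj) and (surj), `A ≅ coind_S^G B`. -/
theorem isIso_toCoind [S.FiniteIndex]
    (hinj : ∀ a : A, (∀ g : G, π.hom (A.ρ g a) = 0) → a = 0)
    (hsurj : ∀ b : B, ∃ a : A, π.hom a = b ∧ ∀ g : G, g ∉ S → π.hom (A.ρ g a) = 0) :
    IsIso (toCoind π) := by
  have hbij : Function.Bijective (toCoind π).hom :=
    ⟨toCoind_injective π hinj, toCoind_surjective π hsurj⟩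
  have : IsIso ((forget (Rep k G)).map (toCoind π)) := (isIso_iff_bijective _).2 hbij
  exact isIso_of_reflects_iso (toCoind π) (forget (Rep k G))

end Recognition

section Additive

open groupCohomology

/-- `Hⁿ(G, -)` is an additive functor. -/
instance functor_additive (n : ℕ) : (functor k G n).Additive where
  map_add {A B φ ψ} := by
    change map (MonoidHom.id G) (φ + ψ) n = map (MonoidHom.id G) φ n + map (MonoidHom.id G) ψ n
    have h : cochainsMap (MonoidHom.id G) (φ + ψ) =
        cochainsMap (MonoidHom.id G) φ + cochainsMap (MonoidHom.id G) ψ :=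
      (cochainsFunctor k G).map_add
    rw [groupCohomology.map, h, HomologicalComplex.homologyMap_add]
    rfl

end Additive

section Products

open groupCohomology

variable {ι : Type*} {A : Rep.{u} k G} {A' : ι → Rep.{u} k G} (p : ∀ i, A ⟶ A' i)

/-- A jointly bijective family of projections identifies `A` with the product of the `A' i`. -/
noncomputable def piEquiv (hp : Function.Bijective (fun (a : A) (i : ι) => (p i).hom a)) :
    A.V ≃ₗ[k] (∀ i, (A' i).V) :=
  LinearEquiv.ofBijective (LinearMap.pi fun i => (p i).hom.toLinearMap) hp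

lemma piEquiv_apply (hp : Function.Bijective (fun (a : A) (i : ι) => (p i).hom a)) (a : A)
    (i : ι) : piEquiv p hp a i = (p i).hom a := rfl

lemma p_piEquiv_symm (hp : Function.Bijective (fun (a : A) (i : ι) => (p i).hom a))
    (x : ∀ i, (A' i).V) (i : ι) : (p i).hom ((piEquiv p hp).symm x) = x i := by
  rw [← piEquiv_apply p hp, LinearEquiv.apply_symm_apply]

open scoped Classical in
/-- The inclusion of the `i`-th factor. -/
noncomputable def sec (hp : Function.Bijective (fun (a : A) (i : ι) => (p i).hom a)) (i : ι) :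
    A' i ⟶ A :=
  Rep.ofHom ⟨(piEquiv p hp).symm.toLinearMap ∘ₗ LinearMap.single k (fun i => (A' i).V) i,
    fun g => by
      ext b
      apply (piEquiv p hp).injective
      funext j
      simp only [LinearMap.coe_comp, LinearEquiv.coe_coe, Function.comp_apply,
        LinearMap.coe_single, piEquiv_apply]
      rw [hom_comm_apply]
      by_cases h : j = i
      · subst h; simp [p_piEquiv_symm]
      · simp [Pi.single_eq_of_ne h, p_piEquiv_symm]⟩

open scoped Classical in
lemma sec_apply (hp : Function.Bijective (fun (a : A) (i : ι) => (p i).hom a)) (i : ι)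
    (b : A' i) : (sec p hp i).hom b = (piEquiv p hp).symm (Pi.single i b) := rfl

lemma sec_comp_self (hp : Function.Bijective (fun (a : A) (i : ι) => (p i).hom a)) (i : ι) :
    sec p hp i ≫ p i = 𝟙 _ := by
  classical
  ext b
  simp [sec_apply, p_piEquiv_symm]

lemma sec_comp_ne (hp : Function.Bijective (fun (a : A) (i : ι) => (p i).hom a)) {i j : ι}
    (h : j ≠ i) : sec p hp i ≫ p j = 0 := by
  classical
  ext b
  simp [sec_apply, p_piEquiv_symm, Pi.single_eq_of_ne h]

lemma sum_comp_sec [Fintype ι] (hp : Function.Bijective (fun (a : A) (i : ι) => (p i).hom a)) :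
    ∑ i, p i ≫ sec p hp i = 𝟙 A := by
  classical
  ext a
  apply (piEquiv p hp).injective
  funext j
  simp only [sum_hom, Rep.hom_comp, Rep.hom_id, Representation.IntertwiningMap.toLinearMap_apply,
    Representation.IntertwiningMap.sum_apply, Representation.IntertwiningMap.comp_apply,
    Representation.IntertwiningMap.id_apply, map_sum, piEquiv_apply,
    sec_apply, p_piEquiv_symm]
  rw [Finset.sum_eq_single j]
  · simp
  · intro i _ hi; simp [Pi.single_eq_of_ne (Ne.symm hi)]
  · intro h; exact absurd (Finset.mem_univ _) h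

/-- **Cohomology commutes with finite products**: a jointly bijective finite family of
morphisms `p i : A ⟶ A' i` induces a bijection `Hⁿ(G, A) → ∏ i, Hⁿ(G, A' i)`. -/
theorem bijective_pi_map [Finite ι]
    (hp : Function.Bijective (fun (a : A) (i : ι) => (p i).hom a)) (n : ℕ) :
    Function.Bijective (fun (x : groupCohomology A n) (i : ι) =>
      (map (MonoidHom.id G) (p i) n).hom x) := by
  classical
  have : Fintype ι := Fintype.ofFinite ι
  have hid : ∑ i, map (MonoidHom.id G) (p i) n ≫ map (MonoidHom.id G) (sec p hp i) n =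
      𝟙 (groupCohomology A n) := by
    have h := congrArg (functor k G n).map (sum_comp_sec p hp)
    rw [Functor.map_sum, CategoryTheory.Functor.map_id] at h
    simp only [CategoryTheory.Functor.map_comp] at h
    exact h
  have hid' : ∀ z : groupCohomology A n, ∑ i, (map (MonoidHom.id G) (sec p hp i) n).hom
      ((map (MonoidHom.id G) (p i) n).hom z) = z := by
    intro z
    have h := congrArg (fun f : groupCohomology A n ⟶ groupCohomology A n => f.hom z) hid
    simpa [ModuleCat.hom_sum] using h
  have hps : ∀ (i j : ι) (y : groupCohomology (A' i) n),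
      (map (MonoidHom.id G) (p j) n).hom ((map (MonoidHom.id G) (sec p hp i) n).hom y) =
        if h : i = j then h ▸ y else 0 := by
    intro i j y
    by_cases h : i = j
    · subst h
      have h1 : map (MonoidHom.id G) (sec p hp i) n ≫ map (MonoidHom.id G) (p i) n = 𝟙 _ := by
        rw [← map_id_comp, sec_comp_self, map_id]
      have h2 := congrArg (fun f : groupCohomology (A' i) n ⟶ groupCohomology (A' i) n =>
        f.hom y) h1
      simpa using h2
    · have h1 : map (MonoidHom.id G) (sec p hp i) n ≫ map (MonoidHom.id G) (p j) n = 0 := by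
        rw [← map_id_comp, sec_comp_ne p hp (Ne.symm h)]
        exact (functor k G n).map_zero _ _
      have h2 := congrArg (fun f : groupCohomology (A' i) n ⟶ groupCohomology (A' j) n =>
        f.hom y) h1
      simpa [h] using h2
  constructor
  · intro x y hxy
    rw [← hid' x, ← hid' y]
    refine Finset.sum_congr rfl fun i _ => ?_
    have := congrFun hxy i
    simp only at this
    rw [this]
  · intro y
    refine ⟨∑ i, (map (MonoidHom.id G) (sec p hp i) n).hom (y i), ?_⟩
    funext j
    simp only [map_sum, hps]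
    rw [Finset.sum_eq_single j]
    · simp
    · intro i _ hi; simp [hi]
    · intro h; exact absurd (Finset.mem_univ _) h

end Products

section Cohomology

open groupCohomology

variable {A : Rep.{u} k G} {S : Subgroup G} {B : Rep.{u} k S} (π : res S.subtype A ⟶ B)

/-- The localisation map `Hⁿ(G, A) ⟶ Hⁿ(S, B)`: restrict to `S`, then project by `π`. -/
noncomputable abbrev loc (n : ℕ) : groupCohomology A n ⟶ groupCohomology B n :=
  map S.subtype π n

/-- `loc π` is Shapiro's explicit map composed with `Hⁿ(G, toCoind π)`. -/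
lemma loc_eq (n : ℕ) : loc π n = map (MonoidHom.id G) (toCoind π) n ≫ Shapiro.sh S B n := by
  rw [loc, Shapiro.sh, ← map_comp]
  refine map_congr rfl ?_ n
  ext a
  change π.hom a = π.hom (A.ρ 1 a)
  rw [map_one]; rfl

/-- **Semi-local Shapiro, one orbit**: under the recognition criterion the localisation map
`Hⁿ(G, A) ⟶ Hⁿ(S, B)` (restrict to `S`, then project by `π`) is an isomorphism. -/
theorem isIso_loc [S.FiniteIndex]
    (hinj : ∀ a : A, (∀ g : G, π.hom (A.ρ g a) = 0) → a = 0)
    (hsurj : ∀ b : B, ∃ a : A, π.hom a = b ∧ ∀ g : G, g ∉ S → π.hom (A.ρ g a) = 0)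
    (n : ℕ) : IsIso (loc π n) := by
  have h1 : IsIso (toCoind π) := isIso_toCoind π hinj hsurj
  have h2 : IsIso (map (MonoidHom.id G) (toCoind π) n) :=
    inferInstanceAs (IsIso ((functor k G n).map (toCoind π)))
  rw [loc_eq]
  infer_instance

/-- The localisation isomorphism `Hⁿ(G, A) ≅ Hⁿ(S, B)`. -/
noncomputable def locIso [S.FiniteIndex]
    (hinj : ∀ a : A, (∀ g : G, π.hom (A.ρ g a) = 0) → a = 0)
    (hsurj : ∀ b : B, ∃ a : A, π.hom a = b ∧ ∀ g : G, g ∉ S → π.hom (A.ρ g a) = 0)
    (n : ℕ) : groupCohomology A n ≅ groupCohomology B n :=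
  haveI : IsIso (loc π n) := isIso_loc π hinj hsurj n
  asIso (loc π n)

lemma locIso_hom [S.FiniteIndex]
    (hinj : ∀ a : A, (∀ g : G, π.hom (A.ρ g a) = 0) → a = 0)
    (hsurj : ∀ b : B, ∃ a : A, π.hom a = b ∧ ∀ g : G, g ∉ S → π.hom (A.ρ g a) = 0)
    (n : ℕ) : (locIso π hinj hsurj n).hom = loc π n := rfl

lemma loc_bijective [S.FiniteIndex]
    (hinj : ∀ a : A, (∀ g : G, π.hom (A.ρ g a) = 0) → a = 0)
    (hsurj : ∀ b : B, ∃ a : A, π.hom a = b ∧ ∀ g : G, g ∉ S → π.hom (A.ρ g a) = 0)
    (n : ℕ) : Function.Bijective (loc π n).hom :=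
  (ConcreteCategory.isIso_iff_bijective (loc π n)).1 (isIso_loc π hinj hsurj n)

lemma isZero_iff [S.FiniteIndex]
    (hinj : ∀ a : A, (∀ g : G, π.hom (A.ρ g a) = 0) → a = 0)
    (hsurj : ∀ b : B, ∃ a : A, π.hom a = b ∧ ∀ g : G, g ∉ S → π.hom (A.ρ g a) = 0)
    (n : ℕ) : Limits.IsZero (groupCohomology A n) ↔ Limits.IsZero (groupCohomology B n) :=
  (locIso π hinj hsurj n).isZero_iff

lemma card_eq [S.FiniteIndex]
    (hinj : ∀ a : A, (∀ g : G, π.hom (A.ρ g a) = 0) → a = 0)
    (hsurj : ∀ b : B, ∃ a : A, π.hom a = b ∧ ∀ g : G, g ∉ S → π.hom (A.ρ g a) = 0)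
    (n : ℕ) : Nat.card (groupCohomology A n) = Nat.card (groupCohomology B n) :=
  Nat.card_eq_of_bijective _ (loc_bijective π hinj hsurj n)

end Cohomology

section Family

open groupCohomology

variable {ι : Type*} {A : Rep.{u} k G} {S : ι → Subgroup G} {B : ∀ i, Rep.{u} k (S i)}
  (π : ∀ i, res (S i).subtype A ⟶ B i)

/-- **Recognition criterion, several orbits.**  `A` is the product of the coinduced modules
`coind_{S i}^G (B i)` as soon as the family of "components" `g ↦ π i (g a)` separates the points
of `A` and every `b : B i` is the `π i`-component of an element all of whose other components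
vanish. -/
theorem toCoind_family_bijective [Finite ι] [∀ i, (S i).FiniteIndex]
    (hinj : ∀ a : A, (∀ i (g : G), (π i).hom (A.ρ g a) = 0) → a = 0)
    (hsurj : ∀ i (b : B i), ∃ a : A, (π i).hom a = b ∧
      (∀ g : G, g ∉ S i → (π i).hom (A.ρ g a) = 0) ∧
      ∀ j, j ≠ i → ∀ g : G, (π j).hom (A.ρ g a) = 0) :
    Function.Bijective (fun (a : A) (i : ι) => (toCoind (π i)).hom a) := by
  classical
  have : Fintype ι := Fintype.ofFinite ι
  have : ∀ i, Fintype (G ⧸ S i) := fun i => Fintype.ofFinite _
  constructor
  · intro a a' h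
    rw [← sub_eq_zero]
    refine hinj _ fun i g => ?_
    have h1 : (toCoind (π i)).hom (a - a') = 0 := by
      rw [map_sub, sub_eq_zero]; exact congrFun h i
    have := congrArg (fun f : coind (S i).subtype (B i) => f.1 g) h1
    simpa using this
  · intro f
    choose c hc hc' hc'' using hsurj
    refine ⟨∑ i, ∑ q : G ⧸ S i, A.ρ q.out (c i ((f i).1 (q.out)⁻¹)), ?_⟩
    funext j
    simp only [map_sum (toCoind (π j)).hom]
    rw [Finset.sum_eq_single j]
    · rw [← map_sum]
      exact toCoind_sum_eq (π j) (c j) (hc j) (hc' j) (f j)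
    · intro i _ hi
      refine Finset.sum_eq_zero fun q _ => ?_
      apply Subtype.ext
      funext g
      change (π j).hom (A.ρ g (A.ρ q.out (c i ((f i).1 (q.out)⁻¹)))) = 0
      have := hc'' i ((f i).1 (q.out)⁻¹) j (Ne.symm hi) (g * q.out)
      rwa [map_mul] at this
    · intro h; exact absurd (Finset.mem_univ _) h

/-- **Semi-local Shapiro, several orbits**: under the recognition criterion the product of the
localisation maps `Hⁿ(G, A) → ∏ i, Hⁿ(S i, B i)` is bijective. -/
theorem semiLocal_bijective [Finite ι] [∀ i, (S i).FiniteIndex]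
    (hinj : ∀ a : A, (∀ i (g : G), (π i).hom (A.ρ g a) = 0) → a = 0)
    (hsurj : ∀ i (b : B i), ∃ a : A, (π i).hom a = b ∧
      (∀ g : G, g ∉ S i → (π i).hom (A.ρ g a) = 0) ∧
      ∀ j, j ≠ i → ∀ g : G, (π j).hom (A.ρ g a) = 0)
    (n : ℕ) :
    Function.Bijective (fun (x : groupCohomology A n) (i : ι) => (loc (π i) n).hom x) := by
  have h1 := bijective_pi_map (fun i => toCoind (π i)) (toCoind_family_bijective π hinj hsurj) n
  have h2 : Function.Bijective (fun (y : ∀ i, groupCohomology (coind (S i).subtype (B i)) n)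
      (i : ι) => (Shapiro.sh (S i) (B i) n).hom (y i)) := by
    have hb : ∀ i, Function.Bijective (Shapiro.sh (S i) (B i) n).hom := fun i =>
      Shapiro.sh_bijective (S i) n (B i)
    constructor
    · intro y y' h
      funext i
      exact (hb i).1 (congrFun h i)
    · intro z
      choose y hy using fun i => (hb i).2 (z i)
      exact ⟨y, funext hy⟩
  have h3 := h2.comp h1
  convert h3 using 1
  funext x i
  simp only [Function.comp_apply]
  rw [loc_eq]
  rfl

end Family

end Fermat.Agent.S55.GC.SemiLocal
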