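/-
S55 / GC1 (helper27): corestriction for ordinary group cohomology, `cores ∘ res = index`, and the
Sylow consequences.

For a finite index subgroup `S ≤ G` and `A : Rep k G`:
* `coindUnit S A : A ⟶ Coind_S^G (Res A)`, `coindTrace S A : Coind_S^G (Res A) ⟶ A`
  (`f ↦ ∑_{gS} ρ(g) f(g⁻¹)`), `coindUnit ≫ coindTrace = [G:S] • 𝟙`;
* `resMap S A n : Hⁿ(G, A) ⟶ Hⁿ(S, A)` (Mathlib's `map S.subtype (𝟙 _) n`),
  `cores S A n : Hⁿ(S, A) ⟶ Hⁿ(G, A)` := (explicit Shapiro)⁻¹ followed by the trace;
* `resMap_comp_cores : resMap ≫ cores = [G:S] • 𝟙`;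
* `index_nsmul_eq_zero_of_resMap_eq_zero`, `index_nsmul_eq_zero_of_isZero`, `card_nsmul_eq_zero`,
  `eq_zero_of_resMap_sylow_eq_zero` (res to a Sylow `p`-subgroup is injective on `p`-primary
  elements), `isZero_of_isZero_sylow`.
-/
import Mathlib
import Fermat.Agent.S55.GC.ShapiroExplicit

set_option autoImplicit false

namespace Fermat.Agent.S55.GC.Cores

open CategoryTheory groupCohomology Rep Limits Fermat.Agent.S55.GC.ResDelta
  Fermat.Agent.S55.GC.Shapiro

universe u

variable {k G : Type u} [CommRing k] [Group G] (S : Subgroup G)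

section Trace

variable (A : Rep.{u} k G)

/-- `f ↦ ρ(g) f(g⁻¹)` as a linear map `Coind_S^G (Res A) → A`. -/
noncomputable def traceAux (g : G) : (coind.{u, u, u, u} S.subtype (res S.subtype A)).V →ₗ[k] A.V :=
  (A.ρ g).comp (LinearMap.proj g⁻¹ ∘ₗ ((res S.subtype A).ρ.coindV S.subtype).subtype)

lemma traceAux_apply (g : G) (f : (coind.{u, u, u, u} S.subtype (res S.subtype A)).V) :
    traceAux S A g f = A.ρ g (f.1 g⁻¹) := rfl

lemma traceAux_mul_right (g : G) (s : S) : traceAux S A (g * s) = traceAux S A g := by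
  ext f
  rw [traceAux_apply, traceAux_apply]
  have h := f.2 s⁻¹ g⁻¹
  have e : (g * (s : G))⁻¹ = S.subtype s⁻¹ * g⁻¹ := by simp [mul_inv_rev]
  rw [e, h]
  show A.ρ (g * s) (A.ρ (S.subtype s⁻¹) (f.1 g⁻¹)) = A.ρ g (f.1 g⁻¹)
  rw [← Module.End.mul_apply, ← map_mul]
  congr 2
  simp

/-- The term of the trace attached to a left coset. -/
noncomputable def traceTerm (q : G ⧸ S) :
    (coind.{u, u, u, u} S.subtype (res S.subtype A)).V →ₗ[k] A.V :=
  Quotient.liftOn' q (traceAux S A) (fun g₁ g₂ h => by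
    rw [QuotientGroup.leftRel_apply] at h
    have := traceAux_mul_right S A g₁ ⟨g₁⁻¹ * g₂, h⟩
    simp only [mul_inv_cancel_left] at this
    exact this.symm)

lemma traceTerm_mk (g : G) : traceTerm S A (QuotientGroup.mk g) = traceAux S A g := rfl

variable [S.FiniteIndex]

attribute [local instance] Subgroup.fintypeQuotientOfFiniteIndex

/-- The trace `Coind_S^G (Res A) ⟶ A`, `f ↦ ∑_{gS} ρ(g) f(g⁻¹)`. -/
noncomputable def coindTrace : coind.{u, u, u, u} S.subtype (res S.subtype A) ⟶ A :=
  Rep.ofHom ⟨∑ q : G ⧸ S, traceTerm S A q, fun h => by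
    ext f
    simp only [LinearMap.comp_apply, LinearMap.sum_apply, map_sum]
    rw [← Equiv.sum_comp (MulAction.toPerm h : G ⧸ S ≃ G ⧸ S)
      (fun q => traceTerm S A q (((coind.{u, u, u, u} S.subtype (res S.subtype A)).ρ h) f))]
    refine Finset.sum_congr rfl fun q _ => ?_
    induction q using QuotientGroup.induction_on with
    | H g =>
      rw [MulAction.toPerm_apply]
      show traceTerm S A (QuotientGroup.mk (h * g)) _ = A.ρ h (traceTerm S A (QuotientGroup.mk g) f)
      rw [traceTerm_mk, traceTerm_mk, traceAux_apply, traceAux_apply]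
      show A.ρ (h * g) (f.1 ((h * g)⁻¹ * h)) = A.ρ h (A.ρ g (f.1 g⁻¹))
      rw [map_mul, Module.End.mul_apply]
      congr 3
      group⟩

lemma coindTrace_apply (f : (coind.{u, u, u, u} S.subtype (res S.subtype A)).V) :
    (coindTrace S A).hom f = ∑ q : G ⧸ S, traceTerm S A q f := by
  show (∑ q : G ⧸ S, traceTerm S A q) f = _
  rw [LinearMap.sum_apply]

end Trace

section UnitTrace

variable (A : Rep.{u} k G)

/-- The unit `A ⟶ Coind_S^G (Res A)`, `a ↦ (g ↦ ρ(g) a)`. -/
noncomputable def coindUnit : A ⟶ coind.{u, u, u, u} S.subtype (res S.subtype A) :=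
  resCoindToHom S.subtype A (res S.subtype A) (𝟙 _)

lemma coindUnit_apply (a : A.V) (g : G) :
    ((coindUnit S A).hom a).1 g = A.ρ g a := rfl

/-- Triangle identity. -/
lemma res_coindUnit_comp_coindEval :
    (resFunctor S.subtype).map (coindUnit S A) ≫ coindEval S (res S.subtype A) = 𝟙 _ := by
  ext a
  show A.ρ 1 a = a
  rw [map_one]
  rfl

attribute [local instance] Subgroup.fintypeQuotientOfFiniteIndex

lemma coindUnit_comp_coindTrace_apply [S.FiniteIndex] (a : A.V) :
    (coindTrace S A).hom ((coindUnit S A).hom a) = S.index • a := by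
  rw [coindTrace_apply]
  have h : ∀ q : G ⧸ S, traceTerm S A q ((coindUnit S A).hom a) = a := by
    intro q
    induction q using QuotientGroup.induction_on with
    | H g =>
      rw [traceTerm_mk, traceAux_apply, coindUnit_apply, ← Module.End.mul_apply, ← map_mul,
        mul_inv_cancel, map_one]
      rfl
  rw [Finset.sum_congr rfl fun q _ => h q, Finset.sum_const, Finset.card_univ,
    Subgroup.index_eq_card, Nat.card_eq_fintype_card]

lemma coindUnit_comp_coindTrace [S.FiniteIndex] :
    coindUnit S A ≫ coindTrace S A = S.index • 𝟙 A := by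
  ext a
  exact coindUnit_comp_coindTrace_apply S A a

end UnitTrace

section Cores

variable (A : Rep.{u} k G)

lemma map_id_nsmul {A B : Rep.{u} k G} (φ : A ⟶ B) (m n : ℕ) :
    map (MonoidHom.id G) (m • φ) n = m • map (MonoidHom.id G) φ n := by
  show (HomologicalComplex.homologyFunctor _ _ n).map ((cochainsFunctor k G).map (m • φ)) =
    m • (HomologicalComplex.homologyFunctor _ _ n).map ((cochainsFunctor k G).map φ)
  rw [Functor.map_nsmul, Functor.map_nsmul]

/-- Restriction `Hⁿ(G, A) ⟶ Hⁿ(S, A)`. -/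
noncomputable abbrev resMap (n : ℕ) :
    groupCohomology A n ⟶ groupCohomology (res S.subtype A) n :=
  map S.subtype (𝟙 (res S.subtype A)) n

/-- Restriction is the unit followed by the explicit Shapiro map. -/
lemma map_coindUnit_comp_sh (n : ℕ) :
    map (MonoidHom.id G) (coindUnit S A) n ≫ sh S (res S.subtype A) n = resMap S A n := by
  unfold sh resMap
  rw [← map_comp]
  exact map_congr rfl
    (congrArg (fun φ : res S.subtype A ⟶ res S.subtype A => φ.hom.toLinearMap)
      (res_coindUnit_comp_coindEval S A)) n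

variable [S.FiniteIndex]

/-- **Corestriction** `Hⁿ(S, A) ⟶ Hⁿ(G, A)` for a finite index subgroup. -/
noncomputable def cores (n : ℕ) :
    groupCohomology (res S.subtype A) n ⟶ groupCohomology A n :=
  (shIso S (res S.subtype A) n).inv ≫ map (MonoidHom.id G) (coindTrace S A) n

/-- **`cores ∘ res = index`**. -/
theorem resMap_comp_cores (n : ℕ) :
    resMap S A n ≫ cores S A n = S.index • 𝟙 (groupCohomology A n) := by
  have h : map (MonoidHom.id G) (coindUnit S A ≫ coindTrace S A) n =
      map (MonoidHom.id G) (S.index • 𝟙 A) n :=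
    map_congr rfl (congrArg (fun φ : A ⟶ A => φ.hom.toLinearMap)
      (coindUnit_comp_coindTrace S A)) n
  rw [← map_coindUnit_comp_sh, cores, Category.assoc, ← shIso_hom, Iso.hom_inv_id_assoc,
    ← map_id_comp, h, map_id_nsmul, map_id]

theorem cores_resMap_apply (n : ℕ) (x : groupCohomology A n) :
    cores S A n (resMap S A n x) = S.index • x := by
  have := ConcreteCategory.congr_hom (resMap_comp_cores S A n) x
  exact this

end Cores

section Sylow

variable (A : Rep.{u} k G)

/-- If `res x = 0` then `[G : S] • x = 0`. -/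
theorem index_nsmul_eq_zero_of_resMap_eq_zero [S.FiniteIndex] (n : ℕ) (x : groupCohomology A n)
    (hx : resMap S A n x = 0) : S.index • x = 0 := by
  rw [← cores_resMap_apply, hx, map_zero]

/-- If `Hⁿ(S, A) = 0` then `[G : S]` kills `Hⁿ(G, A)`. -/
theorem index_nsmul_eq_zero_of_isZero [S.FiniteIndex] (n : ℕ)
    (h : IsZero (groupCohomology (res S.subtype A) n)) (x : groupCohomology A n) :
    S.index • x = 0 := by
  have := ModuleCat.subsingleton_of_isZero h
  exact index_nsmul_eq_zero_of_resMap_eq_zero S A n x (Subsingleton.elim _ _)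

/-- For a finite group, `|G|` kills `Hⁿ(G, A)`, `n ≥ 1`. -/
theorem card_nsmul_eq_zero [Finite G] (n : ℕ) (x : groupCohomology A (n + 1)) :
    Nat.card G • x = 0 := by
  have h := index_nsmul_eq_zero_of_isZero (⊥ : Subgroup G) A (n + 1)
    (isZero_groupCohomology_succ_of_subsingleton _ n) x
  rwa [Subgroup.index_bot] at h

/-- Two coprime integers killing `x` force `x = 0`. -/
lemma eq_zero_of_coprime_nsmul {M : Type*} [AddCommGroup M] {a b : ℕ} (hab : Nat.Coprime a b)
    {x : M} (ha : a • x = 0) (hb : b • x = 0) : x = 0 := by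
  have h1 : addOrderOf x ∣ a := addOrderOf_dvd_of_nsmul_eq_zero ha
  have h2 : addOrderOf x ∣ b := addOrderOf_dvd_of_nsmul_eq_zero hb
  have h3 : addOrderOf x ∣ 1 := by
    rw [← hab]
    exact Nat.dvd_gcd h1 h2
  exact AddMonoid.addOrderOf_eq_one_iff.mp (Nat.dvd_one.mp h3)

/-- **Restriction to a Sylow `p`-subgroup is injective on `p`-primary elements.** -/
theorem eq_zero_of_resMap_sylow_eq_zero [Finite G] {p : ℕ} [Fact p.Prime] (P : Sylow p G)
    (n : ℕ) (x : groupCohomology A n) {j : ℕ} (hp : p ^ j • x = 0)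
    (hx : resMap (P : Subgroup G) A n x = 0) : x = 0 := by
  have h1 := index_nsmul_eq_zero_of_resMap_eq_zero (P : Subgroup G) A n x hx
  have hcop : Nat.Coprime (p ^ j) (P : Subgroup G).index :=
    Nat.Coprime.pow_left j ((Nat.Prime.coprime_iff_not_dvd Fact.out).2 P.not_dvd_index)
  exact eq_zero_of_coprime_nsmul hcop hp h1

/-- **Sylow criterion for vanishing**: if `Hⁿ⁺¹(P, A) = 0` for one Sylow `p`-subgroup `P` for every
prime `p` dividing `|G|`, then `Hⁿ⁺¹(G, A) = 0`. -/
theorem isZero_of_isZero_sylow [Finite G] (n : ℕ)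
    (h : ∀ p : ℕ, p.Prime → p ∣ Nat.card G → ∃ P : Sylow p G,
      IsZero (groupCohomology (res (P : Subgroup G).subtype A) (n + 1))) :
    IsZero (groupCohomology A (n + 1)) := by
  rw [ModuleCat.isZero_iff_subsingleton]
  refine ⟨fun x y => ?_⟩
  suffices hz : ∀ z : groupCohomology A (n + 1), z = 0 by rw [hz x, hz y]
  intro z
  have hcard := card_nsmul_eq_zero A n z
  have hd : addOrderOf z ∣ Nat.card G := addOrderOf_dvd_of_nsmul_eq_zero hcard
  by_contra hz
  have hne : addOrderOf z ≠ 1 := fun h1 => hz (AddMonoid.addOrderOf_eq_one_iff.mp h1)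
  obtain ⟨p, hp, hpd⟩ := Nat.exists_prime_and_dvd hne
  obtain ⟨P, hP⟩ := h p hp (hpd.trans hd)
  have : Fact p.Prime := ⟨hp⟩
  have h1 := index_nsmul_eq_zero_of_isZero (P : Subgroup G) A (n + 1) hP z
  have h2 : addOrderOf z ∣ (P : Subgroup G).index := addOrderOf_dvd_of_nsmul_eq_zero h1
  exact P.not_dvd_index (hpd.trans h2)

end Sylow

end Fermat.Agent.S55.GC.Cores
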