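/-
S55 (GLO9c / LOC5 engine): EXPLICIT second cohomology of a finite cyclic group.

For a character `χ : G →* Multiplicative (ZMod n)` and an invariant `a : A` we define the
2-cocycle `cupChar χ a (g, h) = ⌊((χ g).val + (χ h).val) / n⌋ • a` (the cup product `δχ ∪ a`).
It is literally compatible with restriction / inflation (`cupChar_comp`), additive in `a`,
and additive in `χ` up to an explicit coboundary.

For `G = ⟨σ⟩` of order `n` we define `ev σ n c = ∑_{i<n} c (σ^i, σ)` and prove the classification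
  `c ∈ B²(G, A) ↔ ev σ n c ∈ N(A)`  for every 2-cocycle `c`,
together with `ev σ n (cupChar ψ a) = (n * (ψ σ).val / m) • a` for every character `ψ` mod `m`.
Mathlib's `FiniteCyclic` isomorphism is abstract (periodic resolution); this file gives the
explicit cocycle-level statements needed to compare with restriction, inflation, localisation.
-/
import Mathlib

set_option autoImplicit false

universe u

open groupCohomology

namespace Fermat.Agent.S55.GC.CyclicH2

/-! ### The carry function -/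

/-- The carry of the addition of two residues mod `n`. -/
def carry {n : ℕ} (x y : ZMod n) : ℕ := (x.val + y.val) / n

theorem val_add_val {n : ℕ} [NeZero n] (x y : ZMod n) :
    x.val + y.val = (x + y).val + n * carry x y := by
  rw [carry, ZMod.val_add]
  exact (Nat.mod_add_div _ _).symm

theorem carry_assoc {n : ℕ} [NeZero n] (x y z : ZMod n) :
    carry (x + y) z + carry x y = carry y z + carry x (y + z) := by
  have h1 := val_add_val x y
  have h2 := val_add_val (x + y) z
  have h3 := val_add_val y z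
  have h4 := val_add_val x (y + z)
  have hn : 0 < n := Nat.pos_of_ne_zero (NeZero.ne n)
  have h5 : n * (carry (x + y) z + carry x y) = n * (carry y z + carry x (y + z)) := by
    rw [add_assoc] at h2
    rw [mul_add, mul_add]
    omega
  exact Nat.eq_of_mul_eq_mul_left hn h5

theorem carry_comm {n : ℕ} (x y : ZMod n) : carry x y = carry y x := by
  rw [carry, carry, add_comm]

theorem carry_zero_left {n : ℕ} [NeZero n] (y : ZMod n) : carry 0 y = 0 := by
  rw [carry, ZMod.val_zero, zero_add]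
  exact Nat.div_eq_of_lt (ZMod.val_lt y)

theorem carry_zero_right {n : ℕ} [NeZero n] (x : ZMod n) : carry x 0 = 0 := by
  rw [carry_comm, carry_zero_left]

/-- Additivity of the carry in the character, up to a "coboundary". -/
theorem carry_add_add {n : ℕ} [NeZero n] (x y x' y' : ZMod n) :
    carry x x' + carry y y' + carry (x + x') (y + y') =
      carry x y + carry x' y' + carry (x + y) (x' + y') := by
  have h1 := val_add_val x x'
  have h2 := val_add_val y y'
  have h3 := val_add_val (x + x') (y + y')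
  have h4 := val_add_val x y
  have h5 := val_add_val x' y'
  have h6 := val_add_val (x + y) (x' + y')
  have hn : 0 < n := Nat.pos_of_ne_zero (NeZero.ne n)
  have e : x + x' + (y + y') = x + y + (x' + y') := by abel
  rw [e] at h3
  have h7 : n * (carry x x' + carry y y' + carry (x + x') (y + y')) =
      n * (carry x y + carry x' y' + carry (x + y) (x' + y')) := by
    rw [mul_add, mul_add, mul_add, mul_add]
    omega
  exact Nat.eq_of_mul_eq_mul_left hn h7

/-! ### The cocycle `δχ ∪ a` -/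

variable {k G : Type u} [CommRing k] [Group G] (A : Rep k G)

/-- The 2-cochain `(g, h) ↦ carry (χ g) (χ h) • a`. -/
def cupChar {n : ℕ} (χ : G →* Multiplicative (ZMod n)) (a : A) : G × G → A :=
  fun gh => carry (χ gh.1).toAdd (χ gh.2).toAdd • a

variable {A}

theorem cupChar_apply {n : ℕ} (χ : G →* Multiplicative (ZMod n)) (a : A) (g h : G) :
    cupChar A χ a (g, h) = carry (χ g).toAdd (χ h).toAdd • a := rfl

theorem cupChar_mem_cocycles₂ {n : ℕ} [NeZero n] (χ : G →* Multiplicative (ZMod n)) {a : A}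
    (ha : ∀ g, A.ρ g a = a) : cupChar A χ a ∈ cocycles₂ A := by
  rw [mem_cocycles₂_iff]
  intro g h j
  simp only [cupChar_apply, map_mul, toAdd_mul, map_nsmul, ha]
  rw [← add_nsmul, ← add_nsmul, carry_assoc]

theorem cupChar_add {n : ℕ} (χ : G →* Multiplicative (ZMod n)) (a b : A) :
    cupChar A χ (a + b) = cupChar A χ a + cupChar A χ b := by
  funext gh
  simp only [cupChar, Pi.add_apply, nsmul_add]

theorem cupChar_zero {n : ℕ} (χ : G →* Multiplicative (ZMod n)) :
    cupChar A χ (0 : A) = 0 := by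
  funext gh
  simp only [cupChar, Pi.zero_apply, nsmul_zero]

theorem cupChar_neg {n : ℕ} (χ : G →* Multiplicative (ZMod n)) (a : A) :
    cupChar A χ (-a) = -cupChar A χ a := by
  funext gh
  simp only [cupChar, Pi.neg_apply, smul_neg]

theorem cupChar_nsmul {n : ℕ} (χ : G →* Multiplicative (ZMod n)) (m : ℕ) (a : A) :
    cupChar A χ (m • a) = m • cupChar A χ a := by
  funext gh
  simp only [cupChar, Pi.smul_apply]
  rw [smul_comm]

/-- Compatibility with restriction and inflation: literally the same function. -/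
theorem cupChar_comp {H : Type u} [Group H] (f : H →* G) {n : ℕ}
    (χ : G →* Multiplicative (ZMod n)) (a : A) (g h : H) :
    cupChar (Rep.res f A) (χ.comp f) a (g, h) = cupChar A χ a (f g, f h) := rfl

/-- Change of modulus. -/
theorem cupChar_eq_of_val {d n c : ℕ} (hn : n = c * d) (hc : 0 < c)
    (χ : G →* Multiplicative (ZMod d)) (ψ : G →* Multiplicative (ZMod n))
    (h : ∀ g, (ψ g).toAdd.val = c * (χ g).toAdd.val) (a : A) :
    cupChar A ψ a = cupChar A χ a := by
  funext gh
  simp only [cupChar, carry, h]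
  rw [← mul_add, hn, Nat.mul_div_mul_left _ _ hc]

/-- Additivity in the character, up to an explicit coboundary. -/
theorem cupChar_mul {n : ℕ} [NeZero n] (χ ψ : G →* Multiplicative (ZMod n)) {a : A}
    (ha : ∀ g, A.ρ g a = a) :
    cupChar A (χ * ψ) a + d₁₂ A (fun g => carry (χ g).toAdd (ψ g).toAdd • a) =
      cupChar A χ a + cupChar A ψ a := by
  funext gh
  obtain ⟨g, h⟩ := gh
  simp only [Pi.add_apply, cupChar_apply, d₁₂_hom_apply, MonoidHom.mul_apply, toAdd_mul, map_mul,
    map_nsmul, ha]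
  have key := carry_add_add (χ g).toAdd (χ h).toAdd (ψ g).toAdd (ψ h).toAdd
  have e : ∀ (p q r s t u : ℕ), p + q + r = s + t + u →
      r • a + (q • a - u • a + p • a) = s • a + t • a := by
    intro p q r s t u hpq
    have : (r + q + p) • a = (s + t + u) • a := by rw [← hpq]; congr 1; omega
    rw [add_nsmul, add_nsmul, add_nsmul, add_nsmul] at this
    rw [← sub_eq_zero] at this ⊢
    rw [← this]; abel
  exact e _ _ _ _ _ _ key

theorem cupChar_mul_sub_mem_coboundaries₂ {n : ℕ} [NeZero n]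
    (χ ψ : G →* Multiplicative (ZMod n)) {a : A} (ha : ∀ g, A.ρ g a = a) :
    cupChar A (χ * ψ) a - (cupChar A χ a + cupChar A ψ a) ∈ coboundaries₂ A := by
  rw [← cupChar_mul χ ψ ha, sub_add_cancel_left]
  exact (coboundaries₂ A).neg_mem ⟨_, rfl⟩

/-! ### Cyclic groups: the evaluation `ev` and the classification -/

section Cyclic

variable (σ : G) (n : ℕ)

/-- The norm along `1, σ, …, σ^(n-1)`. -/
def normσ (a : A) : A := ∑ i ∈ Finset.range n, A.ρ (σ ^ i) a

/-- The partial sums of `i ↦ c (σ^i, σ)`. -/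
def psum (c : G × G → A) (m : ℕ) : A := ∑ i ∈ Finset.range m, c (σ ^ i, σ)

/-- The evaluation `c ↦ ∑_{i<n} c (σ^i, σ)`; it induces `H²(⟨σ⟩, A) ≃ A^G / N A`. -/
def ev (c : G × G → A) : A := psum σ c n

theorem ev_add (c c' : G × G → A) : ev σ n (c + c') = ev σ n c + ev σ n c' := by
  simp only [ev, psum, Pi.add_apply, Finset.sum_add_distrib]

theorem ev_sub (c c' : G × G → A) : ev σ n (c - c') = ev σ n c - ev σ n c' := by
  simp only [ev, psum, Pi.sub_apply, Finset.sum_sub_distrib]

theorem ev_zero : ev σ n (0 : G × G → A) = 0 := by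
  simp only [ev, psum, Pi.zero_apply, Finset.sum_const_zero]

theorem ev_nsmul (m : ℕ) (c : G × G → A) : ev σ n (m • c) = m • ev σ n c := by
  simp only [ev, psum, Pi.smul_apply, Finset.smul_sum]

variable {σ n}

theorem psum_succ (c : G × G → A) (m : ℕ) : psum σ c (m + 1) = psum σ c m + c (σ ^ m, σ) := by
  rw [psum, Finset.sum_range_succ]; rfl

theorem psum_zero (c : G × G → A) : psum σ c 0 = 0 := by
  rw [psum, Finset.sum_range_zero]

/-- Periodicity of the partial sums. -/
theorem psum_add_period (hσ : σ ^ n = 1) (c : G × G → A) (m : ℕ) :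
    psum σ c (m + n) = psum σ c m + ev σ n c := by
  rw [psum, add_comm m n, Finset.sum_range_add, add_comm]
  congr 1
  refine Finset.sum_congr rfl fun i _ => ?_
  rw [pow_add, hσ, one_mul]

/-- The basic recursion coming from the cocycle identity with third argument `σ`. -/
theorem cocycle_psum (c : G × G → A) (hc : c ∈ cocycles₂ A) (i j : ℕ) :
    c (σ ^ i, σ ^ j) = A.ρ (σ ^ i) (c (1, 1)) + psum σ c (i + j) - psum σ c i
      - A.ρ (σ ^ i) (psum σ c j) := by
  rw [mem_cocycles₂_iff] at hc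
  induction j with
  | zero =>
    have := hc (σ ^ i) 1 1
    simp only [mul_one, add_left_inj] at this
    rw [pow_zero, this, psum_zero, map_zero, add_zero, sub_zero, add_sub_cancel_right]
  | succ j ih =>
    have h := hc (σ ^ i) (σ ^ j) σ
    rw [← pow_add, ← pow_succ] at h
    rw [← add_assoc, psum_succ, psum_succ, map_add]
    have h' : c (σ ^ i, σ ^ (j + 1)) =
        c (σ ^ (i + j), σ) + c (σ ^ i, σ ^ j) - A.ρ (σ ^ i) (c (σ ^ j, σ)) := by
      rw [h]; abel
    rw [h', ih]; abel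

/-- `ev σ n c` is `σ`-invariant. -/
theorem ev_invariant (hσ : σ ^ n = 1) (c : G × G → A) (hc : c ∈ cocycles₂ A) :
    A.ρ σ (ev σ n c) = ev σ n c := by
  have hc' := (mem_cocycles₂_iff c).1 hc
  have h : ∀ m : ℕ, A.ρ σ (psum σ c m) = psum σ c (m + 1) - c (1, σ) + c (σ, 1) - c (σ, σ ^ m) := by
    intro m
    induction m with
    | zero =>
      rw [psum_zero, map_zero, psum_succ, psum_zero, pow_zero]; abel
    | succ m ih =>
      have := hc' σ (σ ^ m) σ
      rw [← pow_succ', ← pow_succ] at this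
      rw [psum_succ, map_add, ih, psum_succ (m := m + 1)]
      have e : A.ρ σ (c (σ ^ m, σ)) = c (σ ^ (m + 1), σ) + c (σ, σ ^ m) - c (σ, σ ^ (m + 1)) := by
        rw [this]; abel
      rw [e]; abel
  have h1 := h n
  rw [psum_succ, hσ] at h1
  rw [ev, h1]; abel

theorem ev_mem_invariants (hσ : σ ^ n = 1) (hgen : ∀ g : G, g ∈ Subgroup.zpowers σ)
    (c : G × G → A) (hc : c ∈ cocycles₂ A) (g : G) : A.ρ g (ev σ n c) = ev σ n c := by
  have h1 := ev_invariant hσ c hc
  obtain ⟨m, rfl⟩ := Subgroup.mem_zpowers_iff.mp (hgen g)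
  have hpow : ∀ i : ℕ, A.ρ (σ ^ i) (ev σ n c) = ev σ n c := by
    intro i
    induction i with
    | zero => simp
    | succ i ih => rw [pow_succ, map_mul, Module.End.mul_apply, h1, ih]
  obtain ⟨i, rfl | rfl⟩ := Int.eq_nat_or_neg m
  · rw [zpow_natCast]; exact hpow i
  · rw [zpow_neg, zpow_natCast]
    have := hpow i
    calc A.ρ (σ ^ i)⁻¹ (ev σ n c) = A.ρ (σ ^ i)⁻¹ (A.ρ (σ ^ i) (ev σ n c)) := by rw [this]
      _ = ev σ n c := by
        rw [← Module.End.mul_apply, ← map_mul, inv_mul_cancel, map_one, Module.End.one_apply]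

/-- `ev` of a coboundary is a norm. -/
theorem ev_d₁₂ (hσ : σ ^ n = 1) (x : G → A) : ev σ n (d₁₂ A x) = normσ σ n (x σ) := by
  have h : ∀ m : ℕ, psum σ (d₁₂ A x) m =
      (∑ i ∈ Finset.range m, A.ρ (σ ^ i) (x σ)) - x (σ ^ m) + x 1 := by
    intro m
    induction m with
    | zero => simp [psum_zero]
    | succ m ih =>
      rw [psum_succ, ih, Finset.sum_range_succ, d₁₂_hom_apply]
      simp only [← pow_succ]
      abel
  rw [ev, h n, hσ, normσ]; abel

/-- Iterated periodicity of the partial sums. -/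
theorem psum_add_mul_period (hσ : σ ^ n = 1) (c : G × G → A) (m t : ℕ) :
    psum σ c (m + n * t) = psum σ c m + t • ev σ n c := by
  induction t with
  | zero => simp
  | succ t ih => rw [Nat.mul_succ, ← add_assoc, psum_add_period hσ, ih, succ_nsmul, add_assoc]

/-! #### The discrete logarithm character -/

/-- For a generator `σ` of order `n`, the character `G → ZMod n` with `σ ↦ 1`. -/
noncomputable def dlogChar (hgen : ∀ g : G, g ∈ Subgroup.zpowers σ) (hn : orderOf σ = n) :
    G →* Multiplicative (ZMod n) where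
  toFun g := Multiplicative.ofAdd
    (((Classical.choose (Subgroup.mem_zpowers_iff.mp (hgen g)) : ℤ)) : ZMod n)
  map_one' := by
    have h := Classical.choose_spec (Subgroup.mem_zpowers_iff.mp (hgen 1))
    have h' : Classical.choose (Subgroup.mem_zpowers_iff.mp (hgen 1)) ≡ 0 [ZMOD (n : ℤ)] := by
      rw [← hn, ← zpow_eq_zpow_iff_modEq, h, zpow_zero]
    rw [(ZMod.intCast_eq_intCast_iff _ _ _).2 h']
    simp
  map_mul' g h := by
    have h1 := Classical.choose_spec (Subgroup.mem_zpowers_iff.mp (hgen g))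
    have h2 := Classical.choose_spec (Subgroup.mem_zpowers_iff.mp (hgen h))
    have h3 := Classical.choose_spec (Subgroup.mem_zpowers_iff.mp (hgen (g * h)))
    rw [← ofAdd_add, ← Int.cast_add]
    congr 1
    rw [ZMod.intCast_eq_intCast_iff, ← hn, ← zpow_eq_zpow_iff_modEq, zpow_add, h1, h2, h3]

theorem dlogChar_eq (hgen : ∀ g : G, g ∈ Subgroup.zpowers σ) (hn : orderOf σ = n) (g : G)
    (m : ℤ) (hm : σ ^ m = g) : dlogChar hgen hn g = Multiplicative.ofAdd ((m : ℤ) : ZMod n) := by
  have h1 := Classical.choose_spec (Subgroup.mem_zpowers_iff.mp (hgen g))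
  change Multiplicative.ofAdd _ = _
  congr 1
  rw [ZMod.intCast_eq_intCast_iff, ← hn, ← zpow_eq_zpow_iff_modEq, h1, hm]

theorem dlogChar_pow (hgen : ∀ g : G, g ∈ Subgroup.zpowers σ) (hn : orderOf σ = n) (i : ℕ) :
    dlogChar hgen hn (σ ^ i) = Multiplicative.ofAdd ((i : ℕ) : ZMod n) := by
  rw [dlogChar_eq hgen hn (σ ^ i) (i : ℤ) (zpow_natCast σ i)]
  simp

theorem dlogChar_self (hgen : ∀ g : G, g ∈ Subgroup.zpowers σ) (hn : orderOf σ = n) :
    dlogChar hgen hn σ = Multiplicative.ofAdd (1 : ZMod n) := by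
  have := dlogChar_pow hgen hn 1
  simpa using this

theorem pow_val_dlogChar [NeZero n] (hgen : ∀ g : G, g ∈ Subgroup.zpowers σ)
    (hn : orderOf σ = n) (g : G) : σ ^ (dlogChar hgen hn g).toAdd.val = g := by
  obtain ⟨m, hm⟩ := Subgroup.mem_zpowers_iff.mp (hgen g)
  rw [dlogChar_eq hgen hn g m hm, toAdd_ofAdd, ← zpow_natCast, ← hm, zpow_eq_zpow_iff_modEq, hn,
    ← ZMod.intCast_eq_intCast_iff]
  simp

/-- The standard cocycle `cyc σ a = δχ_σ ∪ a` attached to a generator `σ`. -/
noncomputable def cyc (hgen : ∀ g : G, g ∈ Subgroup.zpowers σ) (hn : orderOf σ = n) (a : A) :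
    G × G → A := cupChar A (dlogChar hgen hn) a

/-- Every 2-cocycle of `⟨σ⟩` is cohomologous to `cyc σ (ev σ n c)`, explicitly. -/
theorem eq_cyc_add_d₁₂ [NeZero n] (hgen : ∀ g : G, g ∈ Subgroup.zpowers σ) (hn : orderOf σ = n)
    (c : G × G → A) (hc : c ∈ cocycles₂ A) :
    c = cyc hgen hn (ev σ n c) +
      d₁₂ A (fun g => c (1, 1) - psum σ c (dlogChar hgen hn g).toAdd.val) := by
  have hσ : σ ^ n = 1 := hn ▸ pow_orderOf_eq_one σ
  funext gh
  obtain ⟨g, h⟩ := gh
  have hsum := val_add_val (dlogChar hgen hn g).toAdd (dlogChar hgen hn h).toAdd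
  rw [← toAdd_mul, ← map_mul] at hsum
  have hP := cocycle_psum (σ := σ) c hc (dlogChar hgen hn g).toAdd.val
    (dlogChar hgen hn h).toAdd.val
  rw [pow_val_dlogChar hgen hn g, pow_val_dlogChar hgen hn h] at hP
  rw [hP, hsum, psum_add_mul_period hσ]
  simp only [Pi.add_apply, cyc, cupChar_apply, d₁₂_hom_apply, map_sub]
  abel

theorem sub_cyc_mem_coboundaries₂ [NeZero n] (hgen : ∀ g : G, g ∈ Subgroup.zpowers σ)
    (hn : orderOf σ = n) (c : G × G → A) (hc : c ∈ cocycles₂ A) :
    c - cyc hgen hn (ev σ n c) ∈ coboundaries₂ A := by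
  have h := eq_cyc_add_d₁₂ hgen hn c hc
  exact ⟨_, eq_sub_of_add_eq' h.symm⟩

/-! #### Evaluation of character cocycles -/

theorem mul_sum_carry {m : ℕ} [NeZero m] (ψ : G →* Multiplicative (ZMod m)) (t : ℕ) :
    m * (∑ i ∈ Finset.range t, carry (ψ (σ ^ i)).toAdd (ψ σ).toAdd) + (ψ (σ ^ t)).toAdd.val =
      t * (ψ σ).toAdd.val := by
  induction t with
  | zero => simp
  | succ t ih =>
    have h := val_add_val (ψ (σ ^ t)).toAdd (ψ σ).toAdd
    rw [← toAdd_mul, ← map_mul, ← pow_succ] at h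
    rw [Finset.sum_range_succ, mul_add, add_mul, one_mul]
    omega

theorem sum_carry_eq {m : ℕ} [NeZero m] (hσ : σ ^ n = 1) (ψ : G →* Multiplicative (ZMod m)) :
    (∑ i ∈ Finset.range n, carry (ψ (σ ^ i)).toAdd (ψ σ).toAdd) = n * (ψ σ).toAdd.val / m := by
  have h := mul_sum_carry (σ := σ) ψ n
  rw [hσ, map_one, toAdd_one, ZMod.val_zero, add_zero] at h
  rw [← h, Nat.mul_div_cancel_left _ (Nat.pos_of_ne_zero (NeZero.ne m))]

/-- `ev` of the character cocycle `δψ ∪ a`, for an arbitrary character `ψ` mod `m`. -/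
theorem ev_cupChar {m : ℕ} [NeZero m] (hσ : σ ^ n = 1) (ψ : G →* Multiplicative (ZMod m))
    (a : A) : ev σ n (cupChar A ψ a) = (n * (ψ σ).toAdd.val / m) • a := by
  rw [← sum_carry_eq hσ ψ, Finset.sum_smul]
  rfl

theorem mul_nsmul_ev_cupChar {m : ℕ} [NeZero m] (hσ : σ ^ n = 1)
    (ψ : G →* Multiplicative (ZMod m)) (a : A) :
    m • ev σ n (cupChar A ψ a) = (n * (ψ σ).toAdd.val) • a := by
  have h := mul_sum_carry (σ := σ) ψ n
  rw [hσ, map_one, toAdd_one, ZMod.val_zero, add_zero] at h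
  rw [← h, ev_cupChar hσ ψ a, ← sum_carry_eq hσ ψ, mul_nsmul']

/-- `ev σ n (cyc σ a) = a` when `σ ≠ 1`. -/
theorem ev_cyc [NeZero n] (hgen : ∀ g : G, g ∈ Subgroup.zpowers σ) (hn : orderOf σ = n)
    (h2 : 2 ≤ n) (a : A) : ev σ n (cyc hgen hn a) = a := by
  have hσ : σ ^ n = 1 := hn ▸ pow_orderOf_eq_one σ
  rw [cyc, ev_cupChar hσ, dlogChar_self, toAdd_ofAdd]
  have : Fact (1 < n) := ⟨h2⟩
  rw [ZMod.val_one, mul_one, Nat.div_self (Nat.pos_of_ne_zero (NeZero.ne n)), one_nsmul]

/-- `cyc σ a` is a cocycle for invariant `a`. -/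
theorem cyc_mem_cocycles₂ [NeZero n] (hgen : ∀ g : G, g ∈ Subgroup.zpowers σ)
    (hn : orderOf σ = n) {a : A} (ha : ∀ g, A.ρ g a = a) : cyc hgen hn a ∈ cocycles₂ A :=
  cupChar_mem_cocycles₂ _ ha

/-- The cocycle attached to a norm is a coboundary. -/
theorem cyc_normσ_mem_coboundaries₂ [NeZero n] (hgen : ∀ g : G, g ∈ Subgroup.zpowers σ)
    (hn : orderOf σ = n) (b : A) : cyc hgen hn (normσ σ n b) ∈ coboundaries₂ A := by
  have hσ : σ ^ n = 1 := hn ▸ pow_orderOf_eq_one σ
  have h1 : d₁₂ A (fun _ => b) ∈ cocycles₂ A := d₁₂_apply_mem_cocycles₂ _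
  have h2 := sub_cyc_mem_coboundaries₂ hgen hn _ h1
  rw [ev_d₁₂ hσ] at h2
  have h3 : d₁₂ A (fun _ => b) ∈ coboundaries₂ A := ⟨_, rfl⟩
  have := (coboundaries₂ A).sub_mem h3 h2
  rwa [sub_sub_cancel] at this

/-- **Classification of 2-cocycles of a finite cyclic group**: a 2-cocycle `c` of `G = ⟨σ⟩`
(of order `n`) is a coboundary iff `∑_{i<n} c (σ^i, σ)` is a norm. -/
theorem mem_coboundaries₂_iff_ev [NeZero n] (hgen : ∀ g : G, g ∈ Subgroup.zpowers σ)
    (hn : orderOf σ = n) (c : G × G → A) (hc : c ∈ cocycles₂ A) :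
    c ∈ coboundaries₂ A ↔ ∃ b : A, normσ σ n b = ev σ n c := by
  have hσ : σ ^ n = 1 := hn ▸ pow_orderOf_eq_one σ
  constructor
  · rintro ⟨x, rfl⟩
    exact ⟨x σ, (ev_d₁₂ hσ x).symm⟩
  · rintro ⟨b, hb⟩
    have h1 := sub_cyc_mem_coboundaries₂ hgen hn c hc
    have h2 := cyc_normσ_mem_coboundaries₂ hgen hn b
    rw [hb] at h2
    have := (coboundaries₂ A).add_mem h1 h2
    rwa [sub_add_cancel] at this

/-- Two 2-cocycles of a finite cyclic group are cohomologous iff their evaluations differ by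
a norm. -/
theorem sub_mem_coboundaries₂_iff_ev [NeZero n] (hgen : ∀ g : G, g ∈ Subgroup.zpowers σ)
    (hn : orderOf σ = n) (c c' : G × G → A) (hc : c ∈ cocycles₂ A) (hc' : c' ∈ cocycles₂ A) :
    c - c' ∈ coboundaries₂ A ↔ ∃ b : A, normσ σ n b = ev σ n c - ev σ n c' := by
  rw [mem_coboundaries₂_iff_ev hgen hn _ ((cocycles₂ A).sub_mem hc hc'), ev_sub]

/-- The values of `ev` lie in any additive subgroup containing the values of the cocycle. -/
theorem ev_mem_of_forall_mem (S : AddSubgroup A) (c : G × G → A) (hS : ∀ g h, c (g, h) ∈ S) :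
    ev σ n c ∈ S := by
  rw [ev, psum]
  exact S.sum_mem fun _ _ => hS _ _

end Cyclic

/-! ### Statements on `H²` -/

section H2

variable {k G : Type u} [CommRing k] [Group G] (A : Rep.{u, u, u} k G)

theorem H2π_surjective : Function.Surjective (H2π A) :=
  (ModuleCat.epi_iff_surjective _).1 inferInstance

/-- Descent of a linear map on 2-cocycles killing the coboundaries to `H²`. -/
noncomputable def H2lift {M : Type*} [AddCommGroup M] [Module k M] (φ : cocycles₂ A →ₗ[k] M)
    (h : ∀ x : cocycles₂ A, (x : G × G → A) ∈ coboundaries₂ A → φ x = 0) : H2 A →ₗ[k] M :=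
  (Submodule.liftQ _ φ (fun x hx =>
    LinearMap.mem_ker.2 (h x ((H2π_eq_zero_iff x).1 (LinearMap.mem_ker.1 hx))))).comp
    (LinearMap.quotKerEquivOfSurjective (H2π A).hom (H2π_surjective A)).symm.toLinearMap

theorem H2lift_H2π {M : Type*} [AddCommGroup M] [Module k M] (φ : cocycles₂ A →ₗ[k] M)
    (h : ∀ x : cocycles₂ A, (x : G × G → A) ∈ coboundaries₂ A → φ x = 0) (x : cocycles₂ A) :
    H2lift A φ h (H2π A x) = φ x := by
  have e : (LinearMap.quotKerEquivOfSurjective (H2π A).hom (H2π_surjective A)).symm (H2π A x) =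
      Submodule.Quotient.mk x := by
    rw [LinearEquiv.symm_apply_eq]
    rfl
  simp only [H2lift, LinearMap.coe_comp, LinearEquiv.coe_coe, Function.comp_apply]
  rw [e, Submodule.liftQ_apply]

variable {A} {σ : G} {n : ℕ} [NeZero n]

/-- On `H²` of a cyclic group: the class of a cocycle vanishes iff its evaluation is a norm. -/
theorem H2π_eq_zero_iff_ev (hgen : ∀ g : G, g ∈ Subgroup.zpowers σ) (hn : orderOf σ = n)
    (c : cocycles₂ A) : H2π A c = 0 ↔ ∃ b : A, normσ σ n b = ev σ n c := by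
  rw [H2π_eq_zero_iff]
  exact mem_coboundaries₂_iff_ev hgen hn _ c.2

theorem H2π_eq_iff_ev (hgen : ∀ g : G, g ∈ Subgroup.zpowers σ) (hn : orderOf σ = n)
    (c c' : cocycles₂ A) :
    H2π A c = H2π A c' ↔ ∃ b : A, normσ σ n b = ev σ n c - ev σ n c' := by
  rw [H2π_eq_iff]
  exact sub_mem_coboundaries₂_iff_ev hgen hn _ _ c.2 c'.2

/-- Every class in `H²` of a cyclic group is the class of a standard cocycle `cyc σ a`. -/
theorem exists_H2π_cyc_eq (hgen : ∀ g : G, g ∈ Subgroup.zpowers σ) (hn : orderOf σ = n)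
    (x : H2 A) : ∃ (a : A) (ha : ∀ g, A.ρ g a = a),
      x = H2π A ⟨cyc hgen hn a, cyc_mem_cocycles₂ hgen hn ha⟩ := by
  have hσ : σ ^ n = 1 := hn ▸ pow_orderOf_eq_one σ
  obtain ⟨c, rfl⟩ := H2π_surjective A x
  refine ⟨ev σ n c, ev_mem_invariants hσ hgen _ c.2, ?_⟩
  rw [H2π_eq_iff]
  exact sub_cyc_mem_coboundaries₂ hgen hn _ c.2

end H2

/-! ### Multiplicative modules -/

section Mul

variable {G : Type} [Group G] {M : Type} [CommGroup M] [MulDistribMulAction G M]

theorem normσ_ofMul (σ : G) (n : ℕ) (x : M) :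
    (normσ (A := Rep.ofMulDistribMulAction G M) σ n (Additive.ofMul x) : Additive M) =
      Additive.ofMul (∏ i ∈ Finset.range n, (σ ^ i) • x) := by
  rw [ofMul_prod]
  rfl

theorem ev_toMul (σ : G) (n : ℕ) (c : G × G → Additive M) :
    Additive.toMul (ev (A := Rep.ofMulDistribMulAction G M) σ n c : Additive M) =
      ∏ i ∈ Finset.range n, Additive.toMul (c (σ ^ i, σ)) := by
  rw [← toMul_sum]
  rfl

end Mul

end Fermat.Agent.S55.GC.CyclicH2
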