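/-
S55 / GC4 (part 1): the group extension `A → E → G` attached to a normalised 2-cocycle, as an
elementary tool for cocycle computations (Mathlib has no cocycle ↔ extension dictionary).
(helper6)
-/
import Mathlib

set_option autoImplicit false

namespace Fermat.Agent.S55.GC

variable {G A : Type*} [Group G] [AddCommGroup A] [DistribMulAction G A]

/-- A 2-cocycle (inhomogeneous, Mathlib's convention) with `c (1, 1) = 0`. -/
structure NCocycle (G A : Type*) [Group G] [AddCommGroup A] [DistribMulAction G A] where
  /-- the cocycle -/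
  toFun : G × G → A
  cocycle : ∀ g h j : G, toFun (g * h, j) + toFun (g, h) = g • toFun (h, j) + toFun (g, h * j)
  map_one_one : toFun (1, 1) = 0

namespace NCocycle

variable (c : NCocycle G A)

theorem map_one_fst (g : G) : c.toFun (1, g) = 0 := by
  have := c.cocycle 1 1 g
  simp only [one_mul, one_smul, c.map_one_one, add_zero] at this
  -- this : c (1, g) = c (1, g) + c (1, g)
  have h2 : c.toFun (1, g) + c.toFun (1, g) = c.toFun (1, g) + 0 := by rw [add_zero]; exact this.symm
  exact add_left_cancel h2

theorem map_one_snd (g : G) : c.toFun (g, 1) = 0 := by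
  have := c.cocycle g 1 1
  simp only [mul_one, c.map_one_one, smul_zero, zero_add] at this
  have h2 : c.toFun (g, 1) + c.toFun (g, 1) = c.toFun (g, 1) + 0 := by rw [add_zero]; exact this
  exact add_left_cancel h2

/-- The underlying type of the extension attached to `c`. -/
structure Ext (c : NCocycle G A) where
  /-- the `A`-component -/
  a : A
  /-- the `G`-component -/
  g : G

namespace Ext

variable {c}

@[ext] theorem ext' {x y : Ext c} (h1 : x.a = y.a) (h2 : x.g = y.g) : x = y := by
  cases x; cases y; simp_all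

instance : Mul (Ext c) := ⟨fun x y => ⟨x.a + x.g • y.a + c.toFun (x.g, y.g), x.g * y.g⟩⟩
instance : One (Ext c) := ⟨⟨0, 1⟩⟩
instance : Inv (Ext c) := ⟨fun x => ⟨-(x.g⁻¹ • x.a) - c.toFun (x.g⁻¹, x.g), x.g⁻¹⟩⟩

@[simp] theorem mul_a (x y : Ext c) : (x * y).a = x.a + x.g • y.a + c.toFun (x.g, y.g) := rfl
@[simp] theorem mul_g (x y : Ext c) : (x * y).g = x.g * y.g := rfl
@[simp] theorem one_a : (1 : Ext c).a = 0 := rfl
@[simp] theorem one_g : (1 : Ext c).g = 1 := rfl
@[simp] theorem inv_a (x : Ext c) : (x⁻¹).a = -(x.g⁻¹ • x.a) - c.toFun (x.g⁻¹, x.g) := rfl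
@[simp] theorem inv_g (x : Ext c) : (x⁻¹).g = x.g⁻¹ := rfl

instance : Group (Ext c) :=
  Group.ofLeftAxioms
    (fun x y z => by
      apply ext'
      · simp only [mul_a, mul_g, smul_add, mul_smul]
        have h := eq_sub_of_add_eq (c.cocycle x.g y.g z.g)
        rw [h]
        abel
      · simp [mul_assoc])
    (fun x => by
      apply ext'
      · simp [c.map_one_fst]
      · simp)
    (fun x => by
      apply ext'
      · simp only [mul_a, inv_a, inv_g, one_a]
        abel
      · simp)

/-- The projection `E → G`. -/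
def proj : Ext c →* G where
  toFun x := x.g
  map_one' := rfl
  map_mul' _ _ := rfl

@[simp] theorem proj_apply (x : Ext c) : proj x = x.g := rfl

/-- The inclusion `A → E`. -/
def incl : Multiplicative A →* Ext c where
  toFun a := ⟨a.toAdd, 1⟩
  map_one' := rfl
  map_mul' a b := by
    apply ext'
    · simp [c.map_one_one]
    · simp

@[simp] theorem incl_a (a : Multiplicative A) : (incl (c := c) a).a = a.toAdd := rfl
@[simp] theorem incl_g (a : Multiplicative A) : (incl (c := c) a).g = 1 := rfl

theorem eq_incl_of_g_eq_one {x : Ext c} (h : x.g = 1) : x = incl (Multiplicative.ofAdd x.a) := by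
  apply ext' <;> simp [h]

/-- The set-theoretic section `g ↦ (0, g)`. -/
def sec (g : G) : Ext c := ⟨0, g⟩

@[simp] theorem sec_a (g : G) : (sec (c := c) g).a = 0 := rfl
@[simp] theorem sec_g (g : G) : (sec (c := c) g).g = g := rfl

theorem sec_mul_incl (g : G) (a : Multiplicative A) :
    sec g * incl a = incl (c := c) (Multiplicative.ofAdd (g • a.toAdd)) * sec g := by
  apply ext'
  · simp [c.map_one_fst, c.map_one_snd]
  · simp

theorem incl_mul_sec (a : Multiplicative A) (g : G) :
    incl (c := c) a * sec g = ⟨a.toAdd, g⟩ := by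
  apply ext'
  · simp [c.map_one_fst]
  · simp

theorem eq_incl_mul_sec (x : Ext c) : x = incl (Multiplicative.ofAdd x.a) * sec x.g := by
  rw [incl_mul_sec]; rfl

theorem sec_mul_sec (g h : G) :
    sec g * sec h = incl (c := c) (Multiplicative.ofAdd (c.toFun (g, h))) * sec (g * h) := by
  apply ext'
  · simp [c.map_one_fst]
  · simp

end Ext

end NCocycle

end Fermat.Agent.S55.GC
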