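/-
S55 / GC4 (part 2): the cocycle-level core of inflation-restriction in degree 2.
If `S ◁ G`, `H¹(S, A) = 0` and a normalised 2-cocycle `c` of `G` vanishes on `S × S`, then `c` is
cohomologous to a cocycle with values in `A^S` which is constant on cosets of `S`.
Proof in the extension group `E` of `c`: the normaliser of the lift of `S` maps onto `G`.
(helper6)
-/
import Fermat.Agent.S55.GC.TwistedExt

set_option autoImplicit false

namespace Fermat.Agent.S55.GC

variable {G A : Type*} [Group G] [AddCommGroup A] [DistribMulAction G A]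

namespace NCocycle

open Ext

variable (c : NCocycle G A) (S : Subgroup G)

/-- `c` vanishes on `S × S`. -/
def VanishesOn : Prop := ∀ s ∈ S, ∀ t ∈ S, c.toFun (s, t) = 0

/-- Vanishing of `H¹(S, A)` in elementary terms. -/
def H1Vanishes (S : Subgroup G) (A : Type*) [AddCommGroup A] [DistribMulAction G A] : Prop :=
  ∀ f : S → A, (∀ s t : S, f (s * t) = (s : G) • f t + f s) → ∃ y : A, ∀ s : S, f s = (s : G) • y - y

variable {c S}

theorem sec_mul_sec_of_mem (hS : c.VanishesOn S) {s t : G} (hs : s ∈ S) (ht : t ∈ S) :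
    sec (c := c) s * sec t = sec (s * t) := by
  rw [sec_mul_sec, hS s hs t ht]
  apply Ext.ext' <;> simp [c.map_one_fst]

theorem sec_one : sec (c := c) 1 = 1 := rfl

theorem sec_inv_of_mem (hS : c.VanishesOn S) {s : G} (hs : s ∈ S) :
    (sec (c := c) s)⁻¹ = sec s⁻¹ := by
  rw [inv_eq_iff_mul_eq_one, sec_mul_sec_of_mem hS hs (S.inv_mem hs), mul_inv_cancel, sec_one]

theorem incl_injective : Function.Injective (incl (c := c)) := by
  intro a b h
  have := congrArg Ext.a h
  simpa using this

variable (c S) in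
/-- The normaliser of the lift of `S`, with matching conjugation action. -/
def normaliser [S.Normal] (hS : c.VanishesOn S) : Subgroup (Ext c) where
  carrier := {n | ∀ s ∈ S, n * sec s * n⁻¹ = sec (n.g * s * n.g⁻¹)}
  one_mem' := by
    intro s _
    simp
  mul_mem' := by
    intro n m hn hm s hs
    have h1 := hm s hs
    have hs' : m.g * s * m.g⁻¹ ∈ S := Subgroup.Normal.conj_mem ‹_› s hs _
    have h2 := hn _ hs'
    calc n * m * sec s * (n * m)⁻¹ = n * (m * sec s * m⁻¹) * n⁻¹ := by group
      _ = sec (n.g * (m.g * s * m.g⁻¹) * n.g⁻¹) := by rw [h1, h2]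
      _ = sec ((n * m).g * s * (n * m).g⁻¹) := by
        congr 1
        simp only [mul_g, mul_inv_rev]
        group
  inv_mem' := by
    intro n hn s hs
    have hs' : n.g⁻¹ * s * n.g ∈ S := by
      have := Subgroup.Normal.conj_mem ‹_› s hs n.g⁻¹
      simpa using this
    have h1 := hn _ hs'
    have e : n.g * (n.g⁻¹ * s * n.g) * n.g⁻¹ = s := by group
    rw [e] at h1
    rw [← h1]
    simp only [inv_g, inv_inv]
    group

theorem mem_normaliser [S.Normal] (hS : c.VanishesOn S) (n : Ext c) :
    n ∈ normaliser c S hS ↔ ∀ s ∈ S, n * sec s * n⁻¹ = sec (n.g * s * n.g⁻¹) := Iff.rfl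

theorem sec_mem_normaliser [S.Normal] (hS : c.VanishesOn S) {t : G} (ht : t ∈ S) :
    sec t ∈ normaliser c S hS := by
  intro s hs
  rw [sec_inv_of_mem hS ht, sec_mul_sec_of_mem hS ht hs,
    sec_mul_sec_of_mem hS (S.mul_mem ht hs) (S.inv_mem ht)]
  rfl

/-- An element of `A` normalising the lift of `S` is `S`-invariant. -/
theorem smul_eq_of_incl_mem_normaliser [S.Normal] (hS : c.VanishesOn S) {x : A}
    (hx : incl (Multiplicative.ofAdd x) ∈ normaliser c S hS) {s : G} (hs : s ∈ S) :
    s • x = x := by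
  have h := hx s hs
  simp only [incl_g, one_mul, inv_one, mul_one] at h
  have h2 : incl (c := c) (Multiplicative.ofAdd x) * sec s = sec s * incl (Multiplicative.ofAdd x) :=
    mul_inv_eq_iff_eq_mul.mp h
  rw [sec_mul_incl] at h2
  have h3 := congrArg Ext.a h2
  simp [c.map_one_fst] at h3
  exact h3.symm

/-- Conjugation relation for elements of the normaliser. -/
theorem sec_mul_of_mem_normaliser [S.Normal] (hS : c.VanishesOn S) {n : Ext c}
    (hn : n ∈ normaliser c S hS) {s : G} (hs : s ∈ S) :
    sec s * n = n * sec (n.g⁻¹ * s * n.g) := by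
  have hn' := (normaliser c S hS).inv_mem hn
  have h := hn' s hs
  simp only [inv_g, inv_inv] at h
  rw [← h]
  group

/-- **Key step**: every `g : G` lifts to the normaliser (uses `H¹(S, A) = 0`). -/
theorem exists_mem_normaliser [S.Normal] (hS : c.VanishesOn S) (hH1 : H1Vanishes S A) (g : G) :
    ∃ n ∈ normaliser c S hS, n.g = g := by
  set e : Ext c := sec g with he
  have hconj : ∀ s : S, g⁻¹ * (s : G) * g ∈ S := fun s => by
    have := Subgroup.Normal.conj_mem ‹_› (s : G) s.2 g⁻¹
    simpa using this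
  -- the conjugation homomorphism `ψ`
  let ψ : S → Ext c := fun s => e * sec (g⁻¹ * (s : G) * g) * e⁻¹
  have hψmul : ∀ s t : S, ψ (s * t) = ψ s * ψ t := by
    intro s t
    have e1 : g⁻¹ * ((s * t : S) : G) * g = (g⁻¹ * (s : G) * g) * (g⁻¹ * (t : G) * g) := by
      simp only [Subgroup.coe_mul]; group
    simp only [ψ]
    rw [e1, ← sec_mul_sec_of_mem hS (hconj s) (hconj t)]
    group
  have hψg : ∀ s : S, (ψ s).g = (s : G) := by
    intro s
    simp only [ψ, he, mul_g, sec_g, inv_g]
    group
  let φ : S → A := fun s => (ψ s).a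
  have hψ : ∀ s : S, ψ s = incl (Multiplicative.ofAdd (φ s)) * sec (s : G) := by
    intro s
    have := eq_incl_mul_sec (ψ s)
    rw [hψg] at this
    exact this
  have hφ : ∀ s t : S, φ (s * t) = (s : G) • φ t + φ s := by
    intro s t
    have h1 := hψmul s t
    rw [hψ s, hψ t, hψ (s * t)] at h1
    have h2 : incl (c := c) (Multiplicative.ofAdd (φ s)) * sec (s : G) *
        (incl (Multiplicative.ofAdd (φ t)) * sec (t : G)) =
        incl (Multiplicative.ofAdd (φ s + (s : G) • φ t)) * sec ((s : G) * (t : G)) := by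
      rw [mul_assoc, ← mul_assoc (sec (s : G)), sec_mul_incl, mul_assoc, sec_mul_sec_of_mem hS s.2 t.2,
        ← mul_assoc, ← map_mul]
      rfl
    rw [h2, Subgroup.coe_mul] at h1
    have h3 := incl_injective (mul_right_cancel h1)
    have h4 : φ (s * t) = φ s + (s : G) • φ t := h3
    rw [h4, add_comm]
  obtain ⟨y, hy⟩ := hH1 φ hφ
  refine ⟨incl (Multiplicative.ofAdd y) * e, ?_, by simp [he]⟩
  intro s hs
  have hg : (incl (c := c) (Multiplicative.ofAdd y) * e).g = g := by simp [he]
  rw [hg]
  have hs' : g * s * g⁻¹ ∈ S := Subgroup.Normal.conj_mem ‹_› s hs g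
  have e2 : g⁻¹ * (g * s * g⁻¹) * g = s := by group
  have h1 : e * sec s * e⁻¹ =
      incl (Multiplicative.ofAdd (φ ⟨g * s * g⁻¹, hs'⟩)) * sec (g * s * g⁻¹) := by
    have := hψ ⟨g * s * g⁻¹, hs'⟩
    simp only [ψ, e2] at this
    exact this
  calc incl (Multiplicative.ofAdd y) * e * sec s * (incl (Multiplicative.ofAdd y) * e)⁻¹
      = incl (Multiplicative.ofAdd y) * (e * sec s * e⁻¹) * (incl (Multiplicative.ofAdd y))⁻¹ := by
        group
    _ = incl (Multiplicative.ofAdd y) *
          (incl (Multiplicative.ofAdd ((g * s * g⁻¹) • y - y)) * sec (g * s * g⁻¹)) *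
          (incl (Multiplicative.ofAdd y))⁻¹ := by
        rw [h1, hy ⟨g * s * g⁻¹, hs'⟩]
    _ = sec (g * s * g⁻¹) := by
        rw [← map_inv, mul_assoc, mul_assoc, sec_mul_incl, ← mul_assoc, ← mul_assoc, ← map_mul,
          ← map_mul]
        have : (Multiplicative.ofAdd y * Multiplicative.ofAdd ((g * s * g⁻¹) • y - y) *
            Multiplicative.ofAdd ((g * s * g⁻¹) • (Multiplicative.toAdd (Multiplicative.ofAdd y)⁻¹)))
            = 1 := by
          rw [← ofAdd_neg, toAdd_ofAdd, ← ofAdd_add, ← ofAdd_add, smul_neg]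
          have : y + ((g * s * g⁻¹) • y - y) + -((g * s * g⁻¹) • y) = 0 := by abel
          rw [this]; rfl
        rw [this, map_one, one_mul]

/-- **Core of inflation-restriction in degree 2.** A normalised 2-cocycle vanishing on `S × S`
is cohomologous (via `b`) to a cocycle with `S`-invariant values, constant on cosets of `S`. -/
theorem exists_cochain_invariant [S.Normal] (hS : c.VanishesOn S) (hH1 : H1Vanishes S A) :
    ∃ b : G → A,
      (∀ g h : G, ∀ s ∈ S, s • (c.toFun (g, h) + (g • b h - b (g * h) + b g)) =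
        c.toFun (g, h) + (g • b h - b (g * h) + b g)) ∧
      (∀ g h : G, ∀ s ∈ S, c.toFun (g * s, h) + ((g * s) • b h - b (g * s * h) + b (g * s)) =
        c.toFun (g, h) + (g • b h - b (g * h) + b g)) ∧
      (∀ g h : G, ∀ s ∈ S, c.toFun (g, h * s) + (g • b (h * s) - b (g * (h * s)) + b g) =
        c.toFun (g, h) + (g • b h - b (g * h) + b g)) := by
  classical
  -- lifts of coset representatives
  choose n₀ hn₀ hn₀g using exists_mem_normaliser hS hH1
  let σ : G ⧸ S → G := fun q => q.out
  have hσ : ∀ g : G, (σ (g : G ⧸ S))⁻¹ * g ∈ S := fun g => by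
    rw [← QuotientGroup.eq]
    exact QuotientGroup.out_eq' _
  let u : G → Ext c := fun g => n₀ (σ (g : G ⧸ S)) * sec ((σ (g : G ⧸ S))⁻¹ * g)
  have hu : ∀ g, u g ∈ normaliser c S hS := fun g =>
    (normaliser c S hS).mul_mem (hn₀ _) (sec_mem_normaliser hS (hσ g))
  have hug : ∀ g, (u g).g = g := fun g => by
    simp only [u, mul_g, hn₀g, sec_g]
    group
  have hus : ∀ g, ∀ s ∈ S, u (g * s) = u g * sec s := by
    intro g s hs
    have e1 : ((g * s : G) : G ⧸ S) = (g : G ⧸ S) := by
      rw [QuotientGroup.eq]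
      simpa using hs
    simp only [u, e1]
    rw [mul_assoc, sec_mul_sec_of_mem hS (hσ g) hs, mul_assoc]
  let b : G → A := fun g => (u g).a
  let m : G → G → Ext c := fun g h => u g * u h * (u (g * h))⁻¹
  have hm : ∀ g h, m g h ∈ normaliser c S hS := fun g h =>
    (normaliser c S hS).mul_mem ((normaliser c S hS).mul_mem (hu g) (hu h))
      ((normaliser c S hS).inv_mem (hu (g * h)))
  have hmg : ∀ g h, (m g h).g = 1 := fun g h => by
    simp only [m, mul_g, inv_g, hug]
    group
  have hma : ∀ g h, (m g h).a = c.toFun (g, h) + (g • b h - b (g * h) + b g) := by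
    intro g h
    have h1 : m g h * u (g * h) = u g * u h := by simp only [m]; group
    have h2 := congrArg Ext.a h1
    simp only [mul_a, hmg, hug, one_smul, c.map_one_fst, add_zero] at h2
    simp only [b]
    rw [eq_sub_of_add_eq h2]
    abel
  have hmincl : ∀ g h, m g h = incl (Multiplicative.ofAdd ((m g h).a)) := fun g h =>
    eq_incl_of_g_eq_one (hmg g h)
  refine ⟨b, ?_, ?_, ?_⟩
  · intro g h s hs
    rw [← hma]
    have := hm g h
    rw [hmincl] at this
    exact smul_eq_of_incl_mem_normaliser hS this hs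
  · intro g h s hs
    rw [← hma, ← hma]
    congr 1
    have ht : h⁻¹ * s * h ∈ S := by
      have := Subgroup.Normal.conj_mem ‹_› s hs h⁻¹
      simpa using this
    have h1 : sec s * u h = u h * sec (h⁻¹ * s * h) := by
      have := sec_mul_of_mem_normaliser hS (hu h) hs
      rwa [hug] at this
    have h2 : u (g * s * h) = u (g * h) * sec (h⁻¹ * s * h) := by
      rw [← hus (g * h) _ ht]
      congr 1
      group
    simp only [m]
    rw [hus g s hs, h2, mul_assoc (u g), h1]
    group
  · intro g h s hs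
    rw [← hma, ← hma]
    congr 1
    simp only [m]
    rw [hus h s hs, ← mul_assoc g h s, hus (g * h) s hs]
    group

end NCocycle

end Fermat.Agent.S55.GC
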