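/-
S55 / GC4 (part 3): inflation-restriction in degree 2 for Mathlib's `groupCohomology`.
For `S ◁ G` and `A : Rep k G` with `H¹(S, A) = 0`:
  `0 → H²(G ⧸ S, A^S) → H²(G, A) → H²(S, A)` is exact.
(helper6)
-/
import Fermat.Agent.S55.GC.InfResCore

set_option autoImplicit false

universe u

open CategoryTheory groupCohomology Rep Representation

namespace Fermat.Agent.S55.GC.InfRes2

variable {k G : Type u} [CommRing k] [Group G] (A : Rep k G) (S : Subgroup G) [S.Normal]

/-- The `G`-action on the underlying module of a representation, as a `DistribMulAction`. -/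
@[reducible] def repAction : DistribMulAction G A where
  smul g a := A.ρ g a
  one_smul a := by change A.ρ 1 a = a; simp
  mul_smul g h a := by change A.ρ (g * h) a = A.ρ g (A.ρ h a); simp
  smul_zero g := by change A.ρ g 0 = 0; simp
  smul_add g a b := by change A.ρ g (a + b) = A.ρ g a + A.ρ g b; simp

/-- Elementary form of `H¹(S, A) = 0`. -/
def H1ResVanishes : Prop :=
  ∀ f : S → A, (∀ s t : S, f (s * t) = A.ρ (s : G) (f t) + f s) →
    ∃ y : A, ∀ s : S, f s = A.ρ (s : G) y - y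

theorem h1ResVanishes_of_isZero (h : Limits.IsZero (groupCohomology (res S.subtype A) 1)) :
    H1ResVanishes A S := by
  intro f hf
  have hmem : f ∈ cocycles₁ (res S.subtype A) := by
    rw [mem_cocycles₁_iff]
    intro s t
    exact hf s t
  have h0 : H1π (res S.subtype A) ⟨f, hmem⟩ = 0 :=
    (ModuleCat.isZero_iff_subsingleton.mp h).elim _ _
  rw [H1π_eq_zero_iff] at h0
  obtain ⟨y, hy⟩ := h0
  refine ⟨y, fun s => ?_⟩
  exact (congrFun hy s).symm

/-- Elementary exactness at `H²(G, A)`: a 2-cocycle of `G` whose restriction to `S` is a coboundary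
is cohomologous to an inflated cocycle. -/
theorem exists_inflated (hH1 : H1ResVanishes A S) (x : G × G → A) (hx : x ∈ cocycles₂ A)
    (β : S → A)
    (hβ : ∀ s t : S, x ((s : G), (t : G)) = A.ρ (s : G) (β t) - β (s * t) + β s) :
    ∃ (y : cocycles₂ (A.quotientToInvariants S)) (b' : G → A), ∀ g h : G,
      ((y ((g : G ⧸ S), (h : G ⧸ S)) : A.quotientToInvariants S) : A) =
        x (g, h) + (A.ρ g (b' h) - b' (g * h) + b' g) := by
  classical
  letI := repAction A
  have hsmul : ∀ (g : G) (a : A), g • a = A.ρ g a := fun _ _ => rfl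
  -- extend `β` by zero
  let β' : G → A := fun g => if h : g ∈ S then β ⟨g, h⟩ else 0
  have hβ' : ∀ s : S, β' (s : G) = β s := fun s => by simp [β']
  -- the modified cocycle
  let c₀ : G × G → A := x - (d₁₂ A).hom β'
  have hc₀mem : c₀ ∈ cocycles₂ A := Submodule.sub_mem _ hx (d₁₂_apply_mem_cocycles₂ β')
  have hc₀ : ∀ g h : G, c₀ (g, h) = x (g, h) - (A.ρ g (β' h) - β' (g * h) + β' g) := fun g h => rfl
  have hvan : ∀ s ∈ S, ∀ t ∈ S, c₀ (s, t) = 0 := by
    intro s hs t ht
    have h1 := hβ ⟨s, hs⟩ ⟨t, ht⟩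
    have h2 := hβ' ⟨s, hs⟩
    have h3 := hβ' ⟨t, ht⟩
    have h4 := hβ' (⟨s, hs⟩ * ⟨t, ht⟩)
    simp only [Subgroup.coe_mul] at h1 h2 h3 h4
    rw [hc₀, h2, h3, h4, h1, sub_self]
  let c : NCocycle G A :=
    { toFun := c₀
      cocycle := fun g h j => (mem_cocycles₂_iff c₀).1 hc₀mem g h j
      map_one_one := hvan 1 S.one_mem 1 S.one_mem }
  have hS : c.VanishesOn S := hvan
  have hH1' : NCocycle.H1Vanishes S A := fun f hf => hH1 f hf
  obtain ⟨b, hb1, hb2, hb3⟩ := NCocycle.exists_cochain_invariant hS hH1'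
  -- the new cocycle
  let c' : G × G → A := c₀ + (d₁₂ A).hom b
  have hc'mem : c' ∈ cocycles₂ A := Submodule.add_mem _ hc₀mem (d₁₂_apply_mem_cocycles₂ b)
  have hc' : ∀ g h : G, c' (g, h) = c₀ (g, h) + (A.ρ g (b h) - b (g * h) + b g) := fun g h => rfl
  have hinv : ∀ g h : G, c' (g, h) ∈ invariants (A.ρ.comp S.subtype) := by
    intro g h s
    rw [hc']
    exact hb1 g h s s.2
  have hwd : ∀ g g' h h' : G, g⁻¹ * g' ∈ S → h⁻¹ * h' ∈ S → c' (g', h') = c' (g, h) := by
    intro g g' h h' hg hh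
    have e1 : g' = g * (g⁻¹ * g') := by group
    have e2 : h' = h * (h⁻¹ * h') := by group
    rw [e1, e2, hc', hc']
    have h1 := hb3 (g * (g⁻¹ * g')) h (h⁻¹ * h') hh
    have h2 := hb2 g h (g⁻¹ * g') hg
    exact (h1.trans h2)
  let y₀ : (G ⧸ S) × (G ⧸ S) → A.quotientToInvariants S := fun q =>
    Quotient.liftOn₂' q.1 q.2 (fun g h => (⟨c' (g, h), hinv g h⟩ : A.quotientToInvariants S))
      (fun g h g' h' hg hh => Subtype.ext
        (hwd g g' h h' (QuotientGroup.leftRel_apply.1 hg) (QuotientGroup.leftRel_apply.1 hh)).symm)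
  have hy₀ : ∀ g h : G, ((y₀ ((g : G ⧸ S), (h : G ⧸ S)) : A.quotientToInvariants S) : A) =
      c' (g, h) := fun g h => rfl
  have hy₀mem : y₀ ∈ cocycles₂ (A.quotientToInvariants S) := by
    rw [mem_cocycles₂_iff]
    intro q₁ q₂ q₃
    induction q₁ using QuotientGroup.induction_on with | H g =>
    induction q₂ using QuotientGroup.induction_on with | H h =>
    induction q₃ using QuotientGroup.induction_on with | H j =>
    apply Subtype.ext
    have := (mem_cocycles₂_iff c').1 hc'mem g h j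
    simp only [← QuotientGroup.mk_mul]
    exact this
  refine ⟨⟨y₀, hy₀mem⟩, b - β', fun g h => ?_⟩
  change ((y₀ ((g : G ⧸ S), (h : G ⧸ S)) : A.quotientToInvariants S) : A) = _
  rw [hy₀, hc', hc₀]
  simp only [Pi.sub_apply, map_sub]
  abel

/-- Elementary injectivity of inflation in degree 2: if the inflation of a cocycle `y` of `G ⧸ S`
is the coboundary of `b`, then `y` is a coboundary. -/
theorem coboundary_of_inflated (hH1 : H1ResVanishes A S)
    (y : cocycles₂ (A.quotientToInvariants S)) (b : G → A)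
    (hb : ∀ g h : G, ((y ((g : G ⧸ S), (h : G ⧸ S)) : A.quotientToInvariants S) : A) =
      A.ρ g (b h) - b (g * h) + b g) :
    ∃ b₀ : (G ⧸ S) → A.quotientToInvariants S, ∀ q₁ q₂ : G ⧸ S,
      y (q₁, q₂) = (A.quotientToInvariants S).ρ q₁ (b₀ q₂) - b₀ (q₁ * q₂) + b₀ q₁ := by
  classical
  -- the constant `a₀ = y (1, 1)`
  set a₀ : A := ((y ((1 : G ⧸ S), (1 : G ⧸ S)) : A.quotientToInvariants S) : A) with ha₀
  have ha₀inv : ∀ s : S, A.ρ (s : G) a₀ = a₀ := fun s =>
    (y ((1 : G ⧸ S), (1 : G ⧸ S))).2 s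
  have hmk : ∀ s : S, ((s : G) : G ⧸ S) = 1 := fun s => (QuotientGroup.eq_one_iff _).2 s.2
  have hmk' : ∀ (g : G) (s : S), ((g * (s : G) : G) : G ⧸ S) = (g : G ⧸ S) := fun g s => by
    rw [QuotientGroup.mk_mul, hmk, mul_one]
  -- values of `y` on degenerate pairs
  have hy1 : ∀ q : G ⧸ S, y ((1 : G ⧸ S), q) = y ((1 : G ⧸ S), (1 : G ⧸ S)) :=
    fun q => cocycles₂_map_one_fst y q
  have hy2 : ∀ g : G, ((y ((g : G ⧸ S), (1 : G ⧸ S)) : A.quotientToInvariants S) : A) =
      A.ρ g a₀ := by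
    intro g
    rw [cocycles₂_map_one_snd y (g : G ⧸ S)]
    rfl
  -- `b - a₀` is a cocycle on `S`
  have hbS : ∀ s t : S, b ((s : G) * (t : G)) - a₀ =
      A.ρ (s : G) (b (t : G) - a₀) + (b (s : G) - a₀) := by
    intro s t
    have h1 := hb (s : G) (t : G)
    rw [hmk s, hmk t] at h1
    have h1' : a₀ = A.ρ (s : G) (b (t : G)) - b ((s : G) * (t : G)) + b (s : G) := h1
    have h2 : b ((s : G) * (t : G)) = A.ρ (s : G) (b (t : G)) + b (s : G) - a₀ := by
      rw [h1']; abel
    rw [map_sub, ha₀inv s, h2]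
    abel
  obtain ⟨y₀, hy₀⟩ := hH1 (fun s => b (s : G) - a₀) (fun s t => by
    simp only [Subgroup.coe_mul]
    exact hbS s t)
  -- the corrected cochain
  let b₁ : G → A := fun g => b g - (A.ρ g y₀ - y₀)
  have hb₁ : ∀ g h : G, ((y ((g : G ⧸ S), (h : G ⧸ S)) : A.quotientToInvariants S) : A) =
      A.ρ g (b₁ h) - b₁ (g * h) + b₁ g := by
    intro g h
    rw [hb g h]
    simp only [b₁, map_sub, map_mul, Module.End.mul_apply]
    abel
  have hb₁S : ∀ s : S, b₁ (s : G) = a₀ := by
    intro s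
    have := hy₀ s
    simp only [b₁]
    rw [← this]
    abel
  have hright : ∀ (g : G) (s : S), b₁ (g * (s : G)) = b₁ g := by
    intro g s
    have h1 := hb₁ g (s : G)
    rw [hmk s, hy2 g, hb₁S s] at h1
    have : b₁ (g * (s : G)) - b₁ g = 0 := by
      have h2 : A.ρ g a₀ - b₁ (g * (s : G)) + b₁ g - A.ρ g a₀ = 0 := by rw [← h1, sub_self]
      rw [← neg_eq_zero, ← h2]
      abel
    exact sub_eq_zero.mp this
  have hinv : ∀ g : G, b₁ g ∈ invariants (A.ρ.comp S.subtype) := by
    intro g s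
    have h1 := hb₁ (s : G) g
    rw [hmk s, hy1, hb₁S s] at h1
    have h1' : a₀ = A.ρ (s : G) (b₁ g) - b₁ ((s : G) * g) + a₀ := h1
    have hs' : g⁻¹ * (s : G) * g ∈ S := by
      have := Subgroup.Normal.conj_mem ‹_› (s : G) s.2 g⁻¹
      simpa using this
    have h2 : b₁ ((s : G) * g) = b₁ g := by
      have := hright g ⟨_, hs'⟩
      rw [← this]
      congr 1
      simp only []
      group
    rw [h2] at h1'
    have h3 : A.ρ (s : G) (b₁ g) - b₁ g = 0 := by
      have : A.ρ (s : G) (b₁ g) - b₁ g + a₀ - a₀ = 0 := by rw [← h1', sub_self]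
      rw [← this]; abel
    exact sub_eq_zero.mp h3
  let b₀ : (G ⧸ S) → A.quotientToInvariants S := fun q =>
    Quotient.liftOn' q (fun g => (⟨b₁ g, hinv g⟩ : A.quotientToInvariants S))
      (fun g g' hg => Subtype.ext (by
        have hs : g⁻¹ * g' ∈ S := QuotientGroup.leftRel_apply.1 hg
        have h1 : b₁ (g * (g⁻¹ * g')) = b₁ g := hright g ⟨_, hs⟩
        have h2 : g * (g⁻¹ * g') = g' := by group
        rw [h2] at h1
        exact h1.symm))
  refine ⟨b₀, fun q₁ q₂ => ?_⟩
  induction q₁ using QuotientGroup.induction_on with | H g =>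
  induction q₂ using QuotientGroup.induction_on with | H h =>
  apply Subtype.ext
  rw [hb₁ g h]
  rfl

/-- The inflation of a 2-cocycle, evaluated. -/
theorem inf_apply (y : cocycles₂ (A.quotientToInvariants S)) (g h : G) :
    mapCocycles₂ (QuotientGroup.mk' S) (ofHom <| A.ρ.quotientToInvariants_lift S) y (g, h) =
      ((y ((g : G ⧸ S), (h : G ⧸ S)) : A.quotientToInvariants S) : A) := rfl

/-- The restriction of a 2-cocycle, evaluated. -/
theorem res_apply (x : cocycles₂ A) (s t : S) :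
    mapCocycles₂ S.subtype (𝟙 (res S.subtype A)) x (s, t) = x ((s : G), (t : G)) := rfl

/-- The short complex `H²(G ⧸ S, A^S) ⟶ H²(G, A) ⟶ H²(S, A)`. -/
noncomputable def H2InfRes : ShortComplex (ModuleCat k) where
  X₁ := groupCohomology (A.quotientToInvariants S) 2
  X₂ := groupCohomology A 2
  X₃ := groupCohomology (res S.subtype A) 2
  f := map (QuotientGroup.mk' S) (ofHom <| A.ρ.quotientToInvariants_lift S) 2
  g := map S.subtype (𝟙 _) 2
  zero := by
    ext x
    induction x using H2_induction_on with | h y =>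
    rw [ModuleCat.comp_apply, H2π_comp_map_apply, H2π_comp_map_apply]
    rw [ModuleCat.hom_zero, LinearMap.zero_apply, H2π_eq_zero_iff]
    refine ⟨fun _ => ((y ((1 : G ⧸ S), (1 : G ⧸ S)) : A.quotientToInvariants S) : A), ?_⟩
    ext ⟨s, t⟩
    have hmk : ∀ s : S, ((s : G) : G ⧸ S) = 1 := fun s => (QuotientGroup.eq_one_iff _).2 s.2
    have hinv := (y ((1 : G ⧸ S), (1 : G ⧸ S))).2 s
    rw [res_apply, inf_apply, hmk s, hmk t]
    rw [d₁₂_hom_apply]
    simp only []
    rw [sub_add_cancel]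
    exact hinv

/-- Inflation in degree 2. -/
noncomputable abbrev inf2 :
    groupCohomology (A.quotientToInvariants S) 2 ⟶ groupCohomology A 2 :=
  map (QuotientGroup.mk' S) (ofHom <| A.ρ.quotientToInvariants_lift S) 2

/-- Restriction in degree 2. -/
noncomputable abbrev res2 :
    groupCohomology A 2 ⟶ groupCohomology (res S.subtype A) 2 :=
  map S.subtype (𝟙 _) 2

/-- Inflation `H²(G ⧸ S, A^S) ⟶ H²(G, A)` is injective when `H¹(S, A) = 0`. -/
theorem inf_injective (hH1 : H1ResVanishes A S) :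
    Function.Injective (inf2 A S) := by
  rw [injective_iff_map_eq_zero]
  intro x hx
  induction x using H2_induction_on with | h y =>
  rw [H2π_comp_map_apply, H2π_eq_zero_iff] at hx
  obtain ⟨b, hb⟩ := hx
  rw [H2π_eq_zero_iff]
  obtain ⟨b₀, hb₀⟩ := coboundary_of_inflated A S hH1 y b (fun g h => by
    rw [← inf_apply]
    exact (congrFun hb (g, h)).symm)
  refine ⟨b₀, ?_⟩
  ext ⟨q₁, q₂⟩
  rw [hb₀ q₁ q₂]
  rfl

theorem H2InfRes_mono (hH1 : H1ResVanishes A S) : Mono (H2InfRes A S).f :=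
  (ModuleCat.mono_iff_injective _).2 (inf_injective A S hH1)

/-- Elementwise exactness: a class of `H²(G, A)` dying in `H²(S, A)` is inflated. -/
theorem exists_inf_eq (hH1 : H1ResVanishes A S) (x : groupCohomology A 2)
    (hx : res2 A S x = 0) :
    ∃ y : groupCohomology (A.quotientToInvariants S) 2, inf2 A S y = x := by
  induction x using H2_induction_on with | h x =>
  rw [H2π_comp_map_apply, H2π_eq_zero_iff] at hx
  obtain ⟨β, hβ⟩ := hx
  obtain ⟨y, b', hy⟩ := exists_inflated A S hH1 x x.2 β (fun s t => by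
    rw [← res_apply]
    exact (congrFun hβ (s, t)).symm)
  refine ⟨H2π _ y, ?_⟩
  rw [H2π_comp_map_apply, H2π_eq_iff]
  refine ⟨b', ?_⟩
  ext ⟨g, h⟩
  rw [Pi.sub_apply, inf_apply, hy g h, add_sub_cancel_left]
  rfl

/-- **Inflation-restriction in degree 2**: for `S ◁ G` with `H¹(S, A) = 0`, the short complex
`H²(G ⧸ S, A^S) ⟶ H²(G, A) ⟶ H²(S, A)` is exact. -/
theorem H2InfRes_exact (hH1 : H1ResVanishes A S) : (H2InfRes A S).Exact := by
  rw [ShortComplex.moduleCat_exact_iff_ker_sub_range]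
  intro x hx
  exact exists_inf_eq A S hH1 x hx

/-- Versions with the categorical hypothesis `IsZero H¹(S, A)`. -/
theorem H2InfRes_mono_of_isZero (h : Limits.IsZero (groupCohomology (res S.subtype A) 1)) :
    Mono (H2InfRes A S).f :=
  H2InfRes_mono A S (h1ResVanishes_of_isZero A S h)

theorem H2InfRes_exact_of_isZero (h : Limits.IsZero (groupCohomology (res S.subtype A) 1)) :
    (H2InfRes A S).Exact :=
  H2InfRes_exact A S (h1ResVanishes_of_isZero A S h)

end Fermat.Agent.S55.GC.InfRes2
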