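/-
S55 / LOC5 (5-D) + GLO8: transport of the "cyclic layers" of the unit module of a Galois extension.

`L/F` finite Galois, `G = Gal(L/F)`, `A = Lˣ` (`Rep.ofAlgebraAutOnUnits F L`).
* `unitsLayerIso` : for `N ◁ G` and `L₁ := fixedField N`:
  `Hⁿ(G ⧸ N, (Lˣ)^N) ≅ Hⁿ(Gal(L₁/F), L₁ˣ)`.
* `unitsSubLayerIso` : for `H ≤ G`, `N ◁ H`, `F₁ := fixedField H`, `L₁ := fixedField (image of N)`
  (an intermediate field of `L/F₁`): `Hⁿ(H ⧸ N, (res_H Lˣ)^N) ≅ Hⁿ(Gal(L₁/F₁), L₁ˣ)`.
* `layerHyp_units` : if `|H²(Gal(L₁/F₁), L₁ˣ)| ∣ p` for all intermediate `F₁ ≤ L₁` with `L₁/F₁` Galois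
  of prime degree `p`, then helper7's `CF1.LayerHyp p (Lˣ)` holds (Hilbert 90 gives `H¹ = 0`), hence
  (`CF1.devissage_subgroup`) `H¹(S, Lˣ) = 0` and `|H²(S, Lˣ)| ∣ |S|` for every subgroup `S`.
(helper16)
-/
import Mathlib
import Fermat.Agent.S55.GL.CFDevissage

set_option autoImplicit false
set_option linter.unusedSectionVars false

open CategoryTheory groupCohomology Rep IntermediateField

namespace Fermat.Agent.S55.GC.GaloisLayer

section Normal

variable (K L : Type) [Field K] [Field L] [Algebra K L] [FiniteDimensional K L] [IsGalois K L]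
variable (N : Subgroup (L ≃ₐ[K] L)) [N.Normal]

/-- An `N`-invariant unit of `L` lies in the fixed field of `N`. -/
theorem coe_mem_fixedField
    (x : ((Rep.ofAlgebraAutOnUnits K L).quotientToInvariants N).V) :
    ((Additive.toMul (x.1 : Additive Lˣ) : Lˣ) : L) ∈ fixedField N := by
  intro n
  have h := x.2 n
  have h' : (n : L ≃ₐ[K] L) • (Additive.toMul (x.1 : Additive Lˣ) : Lˣ) =
      Additive.toMul (x.1 : Additive Lˣ) := congrArg Additive.toMul h
  exact congrArg Units.val h'

/-- The `N`-invariant units of `L` are the units of the fixed field of `N`. -/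
noncomputable def unitsLayerEquiv :
    ((Rep.ofAlgebraAutOnUnits K L).quotientToInvariants N).V ≃ₗ[ℤ]
      (Rep.ofAlgebraAutOnUnits K (fixedField N)).V :=
  AddEquiv.toIntLinearEquiv
    { toFun := fun x => Additive.ofMul
        (Units.mk0 (⟨((Additive.toMul (x.1 : Additive Lˣ) : Lˣ) : L),
          coe_mem_fixedField K L N x⟩ : fixedField N)
          (fun h => (Additive.toMul (x.1 : Additive Lˣ) : Lˣ).ne_zero (congrArg Subtype.val h)))
      invFun := fun y =>
        ⟨Additive.ofMul (Units.map (algebraMap (fixedField N) L).toMonoidHom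
          (Additive.toMul (y : Additive (fixedField N)ˣ))), by
          intro n
          apply congrArg Additive.ofMul
          apply Units.ext
          exact (Additive.toMul (y : Additive (fixedField N)ˣ) : (fixedField N)ˣ).1.2 n⟩
      left_inv := fun x => by
        apply Subtype.ext
        apply congrArg Additive.ofMul
        apply Units.ext
        rfl
      right_inv := fun y => by
        apply congrArg Additive.ofMul
        apply Units.ext
        rfl
      map_add' := fun x y => by
        apply congrArg Additive.ofMul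
        apply Units.ext
        rfl }

theorem unitsLayerEquiv_coe
    (x : ((Rep.ofAlgebraAutOnUnits K L).quotientToInvariants N).V) :
    (((Additive.toMul (unitsLayerEquiv K L N x : Additive (fixedField N)ˣ) :
      (fixedField N)ˣ) : fixedField N) : L) = ((Additive.toMul (x.1 : Additive Lˣ) : Lˣ) : L) :=
  rfl

/-- `Hⁿ(G ⧸ N, (Lˣ)^N) ≅ Hⁿ(Gal(L^N/K), (L^N)ˣ)`. -/
noncomputable def unitsLayerIso (n : ℕ) :
    groupCohomology ((Rep.ofAlgebraAutOnUnits K L).quotientToInvariants N) n ≅
      groupCohomology (Rep.ofAlgebraAutOnUnits K (fixedField N)) n :=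
  groupCohomology.mapIso (IsGalois.normalAutEquivQuotient N) (unitsLayerEquiv K L N)
    (by
      intro q
      induction q using QuotientGroup.induction_on with
      | H g =>
        ext x
        apply congrArg Additive.ofMul
        apply Units.ext
        apply Subtype.ext
        have h1 := AlgEquiv.restrictNormal_commutes g (fixedField N)
          ((Additive.toMul (unitsLayerEquiv K L N x : Additive (fixedField N)ˣ) :
            (fixedField N)ˣ) : fixedField N)
        exact h1.symm) n

end Normal

section Sub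

variable (F L : Type) [Field F] [Field L] [Algebra F L] [FiniteDimensional F L] [IsGalois F L]
variable (H : Subgroup (L ≃ₐ[F] L))

/-- `H ≃* Gal(L / L^H)`. -/
noncomputable def subEquiv : H ≃* (L ≃ₐ[fixedField H] L) :=
  (MulEquiv.subgroupCongr (fixingSubgroup_fixedField H).symm).trans
    (fixingSubgroupEquiv (fixedField H))

theorem subEquiv_apply (h : H) (x : L) : subEquiv F L H h x = (h : L ≃ₐ[F] L) x := rfl

variable (N : Subgroup H)

/-- The image of `N ≤ H` in `Gal(L / L^H)`. -/
noncomputable abbrev imgN : Subgroup (L ≃ₐ[fixedField H] L) :=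
  N.map (subEquiv F L H : H →* (L ≃ₐ[fixedField H] L))

instance imgN_normal [hN : N.Normal] : (imgN F L H N).Normal :=
  hN.map _ (subEquiv F L H).surjective

theorem index_imgN : (imgN F L H N).index = N.index :=
  Subgroup.index_map_equiv (H := N) (subEquiv F L H)

variable [N.Normal]

/-- The underlying module of the layer at `(H, N)` is the same as for `Gal(L / L^H)` and the
image of `N`. -/
noncomputable def subLayerEquiv :
    ((res H.subtype (Rep.ofAlgebraAutOnUnits F L)).quotientToInvariants N).V ≃ₗ[ℤ]
      ((Rep.ofAlgebraAutOnUnits (fixedField H) L).quotientToInvariants (imgN F L H N)).V where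
  toFun := fun x => ⟨x.1, by
    rintro ⟨g, hg⟩
    obtain ⟨n, hn, rfl⟩ := hg
    exact x.2 ⟨n, hn⟩⟩
  invFun := fun y => ⟨y.1, by
    rintro ⟨n, hn⟩
    exact y.2 ⟨subEquiv F L H n, ⟨n, hn, rfl⟩⟩⟩
  map_add' := fun _ _ => rfl
  map_smul' := fun _ _ => rfl
  left_inv := fun _ => rfl
  right_inv := fun _ => rfl

/-- Base change of the layer at `(H, N)` to the Galois group of `L / L^H`. -/
noncomputable def subLayerIso (n : ℕ) :
    groupCohomology ((res H.subtype (Rep.ofAlgebraAutOnUnits F L)).quotientToInvariants N) n ≅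
      groupCohomology
        ((Rep.ofAlgebraAutOnUnits (fixedField H) L).quotientToInvariants (imgN F L H N)) n :=
  groupCohomology.mapIso (QuotientGroup.congr N (imgN F L H N) (subEquiv F L H) rfl)
    (subLayerEquiv F L H N)
    (by
      intro q
      induction q using QuotientGroup.induction_on with
      | H g =>
        ext x
        rfl) n

/-- The top field of the layer at `(H, N)`: the fixed field of (the image of) `N`, as an
intermediate field of `L / L^H`. -/
noncomputable abbrev layerField : IntermediateField (fixedField H) L :=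
  fixedField (imgN F L H N)

instance isGalois_layerField : IsGalois (fixedField H) (layerField F L H N) :=
  IsGalois.of_fixedField_normal_subgroup _

theorem finrank_layerField : Module.finrank (fixedField H) (layerField F L H N) = N.index := by
  rw [IntermediateField.finrank_eq_fixingSubgroup_index, fixingSubgroup_fixedField, index_imgN]

/-- **Layer transport**: `Hⁿ(H ⧸ N, (res_H Lˣ)^N) ≅ Hⁿ(Gal(L₁/F₁), L₁ˣ)` with `F₁ = L^H`,
`L₁ = L^N`. -/
noncomputable def unitsSubLayerIso (n : ℕ) :
    groupCohomology ((res H.subtype (Rep.ofAlgebraAutOnUnits F L)).quotientToInvariants N) n ≅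
      groupCohomology (Rep.ofAlgebraAutOnUnits (fixedField H) (layerField F L H N)) n :=
  subLayerIso F L H N n ≪≫ unitsLayerIso (fixedField H) L (imgN F L H N) n

/-- Hilbert 90 for the layer. -/
theorem isZero_H1_units (K M : Type) [Field K] [Field M] [Algebra K M] [FiniteDimensional K M] :
    Limits.IsZero (groupCohomology (Rep.ofAlgebraAutOnUnits K M) 1) := by
  rw [ModuleCat.isZero_iff_subsingleton]
  have : Unique (H1 (Rep.ofAlgebraAutOnUnits K M)) := groupCohomology.H1ofAutOnUnitsUnique K M
  infer_instance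

/-- **Cyclic layers of the unit module.**  If `|H²(Gal(L₁/F₁), L₁ˣ)| ∣ p` for all intermediate
fields `F₁ ≤ L₁` of `L/F` with `L₁/F₁` Galois of degree `p`, then the unit module `Lˣ` satisfies
the layer hypothesis `CF1.LayerHyp p` (the `H¹`-part is Hilbert 90). -/
theorem layerHyp_units (p : ℕ)
    (hcyc : ∀ (F₁ : IntermediateField F L) (L₁ : IntermediateField F₁ L), IsGalois F₁ L₁ →
      Module.finrank F₁ L₁ = p →
      Nat.card (groupCohomology (Rep.ofAlgebraAutOnUnits F₁ L₁) 2) ∣ p) :
    Fermat.Agent.S55.GL.CF1.LayerHyp p (Rep.ofAlgebraAutOnUnits F L) := by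
  intro H N _ hN
  refine ⟨?_, ?_⟩
  · exact (isZero_H1_units (fixedField H) (layerField F L H N)).of_iso
      (unitsSubLayerIso F L H N 1)
  · rw [Nat.card_congr (unitsSubLayerIso F L H N 2).toLinearEquiv.toEquiv]
    exact hcyc _ _ inferInstance (by rw [finrank_layerField, hN])

/-- **Order bound for the unit module of a finite Galois extension**, given the cyclic layers of
prime degree: for every subgroup `S` of `Gal(L/F)`, `H¹(S, Lˣ) = 0` and `H²(S, Lˣ)` is finite of
order dividing `|S|`. -/
theorem units_devissage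
    (hcyc : ∀ p : ℕ, p.Prime → ∀ (F₁ : IntermediateField F L) (L₁ : IntermediateField F₁ L),
      IsGalois F₁ L₁ → Module.finrank F₁ L₁ = p →
      Nat.card (groupCohomology (Rep.ofAlgebraAutOnUnits F₁ L₁) 2) ∣ p)
    (S : Subgroup (L ≃ₐ[F] L)) :
    Limits.IsZero (groupCohomology (res S.subtype (Rep.ofAlgebraAutOnUnits F L)) 1) ∧
      Finite (groupCohomology (res S.subtype (Rep.ofAlgebraAutOnUnits F L)) 2) ∧
      Nat.card (groupCohomology (res S.subtype (Rep.ofAlgebraAutOnUnits F L)) 2) ∣ Nat.card S :=
  Fermat.Agent.S55.GL.CF1.devissage_subgroup (Rep.ofAlgebraAutOnUnits F L)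
    (fun p hp => layerHyp_units F L p (hcyc p hp)) S

/-- The same for the full group. -/
theorem units_devissage_top
    (hcyc : ∀ p : ℕ, p.Prime → ∀ (F₁ : IntermediateField F L) (L₁ : IntermediateField F₁ L),
      IsGalois F₁ L₁ → Module.finrank F₁ L₁ = p →
      Nat.card (groupCohomology (Rep.ofAlgebraAutOnUnits F₁ L₁) 2) ∣ p) :
    Finite (groupCohomology (Rep.ofAlgebraAutOnUnits F L) 2) ∧
      Nat.card (groupCohomology (Rep.ofAlgebraAutOnUnits F L) 2) ∣ Module.finrank F L := by
  obtain ⟨-, h2, h3⟩ := Fermat.Agent.S55.GL.CF1.devissage_sub (Rep.ofAlgebraAutOnUnits F L)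
    (fun p hp => layerHyp_units F L p (hcyc p hp))
  refine ⟨h2, ?_⟩
  rwa [IsGalois.card_aut_eq_finrank] at h3

end Sub

end Fermat.Agent.S55.GC.GaloisLayer
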