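/-
S55 / LOC5 (5-C ingredient): layers of the unit module of a (possibly INFINITE) Galois extension.

`Ω/F` Galois (typically an algebraic closure), `G = Gal(Ω/F)`, `A = Ωˣ`
(`Rep.ofAlgebraAutOnUnits F Ω`).  For `E` a normal intermediate field, `U = E.fixingSubgroup`:
* `galQuotEquiv F Ω E : G ⧸ U ≃* Gal(E/F)`;
* `unitsLayerIsoF F Ω E n : Hⁿ(G ⧸ U, (Ωˣ)^U) ≅ Hⁿ(Gal(E/F), Eˣ)`;
* `h90_subgroup` : Hilbert 90 for a subgroup of a finite Galois group, elementary form;
* `h1ResVanishes_layer` : for `E ≤ E'` finite Galois, `H¹(Gal(E'/E), E'ˣ) = 0` in the form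
  `InfRes2.H1ResVanishes ((Ωˣ)^V) (U/V)` consumed by the abstract class formation.
(helper16)
-/
import Mathlib
import Fermat.Agent.S55.GC.InfRes2
import Fermat.Agent.S55.GC.GaloisLayer
import Fermat.Agent.S55.LevelLayer

set_option autoImplicit false
set_option linter.unusedSectionVars false

open CategoryTheory groupCohomology Rep IntermediateField

namespace Fermat.Agent.S55.GC.GaloisLayerInf

section Layer

variable (F Ω : Type) [Field F] [Field Ω] [Algebra F Ω] [IsGalois F Ω]
variable (E : IntermediateField F Ω) [Normal F E]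

instance normal_fixingSubgroup : E.fixingSubgroup.Normal := by
  rw [← E.restrictNormalHom_ker]
  exact MonoidHom.normal_ker _

/-- `Gal(Ω/F) ⧸ Gal(Ω/E) ≃* Gal(E/F)`. -/
noncomputable def galQuotEquiv : (Ω ≃ₐ[F] Ω) ⧸ E.fixingSubgroup ≃* (E ≃ₐ[F] E) :=
  QuotientGroup.liftEquiv _ (AlgEquiv.restrictNormalHom_surjective Ω)
    E.restrictNormalHom_ker.symm

theorem galQuotEquiv_mk (σ : Ω ≃ₐ[F] Ω) :
    galQuotEquiv F Ω E (QuotientGroup.mk σ) = AlgEquiv.restrictNormalHom E σ := rfl

theorem galQuotEquiv_mk_coe (σ : Ω ≃ₐ[F] Ω) (x : E) :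
    ((galQuotEquiv F Ω E (QuotientGroup.mk σ) x : E) : Ω) = σ (x : Ω) :=
  AlgEquiv.restrictNormal_commutes σ E x

/-- A `Gal(Ω/E)`-invariant unit of `Ω` lies in `E`. -/
theorem coe_mem
    (x : ((Rep.ofAlgebraAutOnUnits F Ω).quotientToInvariants E.fixingSubgroup).V) :
    ((Additive.toMul (x.1 : Additive Ωˣ) : Ωˣ) : Ω) ∈ E := by
  have h1 : ((Additive.toMul (x.1 : Additive Ωˣ) : Ωˣ) : Ω) ∈ fixedField E.fixingSubgroup := by
    intro n
    have h := x.2 n
    have h' : (n : Ω ≃ₐ[F] Ω) • (Additive.toMul (x.1 : Additive Ωˣ) : Ωˣ) =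
        Additive.toMul (x.1 : Additive Ωˣ) := congrArg Additive.toMul h
    exact congrArg Units.val h'
  exact (InfiniteGalois.fixedField_fixingSubgroup E).le h1

/-- The `Gal(Ω/E)`-invariant units of `Ω` are the units of `E`. -/
noncomputable def unitsLayerEquivF :
    ((Rep.ofAlgebraAutOnUnits F Ω).quotientToInvariants E.fixingSubgroup).V ≃ₗ[ℤ]
      (Rep.ofAlgebraAutOnUnits F E).V :=
  AddEquiv.toIntLinearEquiv
    { toFun := fun x => Additive.ofMul
        (Units.mk0 (⟨((Additive.toMul (x.1 : Additive Ωˣ) : Ωˣ) : Ω), coe_mem F Ω E x⟩ : E)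
          (fun h => (Additive.toMul (x.1 : Additive Ωˣ) : Ωˣ).ne_zero (congrArg Subtype.val h)))
      invFun := fun y =>
        ⟨Additive.ofMul (Units.map (algebraMap E Ω).toMonoidHom
          (Additive.toMul (y : Additive Eˣ))), by
          intro n
          apply congrArg Additive.ofMul
          apply Units.ext
          exact n.2 ((Additive.toMul (y : Additive Eˣ) : Eˣ) : E)⟩
      left_inv := fun x => by
        apply Subtype.ext
        apply congrArg Additive.ofMul
        apply Units.ext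
        rfl
      right_inv := fun y => by
        apply congrArg Additive.ofMul
        apply Units.ext
        rfl
      map_add' := fun x y => by
        apply congrArg Additive.ofMul
        apply Units.ext
        rfl }

theorem unitsLayerEquivF_coe
    (x : ((Rep.ofAlgebraAutOnUnits F Ω).quotientToInvariants E.fixingSubgroup).V) :
    (((Additive.toMul (unitsLayerEquivF F Ω E x : Additive Eˣ) : Eˣ) : E) : Ω) =
      ((Additive.toMul (x.1 : Additive Ωˣ) : Ωˣ) : Ω) :=
  rfl

theorem unitsLayerEquivF_symm_coe (y : (Rep.ofAlgebraAutOnUnits F E).V) :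
    ((Additive.toMul (((unitsLayerEquivF F Ω E).symm y).1 : Additive Ωˣ) : Ωˣ) : Ω) =
      (((Additive.toMul (y : Additive Eˣ) : Eˣ) : E) : Ω) :=
  rfl

/-- Equivariance of `unitsLayerEquivF`. -/
theorem unitsLayerEquivF_ρ (q : (Ω ≃ₐ[F] Ω) ⧸ E.fixingSubgroup) :
    (unitsLayerEquivF F Ω E).toLinearMap ∘ₗ
        ((Rep.ofAlgebraAutOnUnits F Ω).quotientToInvariants E.fixingSubgroup).ρ q =
      (Rep.ofAlgebraAutOnUnits F E).ρ (galQuotEquiv F Ω E q) ∘ₗ
        (unitsLayerEquivF F Ω E).toLinearMap := by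
  induction q using QuotientGroup.induction_on with
  | H g =>
    ext x
    apply congrArg Additive.ofMul
    apply Units.ext
    apply Subtype.ext
    have h1 := AlgEquiv.restrictNormal_commutes g E
      ((Additive.toMul (unitsLayerEquivF F Ω E x : Additive Eˣ) : Eˣ) : E)
    exact h1.symm

/-- `Hⁿ(Gal(Ω/F) ⧸ Gal(Ω/E), (Ωˣ)^{Gal(Ω/E)}) ≅ Hⁿ(Gal(E/F), Eˣ)`. -/
noncomputable def unitsLayerIsoF (n : ℕ) :
    groupCohomology ((Rep.ofAlgebraAutOnUnits F Ω).quotientToInvariants E.fixingSubgroup) n ≅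
      groupCohomology (Rep.ofAlgebraAutOnUnits F E) n :=
  groupCohomology.mapIso (galQuotEquiv F Ω E) (unitsLayerEquivF F Ω E)
    (unitsLayerEquivF_ρ F Ω E) n

end Layer

section H90

open Fermat.Agent.S55.GC.InfRes2

/-- **Hilbert 90 for a subgroup of a finite Galois group**, elementary form. -/
theorem h90_subgroup (K L : Type) [Field K] [Field L] [Algebra K L] [FiniteDimensional K L]
    [IsGalois K L] (S : Subgroup (L ≃ₐ[K] L)) (f : S → Lˣ)
    (hf : ∀ s t : S, f (s * t) = (s : L ≃ₐ[K] L) • f t * f s) :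
    ∃ y : Lˣ, ∀ s : S, f s = (s : L ≃ₐ[K] L) • y / y := by
  let e := Fermat.Agent.S55.GC.GaloisLayer.subEquiv K L S
  have hact : ∀ (g : L ≃ₐ[fixedField S] L) (x : Lˣ),
      ((e.symm g : S) : L ≃ₐ[K] L) • x = g • x := by
    intro g x
    apply Units.ext
    show ((e.symm g : S) : L ≃ₐ[K] L) (x : L) = g (x : L)
    rw [← Fermat.Agent.S55.GC.GaloisLayer.subEquiv_apply K L S (e.symm g) (x : L)]
    show (e (e.symm g)) (x : L) = g (x : L)
    rw [MulEquiv.apply_symm_apply]
  let f' : (L ≃ₐ[fixedField S] L) → Lˣ := fun σ => f (e.symm σ)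
  have hf' : groupCohomology.IsMulCocycle₁ f' := by
    intro g h
    show f (e.symm (g * h)) = g • f (e.symm h) * f (e.symm g)
    rw [map_mul, hf, hact]
  obtain ⟨y, hy⟩ := groupCohomology.isMulCoboundary₁_of_isMulCocycle₁_of_aut_to_units f' hf'
  refine ⟨y, fun s => ?_⟩
  have h1 := hy (e s)
  have h2 : f' (e s) = f s := by
    show f (e.symm (e s)) = f s
    rw [MulEquiv.symm_apply_apply]
  rw [← h2, ← h1, ← hact (e s) y, MulEquiv.symm_apply_apply]

/-- Hilbert 90 in the form `H1ResVanishes`, for any subgroup of a finite Galois group. -/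
theorem h1ResVanishes_units (K L : Type) [Field K] [Field L] [Algebra K L] [FiniteDimensional K L]
    [IsGalois K L] (S : Subgroup (L ≃ₐ[K] L)) [S.Normal] :
    H1ResVanishes (Rep.ofAlgebraAutOnUnits K L) S := by
  intro f hf
  obtain ⟨y, hy⟩ := h90_subgroup K L S (fun s => Additive.toMul (f s : Additive Lˣ))
    (fun s t => by
      have := hf s t
      exact congrArg Additive.toMul this)
  refine ⟨Additive.ofMul y, fun s => ?_⟩
  have := hy s
  exact congrArg Additive.ofMul this

/-- Transport of `H1ResVanishes` along an isomorphism of groups with modules. -/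
theorem h1ResVanishes_of_equiv {k G G' : Type} [CommRing k] [Group G] [Group G'] (e : G ≃* G')
    (A : Rep k G) (A' : Rep k G') (e₁ : A.V ≃ₗ[k] A'.V)
    (he : ∀ g x, e₁ (A.ρ g x) = A'.ρ (e g) (e₁ x))
    (S : Subgroup G) [S.Normal] (S' : Subgroup G') [S'.Normal] (hS : ∀ s, s ∈ S ↔ e s ∈ S')
    (h : H1ResVanishes A' S') : H1ResVanishes A S := by
  intro f hf
  have hmem : ∀ s' : S', e.symm (s' : G') ∈ S := fun s' => by
    rw [hS, MulEquiv.apply_symm_apply]
    exact s'.2
  let f' : S' → A' := fun s' => e₁ (f ⟨e.symm (s' : G'), hmem s'⟩)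
  have hf' : ∀ s t : S', f' (s * t) = A'.ρ (s : G') (f' t) + f' s := by
    intro s t
    have h1 : (⟨e.symm ((s * t : S') : G'), hmem (s * t)⟩ : S) =
        ⟨e.symm (s : G'), hmem s⟩ * ⟨e.symm (t : G'), hmem t⟩ := by
      apply Subtype.ext
      show e.symm ((s : G') * (t : G')) = e.symm (s : G') * e.symm (t : G')
      rw [map_mul]
    show e₁ (f _) = A'.ρ (s : G') (e₁ (f _)) + e₁ (f _)
    rw [h1, hf, map_add, he]
    show A'.ρ (e (e.symm (s : G'))) _ + _ = _
    rw [MulEquiv.apply_symm_apply]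
  obtain ⟨y', hy'⟩ := h f' hf'
  refine ⟨e₁.symm y', fun s => ?_⟩
  apply e₁.injective
  have hs' : e (s : G) ∈ S' := (hS _).1 s.2
  have h2 := hy' ⟨e (s : G), hs'⟩
  have h3 : f' ⟨e (s : G), hs'⟩ = e₁ (f s) := by
    show e₁ (f ⟨e.symm (e (s : G)), _⟩) = e₁ (f s)
    congr 2
    apply Subtype.ext
    exact MulEquiv.symm_apply_apply e (s : G)
  rw [← h3, h2, map_sub, he, LinearEquiv.apply_symm_apply]

variable (F Ω : Type) [Field F] [Field Ω] [Algebra F Ω] [IsGalois F Ω]

/-- **Hilbert 90 on the layers** of the unit module of a (possibly infinite) Galois extension: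
for `E'/F` finite Galois inside `Ω`, `V = Gal(Ω/E')` and any subgroup `S` of `Gal(Ω/F) ⧸ V`
(e.g. `S = U ⧸ V`), every crossed homomorphism `S → (Ωˣ)^V` is principal. -/
theorem h1ResVanishes_layer (E' : IntermediateField F Ω) [Normal F E'] [FiniteDimensional F E']
    (S : Subgroup ((Ω ≃ₐ[F] Ω) ⧸ E'.fixingSubgroup)) [S.Normal] :
    H1ResVanishes ((Rep.ofAlgebraAutOnUnits F Ω).quotientToInvariants E'.fixingSubgroup) S := by
  have hsep : Algebra.IsSeparable F E' := Algebra.isSeparable_tower_bot_of_isSeparable F E' Ω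
  have : IsGalois F E' := ⟨⟩
  have hn : (S.map (galQuotEquiv F Ω E').toMonoidHom).Normal :=
    Subgroup.Normal.map inferInstance _ (galQuotEquiv F Ω E').surjective
  refine h1ResVanishes_of_equiv (galQuotEquiv F Ω E') _ (Rep.ofAlgebraAutOnUnits F E')
    (unitsLayerEquivF F Ω E') (fun g x => ?_) S (S.map (galQuotEquiv F Ω E').toMonoidHom)
    (fun s => ?_) (h1ResVanishes_units F E' _)
  · exact LinearMap.congr_fun (unitsLayerEquivF_ρ F Ω E' g) x
  · exact (Subgroup.mem_map_iff_mem (galQuotEquiv F Ω E').injective).symm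

end H90

section Card

variable (F Ω : Type) [Field F] [Field Ω] [Algebra F Ω] [IsGalois F Ω]

/-- **Order bound on the layers**: for `E/F` finite Galois inside `Ω`, given the cyclic layers of
prime degree of `E/F`, `H²(Gal(Ω/F) ⧸ Gal(Ω/E), (Ωˣ)^{Gal(Ω/E)})` is finite of order dividing
`[E:F] = [Gal(Ω/F) : Gal(Ω/E)]`. -/
theorem card_H2_layer_dvd (E : IntermediateField F Ω) [Normal F E] [FiniteDimensional F E]
    (hcyc : ∀ p : ℕ, p.Prime → ∀ (F₁ : IntermediateField F E) (L₁ : IntermediateField F₁ E),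
      IsGalois F₁ L₁ → Module.finrank F₁ L₁ = p →
      Nat.card (groupCohomology (Rep.ofAlgebraAutOnUnits F₁ L₁) 2) ∣ p) :
    Finite (groupCohomology
        ((Rep.ofAlgebraAutOnUnits F Ω).quotientToInvariants E.fixingSubgroup) 2) ∧
      Nat.card (groupCohomology
        ((Rep.ofAlgebraAutOnUnits F Ω).quotientToInvariants E.fixingSubgroup) 2) ∣
        E.fixingSubgroup.index := by
  have hsep : Algebra.IsSeparable F E := Algebra.isSeparable_tower_bot_of_isSeparable F E Ω
  have : IsGalois F E := ⟨⟩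
  obtain ⟨h1, h2⟩ := Fermat.Agent.S55.GC.GaloisLayer.units_devissage_top F E hcyc
  have e := (unitsLayerIsoF F Ω E 2).toLinearEquiv.toEquiv
  refine ⟨Finite.of_equiv _ e.symm, ?_⟩
  rw [Nat.card_congr e, ← IntermediateField.finrank_eq_fixingSubgroup_index]
  exact h2

end Card

section Transition

variable (F Ω : Type) [Field F] [Field Ω] [Algebra F Ω]
variable {E E' : IntermediateField F Ω} (h : E ≤ E')

/-- Restriction `Gal(E'/F) → Gal(E/F)` for `E ≤ E'`, `E/F` normal. -/
noncomputable def resGal [Normal F E] : (E' ≃ₐ[F] E') →* (E ≃ₐ[F] E) :=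
  letI := (IntermediateField.inclusion h).toRingHom.toAlgebra
  haveI : IsScalarTower F E E' := IsScalarTower.of_algebraMap_eq fun _ => rfl
  AlgEquiv.restrictNormalHom E

theorem coe_resGal [Normal F E] (d : E' ≃ₐ[F] E') (y : E) :
    ((resGal F Ω h d y : E) : Ω) = (d (IntermediateField.inclusion h y) : Ω) := by
  letI := (IntermediateField.inclusion h).toRingHom.toAlgebra
  haveI : IsScalarTower F E E' := IsScalarTower.of_algebraMap_eq fun _ => rfl
  exact congrArg Subtype.val (AlgEquiv.restrictNormal_commutes d E y)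

theorem resGal_restrictNormalHom [Normal F E] [Normal F E'] [Normal F Ω] (σ : Ω ≃ₐ[F] Ω) :
    resGal F Ω h (AlgEquiv.restrictNormalHom E' σ) = AlgEquiv.restrictNormalHom E σ := by
  ext y
  rw [coe_resGal]
  have h1 := AlgEquiv.restrictNormal_commutes σ E' (IntermediateField.inclusion h y)
  have h2 := AlgEquiv.restrictNormal_commutes σ E y
  exact h1.trans h2.symm

/-- The inclusion `Eˣ → E'ˣ`, as a morphism of `Gal(E'/F)`-modules. -/
noncomputable def unitsIncl [Normal F E] :
    res (resGal F Ω h) (Rep.ofAlgebraAutOnUnits F E) ⟶ Rep.ofAlgebraAutOnUnits F E' :=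
  Rep.ofHom ⟨(Units.map (IntermediateField.inclusion h).toRingHom.toMonoidHom).toAdditive.toIntLinearMap,
    fun d => by
      ext x
      exact coe_resGal F Ω h d _⟩

theorem unitsIncl_coe [Normal F E] (x : (Rep.ofAlgebraAutOnUnits F E).V) :
    (((Additive.toMul ((unitsIncl F Ω h).hom x : Additive E'ˣ) : E'ˣ) : E') : Ω) =
      (((Additive.toMul (x : Additive Eˣ) : Eˣ) : E) : Ω) := rfl

/-- **Inflation between layers is inflation between the Galois groups of the fields**:
under `unitsLayerIsoF`, `infLayer : Hⁿ(G ⧸ U, (Ωˣ)^U) ⟶ Hⁿ(G ⧸ V, (Ωˣ)^V)` (`U = Gal(Ω/E)`,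
`V = Gal(Ω/E')`, `E ≤ E'`) is `Hⁿ(Gal(E/F), Eˣ) ⟶ Hⁿ(Gal(E'/F), E'ˣ)` induced by restriction
`Gal(E'/F) → Gal(E/F)` and the inclusion `Eˣ → E'ˣ`. -/
theorem infLayer_unitsLayerIsoF [IsGalois F Ω] [Normal F E] [Normal F E'] (n : ℕ) :
    Fermat.Agent.S55.LevelLayer.infLayer (Rep.ofAlgebraAutOnUnits F Ω)
        (IntermediateField.fixingSubgroup_antitone h) n ≫ (unitsLayerIsoF F Ω E' n).hom =
      (unitsLayerIsoF F Ω E n).hom ≫
        groupCohomology.map (resGal F Ω h) (unitsIncl F Ω h) n := by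
  have hle : E'.fixingSubgroup ≤ E.fixingSubgroup := IntermediateField.fixingSubgroup_antitone h
  have hgrp : (Fermat.Agent.S55.LevelLayer.quotMap hle).comp
      (galQuotEquiv F Ω E').symm.toMonoidHom =
      (galQuotEquiv F Ω E).symm.toMonoidHom.comp (resGal F Ω h) := by
    ext d
    obtain ⟨σ, rfl⟩ := AlgEquiv.restrictNormalHom_surjective Ω d
    show Fermat.Agent.S55.LevelLayer.quotMap hle
        ((galQuotEquiv F Ω E').symm (AlgEquiv.restrictNormalHom E' σ)) =
      (galQuotEquiv F Ω E).symm (resGal F Ω h (AlgEquiv.restrictNormalHom E' σ))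
    rw [resGal_restrictNormalHom, ← galQuotEquiv_mk F Ω E' σ, ← galQuotEquiv_mk F Ω E σ,
      MulEquiv.symm_apply_apply, MulEquiv.symm_apply_apply]
    rfl
  show groupCohomology.map _ _ n ≫ groupCohomology.map _ _ n =
    groupCohomology.map _ _ n ≫ groupCohomology.map _ _ n
  rw [← groupCohomology.map_comp, ← groupCohomology.map_comp]
  refine groupCohomology.map_congr hgrp ?_ n
  ext x
  rfl

end Transition

end Fermat.Agent.S55.GC.GaloisLayerInf
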