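/-
S55 / LOC5 (5-C): from base change to the killing hypothesis, in field language.

For `E ≤ M` and `L ≤ M` normal intermediate fields of `Ω/F`, `M' := extendScalars (E ≤ M)` (the
field `M` as an extension of `E`): the restriction to `ker (Gal(M/F) → Gal(E/F))` of the inflation
to `Gal(M/F)` of a class of `H²(Gal(L/F), Lˣ)` is the image, under an explicit map
`H²(Gal(M'/E), M'ˣ) → H²(ker, Mˣ)`, of the base-changed class
`map (galBC _) (unitsInclBC _)` (helper26's `GaloisLayerBC`). Hence vanishing of the base-changed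
class gives the field `kill` of `LocalCFInput`.
(helper16)
-/
import Fermat.Agent.S55.GaloisLayerBC
import Fermat.Agent.S55.GC.GaloisLayerInf

set_option autoImplicit false
set_option linter.unusedSectionVars false
set_option linter.style.haveILetI false

open CategoryTheory groupCohomology Rep IntermediateField

namespace Fermat.Agent.S55.GC.GaloisKerBC

open Fermat.Agent.S55.GC.InfRes2 Fermat.Agent.S55.GC.GaloisLayerInf
  Fermat.Agent.S55.GaloisLayerBC

variable {F Ω : Type} [Field F] [Field Ω] [Algebra F Ω]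
variable {E M : IntermediateField F Ω} (hEM : E ≤ M) [Normal F E]

/-- Elements of `ker (Gal(M/F) → Gal(E/F))` fix `E`. -/
theorem ker_apply_inclusion (σ : (resGal F Ω hEM).ker) (e : E) :
    ((σ : M ≃ₐ[F] M) (IntermediateField.inclusion hEM e) : Ω) = (e : Ω) := by
  have h := coe_resGal F Ω hEM (σ : M ≃ₐ[F] M) e
  rw [MonoidHom.mem_ker.1 σ.2] at h
  exact h.symm

/-- An element of `ker (Gal(M/F) → Gal(E/F))` as an `E`-automorphism of `M` (viewed over `E`). -/
noncomputable def kerToGalFun (σ : (resGal F Ω hEM).ker) :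
    extendScalars hEM ≃ₐ[E] extendScalars hEM where
  toFun x := ⟨((σ : M ≃ₐ[F] M) ⟨(x : Ω), x.2⟩ : M), ((σ : M ≃ₐ[F] M) ⟨(x : Ω), x.2⟩ : M).2⟩
  invFun x := ⟨((σ : M ≃ₐ[F] M).symm ⟨(x : Ω), x.2⟩ : M),
    ((σ : M ≃ₐ[F] M).symm ⟨(x : Ω), x.2⟩ : M).2⟩
  left_inv x := by
    apply Subtype.ext
    show (((σ : M ≃ₐ[F] M).symm ((σ : M ≃ₐ[F] M) ⟨(x : Ω), x.2⟩) : M) : Ω) = (x : Ω)
    rw [AlgEquiv.symm_apply_apply]
  right_inv x := by
    apply Subtype.ext
    show (((σ : M ≃ₐ[F] M) ((σ : M ≃ₐ[F] M).symm ⟨(x : Ω), x.2⟩) : M) : Ω) = (x : Ω)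
    rw [AlgEquiv.apply_symm_apply]
  map_mul' x y := by
    apply Subtype.ext
    exact congrArg Subtype.val (map_mul (σ : M ≃ₐ[F] M) ⟨(x : Ω), x.2⟩ ⟨(y : Ω), y.2⟩)
  map_add' x y := by
    apply Subtype.ext
    exact congrArg Subtype.val (map_add (σ : M ≃ₐ[F] M) ⟨(x : Ω), x.2⟩ ⟨(y : Ω), y.2⟩)
  commutes' e := by
    apply Subtype.ext
    exact ker_apply_inclusion hEM σ e

theorem coe_kerToGalFun (σ : (resGal F Ω hEM).ker) (x : extendScalars hEM) :
    ((kerToGalFun hEM σ x : extendScalars hEM) : Ω) =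
      ((σ : M ≃ₐ[F] M) ⟨(x : Ω), x.2⟩ : M) := rfl

/-- `ker (Gal(M/F) → Gal(E/F)) →* Gal(M/E)`. -/
noncomputable def kerToGal : (resGal F Ω hEM).ker →* (extendScalars hEM ≃ₐ[E] extendScalars hEM) where
  toFun := kerToGalFun hEM
  map_one' := by
    ext x
    rfl
  map_mul' σ τ := by
    ext x
    rfl

theorem coe_kerToGal (σ : (resGal F Ω hEM).ker) (x : extendScalars hEM) :
    ((kerToGal hEM σ x : extendScalars hEM) : Ω) =
      ((σ : M ≃ₐ[F] M) ⟨(x : Ω), x.2⟩ : M) := rfl

/-- The identity `M → M`, from `M` over `E` to `M` over `F`, as a ring homomorphism. -/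
def extToField : extendScalars hEM →+* M where
  toFun x := ⟨(x : Ω), x.2⟩
  map_one' := rfl
  map_mul' _ _ := rfl
  map_zero' := rfl
  map_add' _ _ := rfl

@[simp] theorem coe_extToField (x : extendScalars hEM) : ((extToField hEM x : M) : Ω) = x := rfl

/-- The identity `M'ˣ → Mˣ` as a morphism of `ker`-modules. -/
noncomputable def unitsExt :
    res (kerToGal hEM) (Rep.ofAlgebraAutOnUnits E (extendScalars hEM)) ⟶
      res (resGal F Ω hEM).ker.subtype (Rep.ofAlgebraAutOnUnits F M) :=
  Rep.ofHom ⟨(Units.map (extToField hEM).toMonoidHom).toAdditive.toIntLinearMap,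
    fun σ => by
      refine LinearMap.ext fun x => ?_
      apply congrArg Additive.ofMul
      apply Units.ext
      apply Subtype.ext
      rfl⟩

variable [IsGalois F Ω] {L : IntermediateField F Ω} [Normal F L] [Normal F M] (hLM : L ≤ M)
  [Normal E (extendScalars hEM)]

include hLM in
theorem mem_extendScalars_of_le (x : Ω) (hx : x ∈ L) : x ∈ extendScalars hEM := hLM hx

/-- **Restriction to the kernel after inflation = transport of the base change.** -/
theorem res2_map_eq :
    groupCohomology.map (resGal F Ω hLM) (GaloisLayerInf.unitsIncl F Ω hLM) 2 ≫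
        res2 (Rep.ofAlgebraAutOnUnits F M) (resGal F Ω hEM).ker =
      groupCohomology.map (galBC (mem_extendScalars_of_le hEM hLM))
          (unitsInclBC (mem_extendScalars_of_le hEM hLM)) 2 ≫
        groupCohomology.map (kerToGal hEM) (unitsExt hEM) 2 := by
  show groupCohomology.map _ _ 2 ≫ groupCohomology.map _ _ 2 =
    groupCohomology.map _ _ 2 ≫ groupCohomology.map _ _ 2
  rw [← groupCohomology.map_comp, ← groupCohomology.map_comp]
  refine groupCohomology.map_congr ?_ ?_ 2
  · ext σ y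
    show ((resGal F Ω hLM (σ : M ≃ₐ[F] M) y : L) : Ω) =
      ((galBC (mem_extendScalars_of_le hEM hLM) (kerToGal hEM σ) y : L) : Ω)
    rw [coe_resGal, coe_galBC, coe_kerToGal]
    rfl
  · ext x
    rfl

/-- **Killing from base change**: if the base change to `E` of a class of `H²(Gal(L/F), Lˣ)`
vanishes in `H²(Gal(M/E), Mˣ)`, then its inflation to `Gal(M/F)` dies on
`ker (Gal(M/F) → Gal(E/F))`. -/
theorem kill_of_galBC_eq_zero (y : groupCohomology (Rep.ofAlgebraAutOnUnits F L) 2)
    (hy : (groupCohomology.map (galBC (mem_extendScalars_of_le hEM hLM))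
      (unitsInclBC (mem_extendScalars_of_le hEM hLM)) 2).hom y = 0) :
    (res2 (Rep.ofAlgebraAutOnUnits F M) (resGal F Ω hEM).ker).hom
      ((groupCohomology.map (resGal F Ω hLM) (GaloisLayerInf.unitsIncl F Ω hLM) 2).hom y) = 0 := by
  have h := congrArg (fun ψ => ψ.hom y) (res2_map_eq hEM hLM)
  refine h.trans ?_
  show (groupCohomology.map (kerToGal hEM) (unitsExt hEM) 2).hom
    ((groupCohomology.map (galBC (mem_extendScalars_of_le hEM hLM))
      (unitsInclBC (mem_extendScalars_of_le hEM hLM)) 2).hom y) = 0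
  rw [hy, map_zero]

end Fermat.Agent.S55.GC.GaloisKerBC
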