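import Fermat.Agent.S55.GC.TateH3

/-!
# S55 / ALG7: `H³(G, A) = 0` for a class module, `k = ℤ`, subgroup/`addOrderOf` form

Adapter of `IsClassModule.isZero_H3` to the shape consumed by LOC6: coefficients `ℤ`, hypotheses
on subgroups `H ≤ G` only, `H²(H, A)` generated by `res u` (natural-number multiples) and
`addOrderOf (res u) = |H|`.
-/

set_option autoImplicit false

namespace Fermat.Agent.S55.GC

open CategoryTheory groupCohomology Rep Limits

/-- **Tate's theorem in degree 3** (integral form). -/
theorem isZero_H3_of_classData {G : Type} [Group G] [Finite G] (A : Rep.{0} ℤ G)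
    (u : groupCohomology A 2)
    (h1 : ∀ H : Subgroup G, IsZero (groupCohomology (Rep.res H.subtype A) 1))
    (h2 : ∀ H : Subgroup G,
      (∀ x : groupCohomology (Rep.res H.subtype A) 2, ∃ m : ℕ, x = m • Cores.resMap H A 2 u) ∧
        addOrderOf (Cores.resMap H A 2 u) = Nat.card H) :
    IsZero (groupCohomology A 3) := by
  have hC : IsClassModule A u := by
    refine IsClassModule.of_subgroup h1 ?_ ?_
    · intro H x
      obtain ⟨m, hm⟩ := (h2 H).1 x
      refine ⟨(m : ℤ), ?_⟩
      rw [hm]
      exact (Nat.cast_smul_eq_nsmul ℤ m _).symm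
    · intro H m hm
      have hm' : m • Cores.resMap H A 2 u = 0 := by
        have h := Int.cast_smul_eq_zsmul ℤ m (Cores.resMap H A 2 u)
        rw [Int.cast_id] at h
        exact h.symm.trans hm
      have hdvd : (addOrderOf (Cores.resMap H A 2 u) : ℤ) ∣ m :=
        addOrderOf_dvd_iff_zsmul_eq_zero.2 hm'
      rw [(h2 H).2] at hdvd
      obtain ⟨m', rfl⟩ := hdvd
      exact ⟨m', rfl⟩
  exact hC.isZero_H3

end Fermat.Agent.S55.GC
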