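/-
S55 / GLO12b part 3 (helper4): `H¹` of a permutation module over a finite group.

`A : Rep k G` with coordinates `e : A ≃+ (X →₀ Q)` permuted by a `G`-action on `X`
(`e (ρ g a) (g • x) = e a x`).  `exists_coboundary_of_stab`: a 1-cocycle whose coordinate at `x`
vanishes on the stabiliser of `x` (for all `x`) is a coboundary; `exists_coboundary`,
`isZero_H1_of_perm`: for torsion-free `Q` (e.g. `ℤ`: modules of divisors) every 1-cocycle is a
coboundary, `H¹(G, A) = 0`.
-/
import Mathlib

set_option autoImplicit false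

namespace Fermat.Agent.S55.GC.PermH1

open CategoryTheory groupCohomology

universe u

section

variable {k G : Type u} [CommRing k] [Group G] (A : Rep.{u} k G) {X : Type*} [MulAction G X]
  {Q : Type*} [AddCommGroup Q] (e : A.V ≃+ (X →₀ Q))
  (he : ∀ (g : G) (a : A.V) (x : X), e (A.ρ g a) (g • x) = e a x)

include he in
lemma coord_apply (g : G) (a : A.V) (x : X) : e (A.ρ g a) x = e a (g⁻¹ • x) := by
  have := he g a (g⁻¹ • x)
  rwa [smul_inv_smul] at this

include he in
/-- **Cocycles of a permutation module over a finite group**: a 1-cocycle whose coordinate at `x`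
vanishes on the stabiliser of `x`, for every `x`, is a coboundary. -/
theorem exists_coboundary_of_stab [Finite G] (f : G → A.V)
    (hf : ∀ g h : G, f (g * h) = A.ρ g (f h) + f g)
    (hstab : ∀ (h : G) (x : X), h • x = x → e (f h) x = 0) :
    ∃ a : A.V, ∀ g : G, A.ρ g a - a = f g := by
  classical
  let _ : Fintype G := Fintype.ofFinite G
  -- coordinates of the cocycle
  let φ : G → X → Q := fun g x => e (f g) x
  have hφ : ∀ g h x, φ (g * h) x = φ h (g⁻¹ • x) + φ g x := by
    intro g h x
    show e (f (g * h)) x = e (f h) (g⁻¹ • x) + e (f g) x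
    rw [hf, map_add, Finsupp.add_apply, coord_apply A e he]
  -- orbit representatives
  let s := MulAction.orbitRel G X
  let rep : X → X := fun x => (Quotient.out (Quotient.mk s x) : X)
  have hrep : ∀ x, ∃ g : G, g • x = rep x := by
    intro x
    have h1 : s (rep x) x := Quotient.exact (Quotient.out_eq (Quotient.mk s x))
    obtain ⟨g, hg⟩ := h1
    exact ⟨g, hg⟩
  choose gx hgx using hrep
  have hrep_smul : ∀ (g : G) (x : X), rep (g • x) = rep x := by
    intro g x
    show (Quotient.out (Quotient.mk s (g • x)) : X) = Quotient.out (Quotient.mk s x)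
    congr 1
    exact Quotient.sound ⟨g, rfl⟩
  let α : X → Q := fun x => φ (gx x) (rep x)
  -- the key identity
  have hα : ∀ g x, α (g⁻¹ • x) = φ g x + α x := by
    intro g x
    have hx0 : rep (g⁻¹ • x) = rep x := hrep_smul g⁻¹ x
    set x₀ := rep x with hx₀
    set k' := gx (g⁻¹ • x) with hk
    have hkx : k' • g⁻¹ • x = x₀ := by rw [hk, hgx, hx0]
    set h := k' * g⁻¹ * (gx x)⁻¹ with hh
    have hhx : h • x₀ = x₀ := by
      rw [hh, mul_smul, mul_smul, hx₀, ← hgx x, inv_smul_smul, hkx, hgx]
    have hk' : k' = h * (gx x * g) := by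
      rw [hh]; group
    show φ k' (rep (g⁻¹ • x)) = φ g x + φ (gx x) x₀
    rw [hx0, hk', hφ, hφ]
    have h1 : h⁻¹ • x₀ = x₀ := by rw [inv_smul_eq_iff, hhx]
    rw [h1, show φ h x₀ = 0 from hstab h x₀ hhx, add_zero]
    have h2 : (gx x)⁻¹ • x₀ = x := by rw [inv_smul_eq_iff, hgx]
    rw [h2]
  -- finite support
  have hfin : (Function.support α).Finite := by
    refine Set.Finite.subset
      (Set.finite_iUnion fun g : G => ((e (f g)).support.finite_toSet.image fun y => g⁻¹ • y)) ?_
    intro x hx
    simp only [Set.mem_iUnion, Set.mem_image, Finset.mem_coe, Finsupp.mem_support_iff]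
    exact ⟨gx x, rep x, hx, by rw [inv_smul_eq_iff, hgx]⟩
  refine ⟨e.symm (Finsupp.ofSupportFinite α hfin), fun g => ?_⟩
  apply e.injective
  ext x
  rw [map_sub, Finsupp.sub_apply, coord_apply A e he, AddEquiv.apply_symm_apply]
  show α (g⁻¹ • x) - α x = φ g x
  rw [hα]
  abel

/-- A function `ψ` on a finite group with values in a torsion-free group, additive along the
powers of `h`, vanishes at `h`. -/
lemma eq_zero_of_additive [Finite G] [IsAddTorsionFree Q] (ψ : G → Q) (h : G)
    (hψ : ∀ n : ℕ, ψ (h ^ (n + 1)) = ψ (h ^ n) + ψ h) (h1 : ψ 1 = 0) : ψ h = 0 := by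
  have key : ∀ n : ℕ, ψ (h ^ n) = n • ψ h := by
    intro n
    induction n with
    | zero => simp [h1]
    | succ n ih => rw [hψ n, ih, succ_nsmul]
  have h2 := key (orderOf h)
  rw [pow_orderOf_eq_one, h1] at h2
  exact (nsmul_right_injective (orderOf_pos h).ne') (h2.symm.trans (smul_zero _).symm)

include he in
/-- **`H¹` of a permutation module with torsion-free coefficients over a finite group vanishes**:
every 1-cocycle is a coboundary. -/
theorem exists_coboundary [Finite G] [IsAddTorsionFree Q] (f : G → A.V)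
    (hf : ∀ g h : G, f (g * h) = A.ρ g (f h) + f g) :
    ∃ a : A.V, ∀ g : G, A.ρ g a - a = f g := by
  refine exists_coboundary_of_stab A e he f hf fun h x hx => ?_
  have hφ : ∀ g h x, e (f (g * h)) x = e (f h) (g⁻¹ • x) + e (f g) x := by
    intro g h x
    rw [hf, map_add, Finsupp.add_apply, coord_apply A e he]
  have hφ1 : e (f 1) x = 0 := by
    have := hφ 1 1 x
    simp only [mul_one, inv_one, one_smul] at this
    exact (add_eq_left.1 this.symm)
  have hx' : ∀ n : ℕ, (h ^ n)⁻¹ • x = x := by
    intro n
    induction n with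
    | zero => simp
    | succ n ih =>
      rw [pow_succ, mul_inv_rev, mul_smul, ih, inv_smul_eq_iff, hx]
  refine eq_zero_of_additive (fun g => e (f g) x) h (fun n => ?_) hφ1
  show e (f (h ^ (n + 1))) x = e (f (h ^ n)) x + e (f h) x
  rw [pow_succ, hφ, hx' n, add_comm]

include he in
/-- `H¹(G, A) = 0` for a permutation module `A` with torsion-free coefficients over a finite
group. -/
theorem isZero_H1_of_perm [Finite G] [IsAddTorsionFree Q] :
    Limits.IsZero (groupCohomology A 1) := by
  rw [ModuleCat.isZero_iff_subsingleton]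
  refine ⟨fun x y => ?_⟩
  suffices hz : ∀ z : H1 A, z = 0 by rw [hz x, hz y]
  intro z
  induction z using H1_induction_on with
  | h c =>
    rw [H1π_eq_zero_iff]
    obtain ⟨a, ha⟩ := exists_coboundary A e he c ((mem_cocycles₁_iff c).mp c.2)
    exact ⟨a, funext ha⟩

end

end Fermat.Agent.S55.GC.PermH1
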