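/-
S55 / GLO12b part 4 (helper4): `H²` of a permutation lattice over a finite group is detected on the
stabilisers.

`A : Rep ℤ G`, `G` finite, with coordinates `e : A ≃+ (X →₀ ℤ)` permuted by a `G`-action on `X`.
* `coord_eq_zero_of_orbit`: conjugation of the stabiliser coordinates of a 1-cocycle;
* `mem_coboundaries₂_of_stab`: a 2-cocycle whose `x`-coordinate restricted to `Stab x` is a
  coboundary, for one `x` in each orbit, is a coboundary (explicit averaging `b g = ∑ₖ c (g, k)`,
  reduction modulo `|G|`, `PermH1.exists_coboundary_of_stab` with `ZMod |G|` coefficients);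
* `evStab A e he x : res (Stab x) A ⟶ ℤ`, `eq_zero_of_forall_evStab`:
  `H²(G, A) ↪ ∏_{x ∈ R} H²(Stab x, ℤ)` for `R` meeting every orbit;
* `map_mulEquiv_injective`: transport along a group isomorphism is injective on cohomology.
-/
import Fermat.Agent.S55.GC.PermH1

set_option autoImplicit false

namespace Fermat.Agent.S55.GC.PermH2

open CategoryTheory groupCohomology Fermat.Agent.S55.GC.PermH1

section Conj

variable {G : Type*} [Group G] {X : Type*} [MulAction G X] {Q : Type*} [AddCommGroup Q]

/-- **Conjugation**: for the coordinates `φ g x` of a 1-cocycle of a permutation module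
(`φ (g h) x = φ h (g⁻¹ x) + φ g x`), vanishing on the stabiliser at `x₀` implies vanishing on the
stabiliser at every point of the orbit of `x₀`. -/
lemma coord_eq_zero_of_orbit (φ : G → X → Q)
    (hφ : ∀ g h x, φ (g * h) x = φ h (g⁻¹ • x) + φ g x) {x₀ : X}
    (h0 : ∀ h : G, h • x₀ = x₀ → φ h x₀ = 0) (g : G) (x : X) (hgx : g • x = x₀) (h : G)
    (hx : h • x = x) : φ h x = 0 := by
  have hone : ∀ y, φ 1 y = 0 := by
    intro y
    have := hφ 1 1 y
    rw [mul_one, inv_one, one_smul] at this
    exact (add_eq_right.1 this.symm)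
  set h' := g * h * g⁻¹ with hh'
  have hh'x : h' • x₀ = x₀ := by
    rw [hh', mul_smul, mul_smul, ← hgx, inv_smul_smul, hx]
  have hh : h = g⁻¹ * (h' * g) := by rw [hh']; group
  have h1 : φ (g⁻¹ * g) x = φ g (g • x) + φ g⁻¹ x := by
    have := hφ g⁻¹ g x
    rwa [inv_inv] at this
  rw [inv_mul_cancel, hone, hgx] at h1
  have h2 : φ (h' * g) x₀ = φ g x₀ := by
    rw [hφ, h0 h' hh'x, add_zero]
    congr 1
    rw [inv_smul_eq_iff, hh'x]
  rw [hh, hφ, inv_inv, hgx, h2]
  exact h1.symm

end Conj


section Perm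

variable {G : Type} [Group G] {X : Type} [MulAction G X]

/-- The permutation representation of `G` on `X →₀ Q`. -/
noncomputable def permRho (Q : Type) [AddCommGroup Q] : Representation ℤ G (X →₀ Q) where
  toFun g := (Finsupp.mapDomain.addMonoidHom (fun x : X => g • x)).toIntLinearMap
  map_one' := by
    refine LinearMap.ext fun D => ?_
    show Finsupp.mapDomain (fun x : X => (1 : G) • x) D = D
    simp only [one_smul]
    exact Finsupp.mapDomain_id
  map_mul' g h := by
    refine LinearMap.ext fun D => ?_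
    show Finsupp.mapDomain (fun x : X => (g * h) • x) D =
      Finsupp.mapDomain (fun x : X => g • x) (Finsupp.mapDomain (fun x : X => h • x) D)
    rw [← Finsupp.mapDomain_comp]
    congr 1
    funext x
    exact mul_smul g h x

lemma permRho_apply (Q : Type) [AddCommGroup Q] (g : G) (D : X →₀ Q) :
    permRho (G := G) Q g D = Finsupp.mapDomain (fun x : X => g • x) D := rfl

lemma permRho_apply_smul (Q : Type) [AddCommGroup Q] (g : G) (D : X →₀ Q) (x : X) :
    permRho (G := G) Q g D (g • x) = D x := by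
  rw [permRho_apply]
  exact Finsupp.mapDomain_apply (MulAction.injective g) D x

end Perm


section Main

variable {G : Type} [Group G] [Finite G] (A : Rep.{0} ℤ G) {X : Type} [MulAction G X]
  (e : A.V ≃+ (X →₀ ℤ))
  (he : ∀ (g : G) (a : A.V) (x : X), e (A.ρ g a) (g • x) = e a x)

include he in
/-- **Detection of 2-coboundaries of a permutation lattice** (cocycle form): a 2-cocycle of
`A ≅ ℤ[X]` whose `x`-coordinate restricted to the stabiliser of `x` is a coboundary, for one `x`
in each orbit, is a coboundary. -/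
theorem mem_coboundaries₂_of_stab (c : G × G → A.V) (hc : c ∈ cocycles₂ A) (R : Set X)
    (hR : ∀ x, ∃ g : G, g • x ∈ R)
    (hloc : ∀ x ∈ R, ∃ β : G → ℤ, ∀ h₁ h₂ : G, h₁ • x = x → h₂ • x = x →
      e (c (h₁, h₂)) x = β h₂ - β (h₁ * h₂) + β h₁) :
    c ∈ coboundaries₂ A := by
  classical
  let _ : Fintype G := Fintype.ofFinite G
  set N : ℕ := Nat.card G with hN
  have hNpos : 0 < N := Nat.card_pos
  have : NeZero N := ⟨hNpos.ne'⟩
  have hNZ : (N : ℤ) ≠ 0 := by exact_mod_cast hNpos.ne'
  have hcoc := (mem_cocycles₂_iff c).1 hc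
  -- averaging
  let b : G → A.V := fun g => ∑ k : G, c (g, k)
  have hb : ∀ g h : G, b (g * h) + N • c (g, h) = A.ρ g (b h) + b g := by
    intro g h
    have h1 : ∑ j : G, (c (g * h, j) + c (g, h)) =
        ∑ j : G, (A.ρ g (c (h, j)) + c (g, h * j)) :=
      Finset.sum_congr rfl fun j _ => hcoc g h j
    rw [Finset.sum_add_distrib, Finset.sum_add_distrib, Finset.sum_const, Finset.card_univ,
      ← map_sum] at h1
    have h2 : ∑ j : G, c (g, h * j) = b g :=
      Fintype.sum_equiv (Equiv.mulLeft h) _ _ fun j => rfl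
    rw [h2, ← Nat.card_eq_fintype_card] at h1
    exact h1
  -- coordinates
  let B : G → X → ℤ := fun g x => e (b g) x
  have hB : ∀ g h x, B (g * h) x + N * e (c (g, h)) x = B h (g⁻¹ • x) + B g x := by
    intro g h x
    have h1 := congrArg (fun a => e a x) (hb g h)
    simp only [map_add, Finsupp.add_apply, map_nsmul, Finsupp.smul_apply, nsmul_eq_mul] at h1
    rw [coord_apply A e he] at h1
    exact h1
  -- on the stabilisers of the points of `R`, `B` is divisible by `N`
  have hdiv : ∀ x ∈ R, ∀ h : G, h • x = x → ∃ t : ℤ, B h x = N * t := by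
    intro x hx h hhx
    obtain ⟨β, hβ⟩ := hloc x hx
    refine ⟨β h, ?_⟩
    have hpow : ∀ n : ℕ, (h ^ n) • x = x := by
      intro n
      induction n with
      | zero => rw [pow_zero, one_smul]
      | succ n ih => rw [pow_succ, mul_smul, hhx, ih]
    have key := eq_zero_of_additive (fun g : G => B g x - N * β g) h ?_ ?_
    · exact sub_eq_zero.1 key
    · intro n
      have h1 := hB (h ^ n) h x
      have h2 := hβ (h ^ n) h (hpow n) hhx
      have h3 : (h ^ n)⁻¹ • x = x := by rw [inv_smul_eq_iff, hpow n]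
      rw [h3, h2] at h1
      show B (h ^ (n + 1)) x - N * β (h ^ (n + 1)) = B (h ^ n) x - N * β (h ^ n) + (B h x - N * β h)
      rw [pow_succ]
      linarith
    · have h1 := hB 1 1 x
      have h2 := hβ 1 1 (one_smul G x) (one_smul G x)
      rw [mul_one, inv_one, one_smul, h2] at h1
      show B 1 x - N * β 1 = 0
      rw [mul_one] at h1
      linarith
  -- reduction modulo `N`
  let A' : Rep.{0} ℤ G := Rep.of (permRho (G := G) (X := X) (ZMod N))
  have he' : ∀ (g : G) (a : A'.V) (x : X),
      (AddEquiv.refl (X →₀ ZMod N)) (A'.ρ g a) (g • x) = (AddEquiv.refl (X →₀ ZMod N)) a x :=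
    fun g a x => permRho_apply_smul (ZMod N) g a x
  let F : G → (X →₀ ZMod N) := fun g =>
    Finsupp.mapRange (Int.cast : ℤ → ZMod N) Int.cast_zero (e (b g))
  have hFx : ∀ g x, F g x = ((B g x : ℤ) : ZMod N) := fun g x => rfl
  have hρ' : ∀ (g : G) (D : X →₀ ZMod N) (x : X), (A'.ρ g D : X →₀ ZMod N) x = D (g⁻¹ • x) :=
    fun g D x => coord_apply A' (AddEquiv.refl (X →₀ ZMod N)) he' g D x
  have hF : ∀ g h : G, F (g * h) = A'.ρ g (F h) + F g := by
    intro g h
    ext x
    rw [Finsupp.add_apply, hρ', hFx, hFx, hFx]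
    have h1 := congrArg (fun t : ℤ => (t : ZMod N)) (hB g h x)
    simp only [Int.cast_add, Int.cast_mul, Int.cast_natCast, ZMod.natCast_self, zero_mul,
      add_zero] at h1
    exact h1
  have hφ : ∀ g h x, F (g * h) x = F h (g⁻¹ • x) + F g x := by
    intro g h x
    rw [hF, Finsupp.add_apply, hρ']
  have hstabR : ∀ x ∈ R, ∀ h : G, h • x = x → F h x = 0 := by
    intro x hx h hhx
    obtain ⟨t, ht⟩ := hdiv x hx h hhx
    rw [hFx, ht]
    simp
  have hstab : ∀ (h : G) (x : X), h • x = x → F h x = 0 := by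
    intro h x hhx
    obtain ⟨g, hg⟩ := hR x
    exact coord_eq_zero_of_orbit (fun g x => F g x) hφ (hstabR _ hg) g x rfl h hhx
  obtain ⟨a, ha⟩ := exists_coboundary_of_stab A' (AddEquiv.refl (X →₀ ZMod N)) he' F hF hstab
  -- lift the coboundary
  let ã : X →₀ ℤ := Finsupp.mapRange (fun t : ZMod N => ((t.val : ℕ) : ℤ)) (by simp) a
  have hã : ∀ x, ((ã x : ℤ) : ZMod N) = (a : X →₀ ZMod N) x := by
    intro x
    show ((((a : X →₀ ZMod N) x).val : ℤ) : ZMod N) = _
    rw [Int.cast_natCast, ZMod.natCast_zmod_val]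
  let a₀ : A.V := e.symm ã
  let b₁ : G → A.V := fun g => b g - (A.ρ g a₀ - a₀)
  have hb₁x : ∀ g x, e (b₁ g) x = B g x - (ã (g⁻¹ • x) - ã x) := by
    intro g x
    show e (b g - (A.ρ g a₀ - a₀)) x = _
    rw [map_sub, map_sub, Finsupp.sub_apply, Finsupp.sub_apply, coord_apply A e he,
      AddEquiv.apply_symm_apply]
  have hb₁dvd : ∀ g x, (N : ℤ) ∣ e (b₁ g) x := by
    intro g x
    rw [← ZMod.intCast_zmod_eq_zero_iff_dvd, hb₁x]
    push_cast
    rw [hã, hã, ← hFx, ← ha g, Finsupp.sub_apply, hρ']
    exact sub_self _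
  let b' : G → A.V := fun g =>
    e.symm (Finsupp.mapRange (fun t : ℤ => t / (N : ℤ)) (by simp) (e (b₁ g)))
  have hb' : ∀ g, N • b' g = b₁ g := by
    intro g
    apply e.injective
    ext x
    rw [map_nsmul, Finsupp.smul_apply, AddEquiv.apply_symm_apply, Finsupp.mapRange_apply,
      nsmul_eq_mul]
    exact Int.mul_ediv_cancel' (hb₁dvd g x)
  refine ⟨b', funext fun gh => ?_⟩
  obtain ⟨g, h⟩ := gh
  rw [d₁₂_hom_apply]
  show A.ρ g (b' h) - b' (g * h) + b' g = c (g, h)
  -- cancel `N`
  have hinj : ∀ u v : A.V, N • u = N • v → u = v := by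
    intro u v huv
    apply e.injective
    ext x
    have h1 := congrArg (fun t => e t x) huv
    simp only [map_nsmul, Finsupp.smul_apply, nsmul_eq_mul] at h1
    exact mul_left_cancel₀ hNZ h1
  apply hinj
  rw [smul_add, smul_sub, ← map_nsmul, hb', hb', hb']
  show A.ρ g (b h - (A.ρ h a₀ - a₀)) - (b (g * h) - (A.ρ (g * h) a₀ - a₀)) +
    (b g - (A.ρ g a₀ - a₀)) = N • c (g, h)
  have h1 : A.ρ (g * h) a₀ = A.ρ g (A.ρ h a₀) := by
    rw [map_mul]
    rfl
  rw [h1, map_sub, map_sub]
  have h2 := hb g h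
  have h3 : N • c (g, h) = A.ρ g (b h) + b g - b (g * h) := by
    rw [← h2]
    abel
  rw [h3]
  abel

end Main


section Cohomology

attribute [-instance] AddCommGroup.toIntModule

variable {G : Type} [Group G] (A : Rep.{0} ℤ G) {X : Type} [MulAction G X]
  (e : A.V ≃+ (X →₀ ℤ))
  (he : ∀ (g : G) (a : A.V) (x : X), e (A.ρ g a) (g • x) = e a x)

/-- The `x`-coordinate, as a morphism from the restriction of `A ≅ ℤ[X]` to the stabiliser of `x`
to the trivial module `ℤ`. -/
noncomputable def evStab (x : X) :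
    Rep.res (MulAction.stabilizer G x).subtype A ⟶
      Rep.trivial ℤ ↥(MulAction.stabilizer G x) ℤ :=
  ConcreteCategory.ofHom (C := Rep.{0} ℤ ↥(MulAction.stabilizer G x))
    (X := Rep.res (MulAction.stabilizer G x).subtype A)
    (Y := Rep.trivial ℤ ↥(MulAction.stabilizer G x) ℤ)
    ⟨{  toFun := fun a => e a x
        map_add' := fun a a' => by rw [map_add, Finsupp.add_apply]
        map_smul' := fun n a => by
          have h1 :=
            map_intCast_smul ((Finsupp.applyAddHom x).comp e.toAddMonoidHom) ℤ ℤ n a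
          simpa using h1 }, fun h => by
    refine LinearMap.ext fun a => ?_
    show e (A.ρ (h : G) a) x = e a x
    have h1 := he (h : G) a x
    rwa [MulAction.mem_stabilizer_iff.1 h.2] at h1⟩

lemma evStab_apply (x : X) (a : A.V) : (evStab A e he x).hom a = e a x := rfl

variable [Finite G]

/-- **`H²` of a permutation lattice over a finite group is detected on the stabilisers**: a class
of `H²(G, A)`, `A ≅ ℤ[X]`, whose `x`-components in `H²(Stab x, ℤ)` vanish for one `x` in each orbit,
is zero. -/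
theorem eq_zero_of_forall_evStab (z : groupCohomology A 2) (R : Set X)
    (hR : ∀ x, ∃ g : G, g • x ∈ R)
    (hz : ∀ x ∈ R, (groupCohomology.map (MulAction.stabilizer G x).subtype
      (evStab A e he x) 2).hom z = 0) : z = 0 := by
  classical
  induction z using H2_induction_on with | h c =>
  rw [H2π_eq_zero_iff]
  refine mem_coboundaries₂_of_stab A e he c c.2 R hR fun x hx => ?_
  have h1 := hz x hx
  have h2 := H2π_comp_map_apply (MulAction.stabilizer G x).subtype (evStab A e he x) c
  rw [h2, H2π_eq_zero_iff] at h1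
  obtain ⟨β, hβ⟩ := h1
  refine ⟨fun g => if hg : g ∈ MulAction.stabilizer G x then β ⟨g, hg⟩ else 0,
    fun h₁ h₂ hh₁ hh₂ => ?_⟩
  have hm₁ : h₁ ∈ MulAction.stabilizer G x := MulAction.mem_stabilizer_iff.2 hh₁
  have hm₂ : h₂ ∈ MulAction.stabilizer G x := MulAction.mem_stabilizer_iff.2 hh₂
  have hm₁₂ : h₁ * h₂ ∈ MulAction.stabilizer G x := mul_mem hm₁ hm₂
  have h3 := congrFun hβ (⟨h₁, hm₁⟩, ⟨h₂, hm₂⟩)
  rw [d₁₂_hom_apply] at h3
  simp only [dif_pos hm₁, dif_pos hm₂, dif_pos hm₁₂]
  exact h3.symm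

end Cohomology


section MulEquiv

universe u

variable {k G H : Type u} [CommRing k] [Group G] [Group H]

/-- Transport of structure along a group isomorphism is injective on cohomology. -/
theorem map_mulEquiv_injective (θ : G ≃* H) (A : Rep.{u} k H) (n : ℕ) :
    Function.Injective (groupCohomology.map (θ : G →* H)
      (𝟙 (Rep.res (θ : G →* H) A)) n).hom := by
  have hiso : IsIso (groupCohomology.map (θ : G →* H) (𝟙 (Rep.res (θ : G →* H) A)) n) := by
    have h2 : (groupCohomology.mapIso (A := A) (B := Rep.res (θ : G →* H) A) θ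
        (LinearEquiv.refl k A.V) (fun g => rfl) n).inv =
        groupCohomology.map (θ : G →* H) (𝟙 (Rep.res (θ : G →* H) A)) n :=
      groupCohomology.map_congr (f := (θ : G →* H)) (g := (θ : G →* H)) rfl rfl n
    rw [← h2]
    infer_instance
  exact ((ModuleCat.mono_iff_injective _).1 inferInstance)

end MulEquiv

end Fermat.Agent.S55.GC.PermH2
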