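import Fermat.Agent.S55.GC.FunRep

/-!
# S55 / ALG7: dimension shifting in positive degrees

For `A : Rep k G` the short exact sequence `0 → A → Fun(G, A) → A⁺ → 0` (`upSC A`, `up A`), the
predicates `VanishAt A n` (vanishing of `Hⁿ` on every subgroup) and `CohTrivPos A`, and the
shifting statement `VanishAt (up A) (n + 1) ↔ VanishAt A (n + 2)`.
-/

set_option autoImplicit false

namespace Fermat.Agent.S55.GC

open CategoryTheory groupCohomology Rep Limits

universe u

section Up

variable {k : Type u} {G : Type u} [CommRing k] [Group G] (A : Rep.{u} k G)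

/-- The dimension-shifting short complex `0 → A → Fun(G, A) → A⁺ → 0`. -/
noncomputable def upSC : ShortComplex (Rep.{u} k G) :=
  ShortComplex.mk (toFunRep A) (cokernel.π (toFunRep A)) (cokernel.condition _)

/-- `A⁺ = Fun(G, A) / A`. -/
noncomputable abbrev up : Rep.{u} k G := (upSC A).X₃

lemma upSC_shortExact : (upSC A).ShortExact where
  exact := ShortComplex.exact_cokernel _
  mono_f := inferInstanceAs (Mono (toFunRep A))
  epi_g := inferInstanceAs (Epi (cokernel.π (toFunRep A)))

end Up

section Vanish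

variable {k : Type u} {G : Type u} [CommRing k] [Group G]

/-- `Hⁿ(K, A) = 0` for every "subgroup" `K` of `G` (i.e. every injective `φ : K →* G`). -/
def VanishAt (A : Rep.{u} k G) (n : ℕ) : Prop :=
  ∀ (K : Type u) [Group K] (φ : K →* G), Function.Injective φ →
    IsZero (groupCohomology (Rep.res φ A) n)

/-- Cohomological triviality in positive degrees. -/
def CohTrivPos (A : Rep.{u} k G) : Prop := ∀ n : ℕ, VanishAt A (n + 1)

lemma VanishAt.of_iso {A B : Rep.{u} k G} (e : A ≅ B) {n : ℕ} (h : VanishAt A n) :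
    VanishAt B n := fun K _ φ hφ =>
  (h K φ hφ).of_iso ((groupCohomology.functor k K n).mapIso ((resFunctor φ).mapIso e.symm))

lemma VanishAt.res {A : Rep.{u} k G} {n : ℕ} (h : VanishAt A n) {H : Type u} [Group H]
    (ψ : H →* G) (hψ : Function.Injective ψ) : VanishAt (Rep.res ψ A) n :=
  fun K _ φ hφ => h K (ψ.comp φ) (hψ.comp hφ)

lemma VanishAt.self {A : Rep.{u} k G} {n : ℕ} (h : VanishAt A n) :
    IsZero (groupCohomology A n) := h G (MonoidHom.id G) Function.injective_id

lemma cohTrivPos_funRep (X : Type u) [AddCommGroup X] [Module k X] : CohTrivPos (funRep k G X) :=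
  fun n K _ φ hφ => isZero_groupCohomology_res_funRep φ X hφ n

variable {X : ShortComplex (Rep.{u} k G)} (hX : X.ShortExact)
include hX

lemma VanishAt.X₂ {n : ℕ} (h₁ : VanishAt X.X₁ n) (h₃ : VanishAt X.X₃ n) : VanishAt X.X₂ n :=
  fun K _ φ hφ =>
    (mapShortComplex₂_exact ((shortExact_res φ).2 hX) n).isZero_of_both_isZero
      (h₁ K φ hφ) (h₃ K φ hφ)

lemma VanishAt.X₃ {n : ℕ} (h₂ : VanishAt X.X₂ n) (h₁ : VanishAt X.X₁ (n + 1)) : VanishAt X.X₃ n :=
  fun K _ φ hφ =>
    (mapShortComplex₃_exact ((shortExact_res φ).2 hX) (i := n) rfl).isZero_of_both_isZero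
      (h₂ K φ hφ) (h₁ K φ hφ)

lemma VanishAt.X₁ {n : ℕ} (h₃ : VanishAt X.X₃ n) (h₂ : VanishAt X.X₂ (n + 1)) :
    VanishAt X.X₁ (n + 1) :=
  fun K _ φ hφ =>
    (mapShortComplex₁_exact ((shortExact_res φ).2 hX) (i := n) rfl).isZero_of_both_isZero
      (h₃ K φ hφ) (h₂ K φ hφ)

end Vanish

section UpShift

variable {k : Type u} {G : Type u} [CommRing k] [Group G] (A : Rep.{u} k G)

lemma vanishAt_up_iff (n : ℕ) : VanishAt (up A) (n + 1) ↔ VanishAt A (n + 2) := by
  constructor
  · intro h
    exact VanishAt.X₁ (upSC_shortExact A) h (cohTrivPos_funRep A.V (n + 1))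
  · intro h
    exact VanishAt.X₃ (upSC_shortExact A) (cohTrivPos_funRep A.V n) h

end UpShift

section Equiv

variable {k : Type u} [CommRing k] {K H : Type u} [Group K] [Group H] (e : K ≃* H)
  (B : Rep.{u} k H)

/-- The identity of `B`, as a morphism `res e.symm (res e B) ⟶ B`. -/
noncomputable def resEquivBack : res e.symm.toMonoidHom (res e.toMonoidHom B) ⟶ B :=
  Rep.ofHom (ρ := (B.ρ.comp e.toMonoidHom).comp e.symm.toMonoidHom) (σ := B.ρ)
    ⟨LinearMap.id, fun h => by
      ext x
      simp⟩

/-- Restriction along a group isomorphism is an isomorphism on cochains. -/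
noncomputable def cochainsIsoOfMulEquiv :
    inhomogeneousCochains B ≅ inhomogeneousCochains (res e.toMonoidHom B) where
  hom := cochainsMap e.toMonoidHom (𝟙 _)
  inv := cochainsMap e.symm.toMonoidHom (resEquivBack e B)
  hom_inv_id := by
    rw [← cochainsMap_comp, ← cochainsMap_id]
    exact cochainsMap_congr (MonoidHom.ext fun x => by simp) (LinearMap.ext fun x => rfl)
  inv_hom_id := by
    rw [← cochainsMap_comp, ← cochainsMap_id]
    exact cochainsMap_congr (MonoidHom.ext fun x => by simp) (LinearMap.ext fun x => rfl)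

/-- Group cohomology is invariant under group isomorphisms. -/
noncomputable def groupCohomologyIsoOfMulEquiv (n : ℕ) :
    groupCohomology B n ≅ groupCohomology (res e.toMonoidHom B) n :=
  (HomologicalComplex.homologyFunctor _ _ n).mapIso (cochainsIsoOfMulEquiv e B)

end Equiv

section Bridge

variable {k : Type u} [CommRing k] {G : Type u} [Group G]

theorem isZero_groupCohomology_res_mulEquiv_iff {K H : Type u} [Group K] [Group H] (e : K ≃* H)
    (B : Rep.{u} k H) (n : ℕ) :
    IsZero (groupCohomology (res e.toMonoidHom B) n) ↔ IsZero (groupCohomology B n) :=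
  ⟨fun h => h.of_iso (groupCohomologyIsoOfMulEquiv e B n),
    fun h => h.of_iso (groupCohomologyIsoOfMulEquiv e B n).symm⟩

/-- `VanishAt` can be tested on subgroups. -/
theorem vanishAt_iff_forall_subgroup (A : Rep.{u} k G) (n : ℕ) :
    VanishAt A n ↔ ∀ H : Subgroup G, IsZero (groupCohomology (res H.subtype A) n) := by
  constructor
  · intro h H
    exact h H H.subtype H.subtype_injective
  · intro h K _ φ hφ
    have := (isZero_groupCohomology_res_mulEquiv_iff (MonoidHom.ofInjective hφ)
      (res φ.range.subtype A) n).2 (h φ.range)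
    exact this

end Bridge

end Fermat.Agent.S55.GC
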