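import Fermat.Agent.S55.GC.DimShift

/-!
# S55 / ALG7: invariants under a normal subgroup and dimension shifting; core of the `H³`-lemma

* `rep_exact_iff`: elementwise exactness in `Rep k G`;
* `invSC S X`, `invSC_shortExact`: `(-)^S` is exact on `0 → X₁ → X₂ → X₃ → 0` when `H¹(S, X₁) = 0`;
* `funRepInvIso`: `Fun(G, X)^S ≅ Fun(G ⧸ S, X)`, hence acyclic for `G ⧸ S`;
* `isZero_groupCohomology_odd_of_isCyclic`: periodicity for finite cyclic groups;
* `isZero_H3_of_normal_cyclic`: the induction step of the `H³`-lemma (no inflation-restriction in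
  degree 3 needed: everything is shifted down to Mathlib's `H1InfRes`).
-/

set_option autoImplicit false

namespace Fermat.Agent.S55.GC

open CategoryTheory groupCohomology Rep Limits

universe u

section Elem

variable {k : Type u} {G : Type u} [CommRing k] [Group G]

lemma rep_exact_iff (S : ShortComplex (Rep.{u} k G)) :
    S.Exact ↔ ∀ x : S.X₂.V, S.g.hom x = 0 → ∃ y : S.X₁.V, S.f.hom y = x := by
  rw [← ShortComplex.exact_map_iff_of_faithful S (forget₂ (Rep.{u} k G) (ModuleCat.{u} k)),
    ShortComplex.moduleCat_exact_iff]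
  rfl

/-- Elementary form of `H¹(S, A) = 0`. -/
theorem exists_eq_sub_of_isZero_H1 (A : Rep.{u} k G) (S : Subgroup G)
    (h : IsZero (groupCohomology (res S.subtype A) 1))
    (f : S → A.V) (hf : ∀ s t : S, f (s * t) = A.ρ (s : G) (f t) + f s) :
    ∃ y : A.V, ∀ s : S, f s = A.ρ (s : G) y - y := by
  have hmem : f ∈ cocycles₁ (res S.subtype A) := by
    rw [mem_cocycles₁_iff]
    intro s t
    exact hf s t
  have h0 : H1π (res S.subtype A) ⟨f, hmem⟩ = 0 :=
    (ModuleCat.isZero_iff_subsingleton.mp h).elim _ _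
  rw [H1π_eq_zero_iff] at h0
  obtain ⟨y, hy⟩ := h0
  refine ⟨y, fun s => ?_⟩
  exact (congrFun hy s).symm

lemma isZero_X₃_iff_of_X₂ {X : ShortComplex (Rep.{u} k G)} (hX : X.ShortExact) (n : ℕ)
    (h₂ : IsZero (groupCohomology X.X₂ (n + 1))) (h₂' : IsZero (groupCohomology X.X₂ (n + 2))) :
    IsZero (groupCohomology X.X₃ (n + 1)) ↔ IsZero (groupCohomology X.X₁ (n + 2)) := by
  constructor
  · intro h
    exact (mapShortComplex₁_exact hX (i := n + 1) rfl).isZero_of_both_isZero h h₂'
  · intro h
    exact (mapShortComplex₃_exact hX (i := n + 1) rfl).isZero_of_both_isZero h₂ h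

/-- Dimension shifting on a "subgroup" `φ : K →* G`. -/
lemma isZero_res_up_iff (A : Rep.{u} k G) {K : Type u} [Group K] (φ : K →* G)
    (hφ : Function.Injective φ) (n : ℕ) :
    IsZero (groupCohomology (res φ (up A)) (n + 1)) ↔
      IsZero (groupCohomology (res φ A) (n + 2)) :=
  isZero_X₃_iff_of_X₂ ((shortExact_res φ).2 (upSC_shortExact A)) n
    (isZero_groupCohomology_res_funRep φ A.V hφ n)
    (isZero_groupCohomology_res_funRep φ A.V hφ (n + 1))

/-- Dimension shifting on `G` itself. -/
lemma isZero_up_iff (A : Rep.{u} k G) (n : ℕ) :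
    IsZero (groupCohomology (up A) (n + 1)) ↔ IsZero (groupCohomology A (n + 2)) :=
  isZero_X₃_iff_of_X₂ (upSC_shortExact A) n
    (isZero_groupCohomology_funRep k G A.V n) (isZero_groupCohomology_funRep k G A.V (n + 1))

end Elem

section Inv

variable {k : Type u} {G : Type u} [CommRing k] [Group G] (S : Subgroup G) [S.Normal]

lemma invMap_apply {A B : Rep.{u} k G} (f : A ⟶ B) (x : (A.quotientToInvariants S).V) :
    (((quotientToInvariantsFunctor k S).map f).hom x).1 = f.hom x.1 := rfl

/-- The image of a short complex under `(-)^S`. -/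
noncomputable def invSC (X : ShortComplex (Rep.{u} k G)) : ShortComplex (Rep.{u} k (G ⧸ S)) :=
  ShortComplex.mk ((quotientToInvariantsFunctor k S).map X.f)
    ((quotientToInvariantsFunctor k S).map X.g) (by
      rw [← Functor.map_comp, X.zero]
      ext x
      rfl)

variable {S}

/-- `(-)^S` is exact on a short exact sequence `0 → X₁ → X₂ → X₃ → 0` with `H¹(S, X₁) = 0`. -/
theorem invSC_shortExact {X : ShortComplex (Rep.{u} k G)} (hX : X.ShortExact)
    (h1 : IsZero (groupCohomology (res S.subtype X.X₁) 1)) : (invSC S X).ShortExact := by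
  have hinj : Function.Injective X.f.hom := (Rep.mono_iff_injective _).1 hX.mono_f
  have hsurj : Function.Surjective X.g.hom := (Rep.epi_iff_surjective _).1 hX.epi_g
  have hex := (rep_exact_iff X).1 hX.exact
  refine { exact := ?_, mono_f := ?_, epi_g := ?_ }
  · -- exactness
    rw [rep_exact_iff]
    intro x hx
    have hx' : X.g.hom x.1 = 0 := congrArg Subtype.val hx
    obtain ⟨y, hy⟩ := hex x.1 hx'
    have hyinv : y ∈ Representation.invariants (X.X₁.ρ.comp S.subtype) := by
      intro s
      apply hinj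
      have := x.2 s
      rw [← hy] at this
      rw [← this]
      exact (hom_comm_apply X.f _ _)
    exact ⟨⟨y, hyinv⟩, Subtype.ext hy⟩
  · -- mono
    rw [Rep.mono_iff_injective]
    intro x y hxy
    apply Subtype.ext
    apply hinj
    exact congrArg Subtype.val hxy
  · -- epi
    rw [Rep.epi_iff_surjective]
    intro b
    obtain ⟨f, hf⟩ := hsurj b.1
    have hc : ∀ s : S, ∃ y : X.X₁.V, X.f.hom y = X.X₂.ρ (s : G) f - f := by
      intro s
      apply hex
      rw [map_sub, hom_comm_apply, hf]
      have := b.2 s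
      exact sub_eq_zero.2 this
    choose c hc using hc
    have hcoc : ∀ s t : S, c (s * t) = X.X₁.ρ (s : G) (c t) + c s := by
      intro s t
      apply hinj
      rw [map_add, hom_comm_apply, hc, hc, hc]
      simp only [Subgroup.coe_mul, map_mul, Module.End.mul_apply, map_sub]
      abel
    obtain ⟨a, ha⟩ := exists_eq_sub_of_isZero_H1 X.X₁ S h1 c hcoc
    have hinv : f - X.f.hom a ∈ Representation.invariants (X.X₂.ρ.comp S.subtype) := by
      intro s
      change X.X₂.ρ (s : G) (f - X.f.hom a) = f - X.f.hom a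
      have h2 := hc s
      rw [ha s, map_sub, hom_comm_apply] at h2
      rw [map_sub]
      rw [sub_eq_sub_iff_add_eq_add]
      have : X.X₂.ρ (s : G) f = (X.X₂.ρ (s : G) (X.f.hom a) - X.f.hom a) + f := by
        rw [h2]; abel
      rw [this]; abel
    refine ⟨⟨f - X.f.hom a, hinv⟩, Subtype.ext ?_⟩
    change X.g.hom (f - X.f.hom a) = b.1
    rw [map_sub, hf]
    have : X.g.hom (X.f.hom a) = 0 := by
      have := X.zero
      have h3 := congrArg (fun φ => φ.hom a) this
      exact h3
    rw [this, sub_zero]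

end Inv

section InvFun

variable {k : Type u} {G : Type u} [CommRing k] [Group G] (S : Subgroup G) [S.Normal]
  (X : Type u) [AddCommGroup X] [Module k X]

lemma funRep_inv_apply_eq
    (f : ((funRep k G X).quotientToInvariants S).V) {x y : G}
    (h : (x : G ⧸ S) = (y : G ⧸ S)) : f.1 x = f.1 y := by
  have hs : x⁻¹ * y ∈ S := QuotientGroup.eq.1 h
  have := congrFun (f.2 ⟨x⁻¹ * y, hs⟩) x
  rw [← this]
  change f.1 (x * (x⁻¹ * y)) = f.1 y
  group

/-- `Fun(G, X)^S ≃ Fun(G ⧸ S, X)`. -/
noncomputable def funRepInvEquiv :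
    ((funRep k G X).quotientToInvariants S).V ≃ₗ[k] ((G ⧸ S) → X) where
  toFun f := fun q => f.1 (Quotient.out q)
  map_add' _ _ := rfl
  map_smul' _ _ := rfl
  invFun F := ⟨fun x => F (x : G ⧸ S), by
    intro s
    funext x
    change F ((x * (s : G) : G) : G ⧸ S) = F (x : G ⧸ S)
    congr 1
    exact QuotientGroup.eq.2 (by simp)⟩
  left_inv f := by
    apply Subtype.ext
    funext x
    exact funRep_inv_apply_eq S X f (Quotient.out_eq' (x : G ⧸ S))
  right_inv F := by
    funext q
    change F ((Quotient.out q : G) : G ⧸ S) = F q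
    congr 1
    exact Quotient.out_eq' q

/-- `Fun(G, X)^S ≅ Fun(G ⧸ S, X)` as representations of `G ⧸ S`. -/
noncomputable def funRepInvIso :
    (funRep k G X).quotientToInvariants S ≅ funRep k (G ⧸ S) X :=
  Rep.mkIso (ρ := (funRepn k G X).quotientToInvariants S) (σ := funRepn k (G ⧸ S) X)
    (Representation.Equiv.mk (funRepInvEquiv S X) (by
      intro g
      induction g using QuotientGroup.induction_on with | H g =>
      ext f q
      change f.1 (Quotient.out q * g) = f.1 (Quotient.out (q * (g : G ⧸ S)))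
      apply funRep_inv_apply_eq
      have h1 : ((Quotient.out q : G) : G ⧸ S) = q := Quotient.out_eq' q
      have h2 : ((Quotient.out (q * (g : G ⧸ S)) : G) : G ⧸ S) = q * (g : G ⧸ S) :=
        Quotient.out_eq' _
      rw [QuotientGroup.mk_mul, h1, h2]))

theorem isZero_groupCohomology_funRep_inv (n : ℕ) :
    IsZero (groupCohomology ((funRep k G X).quotientToInvariants S) (n + 1)) :=
  (isZero_groupCohomology_funRep k (G ⧸ S) X n).of_iso
    ((groupCohomology.functor k (G ⧸ S) (n + 1)).mapIso (funRepInvIso S X))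

end InvFun

section Cyclic

variable {k : Type u} {C : Type u} [CommRing k] [Group C] [Finite C] [IsCyclic C]

/-- Periodicity for finite cyclic groups (odd degrees). -/
theorem isZero_groupCohomology_odd_of_isCyclic (M : Rep.{u} k C) {i j : ℕ} (hi : Odd i)
    (hj : Odd j) (h : IsZero (groupCohomology M i)) : IsZero (groupCohomology M j) := by
  obtain ⟨g, hg⟩ := IsCyclic.exists_generator (α := C)
  let _ : CommGroup C := IsCyclic.commGroup
  let _ : Fintype C := Fintype.ofFinite C
  exact h.of_iso ((Rep.FiniteCyclicGroup.groupCohomologyIsoOdd M g hg j hj) ≪≫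
    (Rep.FiniteCyclicGroup.groupCohomologyIsoOdd M g hg i hi).symm)

end Cyclic

section Core

variable {k : Type u} {G : Type u} [CommRing k] [Group G] (S : Subgroup G) [S.Normal]

/-- Dimension shifting for `G ⧸ S`-cohomology of `S`-invariants, when `H¹(S, A) = 0`. -/
lemma isZero_inv_up_iff (A : Rep.{u} k G)
    (h1 : IsZero (groupCohomology (res S.subtype A) 1)) (n : ℕ) :
    IsZero (groupCohomology ((up A).quotientToInvariants S) (n + 1)) ↔
      IsZero (groupCohomology (A.quotientToInvariants S) (n + 2)) :=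
  isZero_X₃_iff_of_X₂ (X := invSC S (upSC A)) (invSC_shortExact (upSC_shortExact A) h1) n
    (isZero_groupCohomology_funRep_inv S A.V n) (isZero_groupCohomology_funRep_inv S A.V (n + 1))

/-- **Core step of the `H³`-lemma.** `S ◁ G` with `G ⧸ S` finite cyclic, `H¹(S, A) = H²(S, A) =
H³(S, A) = 0` and `H¹(G, A) = 0` imply `H³(G, A) = 0`. -/
theorem isZero_H3_of_normal_cyclic [Finite (G ⧸ S)] [IsCyclic (G ⧸ S)] (A : Rep.{u} k G)
    (h1S : IsZero (groupCohomology (res S.subtype A) 1))
    (h2S : IsZero (groupCohomology (res S.subtype A) 2))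
    (h3S : IsZero (groupCohomology (res S.subtype A) 3))
    (h1G : IsZero (groupCohomology A 1)) : IsZero (groupCohomology A 3) := by
  have hinj : Function.Injective S.subtype := S.subtype_injective
  -- shift twice on `G`
  rw [← isZero_up_iff A 1, ← isZero_up_iff (up A) 0]
  -- `H¹(S, A⁺) = 0` and `H¹(S, A⁺⁺) = 0`
  have h1SB : IsZero (groupCohomology (res S.subtype (up A)) 1) :=
    (isZero_res_up_iff A S.subtype hinj 0).2 h2S
  have h2SB : IsZero (groupCohomology (res S.subtype (up A)) 2) :=
    (isZero_res_up_iff A S.subtype hinj 1).2 h3S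
  have h1SB' : IsZero (groupCohomology (res S.subtype (up (up A))) 1) :=
    (isZero_res_up_iff (up A) S.subtype hinj 0).2 h2SB
  -- `H¹(G ⧸ S, A^S) = 0` by injectivity of inflation
  have hq1 : IsZero (groupCohomology (A.quotientToInvariants S) 1) := by
    have h : IsZero (H1InfRes A S).X₂ := h1G
    have hm : Mono (H1InfRes A S).f := inferInstance
    exact @IsZero.of_mono _ _ _ _ _ (H1InfRes A S).f hm h
  -- periodicity
  have hq3 : IsZero (groupCohomology (A.quotientToInvariants S) 3) :=
    isZero_groupCohomology_odd_of_isCyclic _ (by decide) (by decide) hq1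
  have hq2B : IsZero (groupCohomology ((up A).quotientToInvariants S) 2) :=
    (isZero_inv_up_iff S A h1S 1).2 hq3
  have hq1B' : IsZero (groupCohomology ((up (up A)).quotientToInvariants S) 1) :=
    (isZero_inv_up_iff S (up A) h1SB 0).2 hq2B
  exact (H1InfRes_exact (up (up A)) S).isZero_of_both_isZero hq1B' h1SB'

end Core

end Fermat.Agent.S55.GC
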