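/-
S55 package GC2: explicit description of Mathlib's Tate cohomology in degrees `0` and `-1`.

For a finite group `G` and `A : Rep R G` (Mathlib's `tateCohomology`):
* `tateH0π A : A.ρ.invariants → Ĥ⁰(G, A)` is surjective with kernel the norms `N_G A`;
* `tateHm1π A : ker N_G → Ĥ⁻¹(G, A)` is surjective with kernel `I_G A = span {ρ g a - a}`;
* both are natural in `A`.
Mathlib only.
-/
import Mathlib

set_option autoImplicit false

universe u

open CategoryTheory groupCohomology groupHomology

namespace Fermat.Agent.S55.GC.TateLow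

variable {R G : Type u} [CommRing R] [Group G] [Fintype G] (A : Rep R G) {B : Rep R G}

/-! ### The low degree terms of the Tate complex -/

/-- The degree `0` term of the Tate complex is `A`. -/
noncomputable def X0Iso : (tateComplex A).X 0 ≅ ModuleCat.of R A.V := cochainsIso₀ A

/-- The degree `1` term of the Tate complex is `G → A`. -/
noncomputable def X1Iso : (tateComplex A).X 1 ≅ ModuleCat.of R (G → A) := cochainsIso₁ A

/-- The degree `-1` term of the Tate complex is `A`. -/
noncomputable def Xm1Iso : (tateComplex A).X (-1) ≅ ModuleCat.of R A.V := chainsIso₀ A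

/-- The degree `-2` term of the Tate complex is `G →₀ A`. -/
noncomputable def Xm2Iso : (tateComplex A).X (-2) ≅ ModuleCat.of R (G →₀ A) := chainsIso₁ A

lemma X0Iso_hom_comp_d₀₁ :
    (X0Iso A).hom ≫ d₀₁ A = (tateComplex A).d 0 1 ≫ (X1Iso A).hom :=
  comp_d₀₁_eq A

lemma Xm2Iso_hom_comp_d₁₀ :
    (Xm2Iso A).hom ≫ d₁₀ A = (tateComplex A).d (-2) (-1) ≫ (Xm1Iso A).hom :=
  comp_d₁₀_eq A

lemma Xm1Iso_hom_comp_norm :
    (Xm1Iso A).hom ≫ A.norm.toModuleCatHom = (tateComplex A).d (-1) 0 ≫ (X0Iso A).hom := by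
  have key : (chainsIso₀ A).hom ≫ A.norm.toModuleCatHom =
      A.tateNorm ≫ (cochainsIso₀ A).hom := by
    rw [Rep.tateNorm]
    simp
  exact key

lemma X0Iso_inv_comp_d :
    (X0Iso A).inv ≫ (tateComplex A).d 0 1 = d₀₁ A ≫ (X1Iso A).inv :=
  (CommSq.horiz_inv ⟨X0Iso_hom_comp_d₀₁ A⟩).w

lemma Xm1Iso_inv_comp_d :
    (Xm1Iso A).inv ≫ (tateComplex A).d (-1) 0 = A.norm.toModuleCatHom ≫ (X0Iso A).inv :=
  (CommSq.horiz_inv ⟨Xm1Iso_hom_comp_norm A⟩).w

lemma Xm2Iso_inv_comp_d :
    (Xm2Iso A).inv ≫ (tateComplex A).d (-2) (-1) = d₁₀ A ≫ (Xm1Iso A).inv :=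
  (CommSq.horiz_inv ⟨Xm2Iso_hom_comp_d₁₀ A⟩).w

/-! ### Degree `0` -/

/-- The inclusion of the invariants into the degree `0` term of the Tate complex. -/
noncomputable def invToX0 : ModuleCat.of R A.ρ.invariants ⟶ (tateComplex A).X 0 :=
  ModuleCat.ofHom A.ρ.invariants.subtype ≫ (X0Iso A).inv

lemma invToX0_comp_d : invToX0 A ≫ (tateComplex A).d 0 1 = 0 := by
  rw [invToX0, Category.assoc, X0Iso_inv_comp_d, ← Category.assoc, subtype_comp_d₀₁,
    Limits.zero_comp]

/-- The invariants as cycles of degree `0` of the Tate complex. -/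
noncomputable def invToCycles0 : ModuleCat.of R A.ρ.invariants ⟶ (tateComplex A).cycles 0 :=
  (tateComplex A).liftCycles (invToX0 A) 1 (by simp) (invToX0_comp_d A)

@[reassoc (attr := simp)]
lemma invToCycles0_i : invToCycles0 A ≫ (tateComplex A).iCycles 0 = invToX0 A :=
  (tateComplex A).liftCycles_i _ _ _ _

/-- The canonical map from the invariants onto the degree `0` Tate cohomology. -/
noncomputable def tateH0π : ModuleCat.of R A.ρ.invariants ⟶ tateCohomology A 0 :=
  invToCycles0 A ≫ (tateComplex A).homologyπ 0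

lemma X0Iso_iCycles_mem_invariants (z : (tateComplex A).cycles 0) :
    (X0Iso A).hom ((tateComplex A).iCycles 0 z) ∈ A.ρ.invariants := by
  rw [← d₀₁_ker_eq_invariants, LinearMap.mem_ker]
  have h1 : (tateComplex A).iCycles 0 ≫ (tateComplex A).d 0 1 = 0 :=
    (tateComplex A).iCycles_d 0 1
  have h2 := congrArg (fun f => f ≫ (X1Iso A).hom) h1
  simp only [Category.assoc, Limits.zero_comp, ← X0Iso_hom_comp_d₀₁] at h2
  have h3 := congrArg (fun f => f.hom z) h2
  simpa using h3

lemma invToCycles0_surjective : Function.Surjective (invToCycles0 A) := by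
  intro z
  refine ⟨⟨_, X0Iso_iCycles_mem_invariants A z⟩, ?_⟩
  have hmono : Function.Injective ((tateComplex A).iCycles 0) :=
    (ModuleCat.mono_iff_injective _).mp inferInstance
  apply hmono
  have h := congrArg (fun f => f.hom
    (⟨_, X0Iso_iCycles_mem_invariants A z⟩ : A.ρ.invariants)) (invToCycles0_i A)
  simp only [ModuleCat.hom_comp, LinearMap.comp_apply] at h
  rw [h]
  simp [invToX0]

lemma tateH0π_surjective : Function.Surjective (tateH0π A) := by
  have h1 : Function.Surjective ((tateComplex A).homologyπ 0) :=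
    (ModuleCat.epi_iff_surjective _).mp inferInstance
  intro x
  obtain ⟨z, rfl⟩ := h1 x
  obtain ⟨y, rfl⟩ := invToCycles0_surjective A z
  exact ⟨y, rfl⟩

/-- A cycle is killed by `homologyπ` iff it is a boundary. -/
lemma homologyπ_eq_zero_iff (i j : ℤ) (hij : (ComplexShape.up ℤ).prev j = i)
    (z : (tateComplex A).cycles j) :
    (tateComplex A).homologyπ j z = 0 ↔ ∃ y, (tateComplex A).toCycles i j y = z := by
  have hex : (ShortComplex.mk ((tateComplex A).toCycles i j) ((tateComplex A).homologyπ j)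
      ((tateComplex A).toCycles_comp_homologyπ i j)).Exact :=
    ShortComplex.exact_of_g_is_cokernel _ ((tateComplex A).homologyIsCokernel i j hij)
  rw [ShortComplex.moduleCat_exact_iff] at hex
  constructor
  · intro h
    exact hex z h
  · rintro ⟨y, rfl⟩
    exact LinearMap.congr_fun (congrArg ModuleCat.Hom.hom
      ((tateComplex A).toCycles_comp_homologyπ i j)) y

lemma tateH0π_eq_zero_iff (x : A.ρ.invariants) :
    tateH0π A x = 0 ↔ ∃ a : A, A.ρ.norm a = (x : A) := by
  have hmono : Function.Injective ((tateComplex A).iCycles 0) :=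
    (ModuleCat.mono_iff_injective _).mp inferInstance
  have hx : (tateComplex A).iCycles 0 (invToCycles0 A x) = (X0Iso A).inv (x : A) := by
    exact LinearMap.congr_fun (congrArg ModuleCat.Hom.hom (invToCycles0_i A)) x
  have hd : ∀ y, (tateComplex A).iCycles 0 ((tateComplex A).toCycles (-1) 0 y) =
      (X0Iso A).inv (A.ρ.norm ((Xm1Iso A).hom y)) := by
    intro y
    have h1 := congrArg (fun f => f.hom y) ((tateComplex A).toCycles_i (-1) 0)
    have h2 := congrArg (fun f => f.hom ((Xm1Iso A).hom y)) (Xm1Iso_inv_comp_d A)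
    simp only [ModuleCat.hom_comp, LinearMap.comp_apply] at h1 h2
    rw [h1]
    simpa using h2
  change (tateComplex A).homologyπ 0 (invToCycles0 A x) = 0 ↔ _
  rw [homologyπ_eq_zero_iff A (-1) 0 (by simp)]
  constructor
  · rintro ⟨y, hy⟩
    refine ⟨(Xm1Iso A).hom y, ?_⟩
    have := congrArg ((tateComplex A).iCycles 0) hy
    rw [hd, hx] at this
    have h3 := congrArg (X0Iso A).hom this
    simpa using h3
  · rintro ⟨a, ha⟩
    refine ⟨(Xm1Iso A).inv a, hmono ?_⟩
    rw [hd, hx]
    simp [ha]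

/-! ### Naturality in degree `0` -/

variable {A}

lemma X0Iso_naturality (φ : A ⟶ B) :
    (tateComplex.map φ).f 0 ≫ (X0Iso B).hom = (X0Iso A).hom ≫ φ.toModuleCatHom :=
  cochainsMap_f_0_comp_cochainsIso₀ (.id G) φ

lemma X0Iso_inv_naturality (φ : A ⟶ B) :
    (X0Iso A).inv ≫ (tateComplex.map φ).f 0 = φ.toModuleCatHom ≫ (X0Iso B).inv := by
  rw [Iso.inv_comp_eq, ← Category.assoc, Iso.eq_comp_inv]
  exact X0Iso_naturality φ

/-- The map induced on invariants by a morphism of representations. -/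
noncomputable def invMap (φ : A ⟶ B) :
    ModuleCat.of R A.ρ.invariants ⟶ ModuleCat.of R B.ρ.invariants :=
  ModuleCat.ofHom (φ.hom.toLinearMap.restrict (p := A.ρ.invariants) (q := B.ρ.invariants)
    (fun x hx g => by
      have := Rep.hom_comm_apply φ g x
      rw [hx g] at this
      exact this.symm))

omit [Fintype G] in
@[simp] lemma invMap_apply_coe (φ : A ⟶ B) (x : A.ρ.invariants) :
    ((invMap φ x : B.ρ.invariants) : B) = φ.hom (x : A) := rfl

lemma invToX0_naturality (φ : A ⟶ B) :
    invToX0 A ≫ (tateComplex.map φ).f 0 = invMap φ ≫ invToX0 B := by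
  rw [invToX0, Category.assoc, X0Iso_inv_naturality, invToX0, ← Category.assoc, ← Category.assoc]
  rfl

lemma tateH0π_naturality' (φ : A ⟶ B) :
    (invToCycles0 A ≫ (tateComplex A).homologyπ 0) ≫
        HomologicalComplex.homologyMap (tateComplex.map φ) 0 =
      invMap φ ≫ invToCycles0 B ≫ (tateComplex B).homologyπ 0 := by
  rw [Category.assoc, HomologicalComplex.homologyπ_naturality, ← Category.assoc, ← Category.assoc]
  congr 1
  rw [← cancel_mono ((tateComplex B).iCycles 0), Category.assoc, Category.assoc,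
    HomologicalComplex.cyclesMap_i, invToCycles0_i_assoc, invToCycles0_i, invToX0_naturality]

lemma tateH0π_naturality (φ : A ⟶ B) :
    tateH0π A ≫ (tateCohomologyFunctor 0).map φ = invMap φ ≫ tateH0π B :=
  tateH0π_naturality' φ

lemma tateH0π_naturality_apply (φ : A ⟶ B) (x : A.ρ.invariants) :
    (tateCohomologyFunctor 0).map φ (tateH0π A x) = tateH0π B (invMap φ x) :=
  LinearMap.congr_fun (congrArg ModuleCat.Hom.hom (tateH0π_naturality φ)) x

/-! ### Degree `-1` -/

variable (A)

/-- The inclusion of the kernel of the norm into the degree `-1` term of the Tate complex. -/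
noncomputable def kerNormToXm1 :
    ModuleCat.of R (LinearMap.ker A.ρ.norm) ⟶ (tateComplex A).X (-1) :=
  ModuleCat.ofHom (LinearMap.ker A.ρ.norm).subtype ≫ (Xm1Iso A).inv

lemma kerNormToXm1_comp_d : kerNormToXm1 A ≫ (tateComplex A).d (-1) 0 = 0 := by
  rw [kerNormToXm1, Category.assoc, Xm1Iso_inv_comp_d, ← Category.assoc]
  have : ModuleCat.ofHom (LinearMap.ker A.ρ.norm).subtype ≫ A.norm.toModuleCatHom = 0 := by
    ext x
    exact x.2
  rw [this, Limits.zero_comp]

/-- The kernel of the norm as cycles of degree `-1` of the Tate complex. -/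
noncomputable def kerNormToCycles :
    ModuleCat.of R (LinearMap.ker A.ρ.norm) ⟶ (tateComplex A).cycles (-1) :=
  (tateComplex A).liftCycles (kerNormToXm1 A) 0 (by simp) (kerNormToXm1_comp_d A)

@[reassoc (attr := simp)]
lemma kerNormToCycles_i : kerNormToCycles A ≫ (tateComplex A).iCycles (-1) = kerNormToXm1 A :=
  (tateComplex A).liftCycles_i _ _ _ _

/-- The canonical map from the kernel of the norm onto the degree `-1` Tate cohomology. -/
noncomputable def tateHm1π : ModuleCat.of R (LinearMap.ker A.ρ.norm) ⟶ tateCohomology A (-1) :=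
  kerNormToCycles A ≫ (tateComplex A).homologyπ (-1)

lemma Xm1Iso_iCycles_mem_ker (z : (tateComplex A).cycles (-1)) :
    (Xm1Iso A).hom ((tateComplex A).iCycles (-1) z) ∈ LinearMap.ker A.ρ.norm := by
  rw [LinearMap.mem_ker]
  have h1 : (tateComplex A).iCycles (-1) ≫ (tateComplex A).d (-1) 0 = 0 :=
    (tateComplex A).iCycles_d (-1) 0
  have h2 := congrArg (fun f => f ≫ (X0Iso A).hom) h1
  simp only [Category.assoc, Limits.zero_comp, ← Xm1Iso_hom_comp_norm] at h2
  exact LinearMap.congr_fun (congrArg ModuleCat.Hom.hom h2) z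

lemma kerNormToCycles_surjective : Function.Surjective (kerNormToCycles A) := by
  intro z
  refine ⟨⟨_, Xm1Iso_iCycles_mem_ker A z⟩, ?_⟩
  have hmono : Function.Injective ((tateComplex A).iCycles (-1)) :=
    (ModuleCat.mono_iff_injective _).mp inferInstance
  apply hmono
  have h := LinearMap.congr_fun (congrArg ModuleCat.Hom.hom (kerNormToCycles_i A))
    (⟨_, Xm1Iso_iCycles_mem_ker A z⟩ : LinearMap.ker A.ρ.norm)
  refine h.trans ?_
  simp [kerNormToXm1]

lemma tateHm1π_surjective : Function.Surjective (tateHm1π A) := by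
  have h1 : Function.Surjective ((tateComplex A).homologyπ (-1)) :=
    (ModuleCat.epi_iff_surjective _).mp inferInstance
  intro x
  obtain ⟨z, rfl⟩ := h1 x
  obtain ⟨y, rfl⟩ := kerNormToCycles_surjective A z
  exact ⟨y, rfl⟩

lemma tateHm1π_eq_zero_iff (x : LinearMap.ker A.ρ.norm) :
    tateHm1π A x = 0 ↔ (x : A) ∈ Representation.Coinvariants.ker A.ρ := by
  have hmono : Function.Injective ((tateComplex A).iCycles (-1)) :=
    (ModuleCat.mono_iff_injective _).mp inferInstance
  have hx : (tateComplex A).iCycles (-1) (kerNormToCycles A x) = (Xm1Iso A).inv (x : A) :=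
    LinearMap.congr_fun (congrArg ModuleCat.Hom.hom (kerNormToCycles_i A)) x
  have hd : ∀ y, (tateComplex A).iCycles (-1) ((tateComplex A).toCycles (-2) (-1) y) =
      (Xm1Iso A).inv (d₁₀ A ((Xm2Iso A).hom y)) := by
    intro y
    have h1 : (tateComplex A).iCycles (-1) ((tateComplex A).toCycles (-2) (-1) y) =
        (tateComplex A).d (-2) (-1) y :=
      LinearMap.congr_fun (congrArg ModuleCat.Hom.hom
        ((tateComplex A).toCycles_i (-2) (-1))) y
    have h2 : (tateComplex A).d (-2) (-1) ((Xm2Iso A).inv ((Xm2Iso A).hom y)) =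
        (Xm1Iso A).inv (d₁₀ A ((Xm2Iso A).hom y)) :=
      LinearMap.congr_fun (congrArg ModuleCat.Hom.hom (Xm2Iso_inv_comp_d A))
        ((Xm2Iso A).hom y)
    have hy : (Xm2Iso A).inv ((Xm2Iso A).hom y) = y := by simp
    rw [hy] at h2
    exact h1.trans h2
  change (tateComplex A).homologyπ (-1) (kerNormToCycles A x) = 0 ↔ _
  rw [homologyπ_eq_zero_iff A (-2) (-1) (by simp), ← range_d₁₀_eq_coinvariantsKer]
  constructor
  · rintro ⟨y, hy⟩
    refine ⟨(Xm2Iso A).hom y, ?_⟩
    have := congrArg ((tateComplex A).iCycles (-1)) hy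
    rw [hd, hx] at this
    have h3 := congrArg (Xm1Iso A).hom this
    simpa using h3
  · rintro ⟨b, hb⟩
    refine ⟨(Xm2Iso A).inv b, hmono ?_⟩
    rw [hd, hx]
    have hb' : d₁₀ A b = (x : A) := hb
    simp [hb']

/-! ### Naturality in degree `-1` -/

variable {A}

lemma Xm1Iso_naturality (φ : A ⟶ B) :
    (tateComplex.map φ).f (-1) ≫ (Xm1Iso B).hom = (Xm1Iso A).hom ≫ φ.toModuleCatHom :=
  chainsMap_f_0_comp_chainsIso₀ (.id G) φ

lemma Xm1Iso_inv_naturality (φ : A ⟶ B) :
    (Xm1Iso A).inv ≫ (tateComplex.map φ).f (-1) = φ.toModuleCatHom ≫ (Xm1Iso B).inv := by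
  rw [Iso.inv_comp_eq, ← Category.assoc, Iso.eq_comp_inv]
  exact Xm1Iso_naturality φ

/-- The map induced on the kernels of the norm by a morphism of representations. -/
noncomputable def kerNormMap (φ : A ⟶ B) :
    ModuleCat.of R (LinearMap.ker A.ρ.norm) ⟶ ModuleCat.of R (LinearMap.ker B.ρ.norm) :=
  ModuleCat.ofHom (φ.hom.toLinearMap.restrict (p := LinearMap.ker A.ρ.norm)
    (q := LinearMap.ker B.ρ.norm)
    (fun x hx => by
      rw [LinearMap.mem_ker] at hx ⊢
      have h := LinearMap.congr_fun (congrArg ModuleCat.Hom.hom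
        (congrArg Rep.Hom.toModuleCatHom (Rep.norm_comm φ))) x
      have h' : B.ρ.norm (φ.hom.toLinearMap x) = φ.hom.toLinearMap (A.ρ.norm x) := h
      rw [h', hx, map_zero]))

@[simp] lemma kerNormMap_apply_coe (φ : A ⟶ B) (x : LinearMap.ker A.ρ.norm) :
    ((kerNormMap φ x : LinearMap.ker B.ρ.norm) : B) = φ.hom (x : A) := rfl

lemma kerNormToXm1_naturality (φ : A ⟶ B) :
    kerNormToXm1 A ≫ (tateComplex.map φ).f (-1) = kerNormMap φ ≫ kerNormToXm1 B := by
  rw [kerNormToXm1, Category.assoc, Xm1Iso_inv_naturality, kerNormToXm1, ← Category.assoc,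
    ← Category.assoc]
  rfl

lemma tateHm1π_naturality' (φ : A ⟶ B) :
    (kerNormToCycles A ≫ (tateComplex A).homologyπ (-1)) ≫
        HomologicalComplex.homologyMap (tateComplex.map φ) (-1) =
      kerNormMap φ ≫ kerNormToCycles B ≫ (tateComplex B).homologyπ (-1) := by
  rw [Category.assoc, HomologicalComplex.homologyπ_naturality, ← Category.assoc, ← Category.assoc]
  congr 1
  rw [← cancel_mono ((tateComplex B).iCycles (-1)), Category.assoc, Category.assoc,
    HomologicalComplex.cyclesMap_i, kerNormToCycles_i_assoc, kerNormToCycles_i,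
    kerNormToXm1_naturality]

lemma tateHm1π_naturality (φ : A ⟶ B) :
    tateHm1π A ≫ (tateCohomologyFunctor (-1)).map φ = kerNormMap φ ≫ tateHm1π B :=
  tateHm1π_naturality' φ

lemma tateHm1π_naturality_apply (φ : A ⟶ B) (x : LinearMap.ker A.ρ.norm) :
    (tateCohomologyFunctor (-1)).map φ (tateHm1π A x) = tateHm1π B (kerNormMap φ x) :=
  LinearMap.congr_fun (congrArg ModuleCat.Hom.hom (tateHm1π_naturality φ)) x

/-! ### Vanishing criteria -/

variable (A)

lemma isZero_tateCohomology_zero_iff :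
    Limits.IsZero (tateCohomology A 0) ↔ ∀ x ∈ A.ρ.invariants, ∃ a : A, A.ρ.norm a = x := by
  rw [ModuleCat.isZero_iff_subsingleton]
  constructor
  · intro h x hx
    exact (tateH0π_eq_zero_iff A ⟨x, hx⟩).mp (Subsingleton.elim _ _)
  · intro h
    refine ⟨fun a b => ?_⟩
    obtain ⟨x, rfl⟩ := tateH0π_surjective A a
    obtain ⟨y, rfl⟩ := tateH0π_surjective A b
    rw [(tateH0π_eq_zero_iff A x).mpr (h x x.2), (tateH0π_eq_zero_iff A y).mpr (h y y.2)]

lemma isZero_tateCohomology_neg_one_iff :
    Limits.IsZero (tateCohomology A (-1)) ↔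
      LinearMap.ker A.ρ.norm ≤ Representation.Coinvariants.ker A.ρ := by
  rw [ModuleCat.isZero_iff_subsingleton]
  constructor
  · intro h x hx
    exact (tateHm1π_eq_zero_iff A ⟨x, hx⟩).mp (Subsingleton.elim _ _)
  · intro h
    refine ⟨fun a b => ?_⟩
    obtain ⟨x, rfl⟩ := tateHm1π_surjective A a
    obtain ⟨y, rfl⟩ := tateHm1π_surjective A b
    rw [(tateHm1π_eq_zero_iff A x).mpr (h x.2), (tateHm1π_eq_zero_iff A y).mpr (h y.2)]

end Fermat.Agent.S55.GC.TateLow
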