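/-
S55 package GC8: bridge between the Herbrand calculus of `S14/Herbrand{,Cyclic}.lean`
(`hIdx f g = [ker f : im g]`, `dlt σ = σ - 1`, `nrm σ n = ∑_{i<n} σ^i`) and Mathlib's Tate
cohomology / group cohomology of a finite cyclic group `G = ⟨g⟩`:

* `card_tateH0_eq_hIdx`  : `|Ĥ⁰(G, A)|  = hIdx (dlt σ) (nrm σ n)`,
* `card_tateHm1_eq_hIdx` : `|Ĥ⁻¹(G, A)| = hIdx (nrm σ n) (dlt σ)`,
* `card_groupCohomology_even_eq_hIdx`, `card_groupCohomology_odd_eq_hIdx`,
where `σ = A.ρ g` and `n = |G|`.
-/
import Mathlib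
import Fermat.Agent.S14.Herbrand
import Fermat.Agent.S14.HerbrandCyclic
import Fermat.Agent.S55.GC.TateLow

set_option autoImplicit false

universe u

open CategoryTheory Fermat.Agent.S14.Herbrand Fermat.Agent.S55.GC.TateLow

namespace Fermat.Agent.S55.GC.HerbrandBridge

/-- Cardinality of the target of a surjection from a subgroup, as a relative index. -/
lemma card_eq_relIndex {M Q : Type*} [AddCommGroup M] [AddCommGroup Q] (K Rg : AddSubgroup M)
    (π : K →+ Q) (hπ : Function.Surjective π) (hker : ∀ x : K, π x = 0 ↔ (x : M) ∈ Rg) :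
    Nat.card Q = Rg.relIndex K := by
  have hk : π.ker = Rg.addSubgroupOf K := by
    ext x
    rw [AddMonoidHom.mem_ker, hker, AddSubgroup.mem_addSubgroupOf]
  rw [AddSubgroup.relIndex, ← hk, AddSubgroup.index,
    Nat.card_congr (QuotientAddGroup.quotientKerEquivOfSurjective π hπ).toEquiv]

section General

variable {k G : Type u} [CommRing k] [Group G] [Fintype G] (A : Rep k G) (g : G)

/-- The action of `g` as an additive endomorphism. -/
def sigma : AddMonoid.End A := (A.ρ g).toAddMonoidHom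

omit [Fintype G] in
lemma sigma_apply (x : A) : sigma A g x = A.ρ g x := rfl

omit [Fintype G] in
lemma sigma_pow_apply (i : ℕ) (x : A) : (sigma A g ^ i) x = A.ρ (g ^ i) x := by
  induction i generalizing x with
  | zero => simp
  | succ i ih =>
    rw [pow_succ, pow_succ, map_mul]
    change (sigma A g ^ i) (sigma A g x) = _
    rw [ih]
    rfl

variable (hg : ∀ x, x ∈ Subgroup.zpowers g)
include hg

lemma nrm_sigma_apply (x : A) : nrm (sigma A g) (Fintype.card G) x = A.ρ.norm x := by
  classical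
  rw [nrm_apply]
  simp only [sigma_pow_apply, Representation.norm, LinearMap.sum_apply]
  have hcard : orderOf g = Fintype.card G := by
    rw [orderOf_eq_card_of_forall_mem_zpowers hg, Nat.card_eq_fintype_card]
  have htop : Subgroup.zpowers g = ⊤ := (Subgroup.eq_top_iff' _).mpr hg
  let e : Fin (orderOf g) ≃ G :=
    (finEquivZPowers (isOfFinOrder_of_finite g)).trans
      ((Equiv.setCongr (by rw [htop]; rfl)).trans (Equiv.Set.univ G))
  have he : ∀ i, e i = g ^ (i : ℕ) := fun i => rfl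
  rw [← Equiv.sum_comp e (fun γ => A.ρ γ x), ← hcard, Finset.sum_range]
  simp only [he]

omit [Fintype G] in
lemma mem_ker_dlt_sigma_iff (x : A) :
    x ∈ (dlt (sigma A g)).ker ↔ x ∈ A.ρ.invariants := by
  rw [AddMonoidHom.mem_ker, dlt_apply, sub_eq_zero, sigma_apply]
  constructor
  · intro h γ
    obtain ⟨n, rfl⟩ := Subgroup.mem_zpowers_iff.mp (hg γ)
    have hpow : ∀ m : ℕ, A.ρ (g ^ m) x = x := by
      intro m
      induction m with
      | zero => simp
      | succ m ih => rw [pow_succ, map_mul, Module.End.mul_apply, h, ih]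
    have hinv : ∀ m : ℕ, A.ρ (g ^ m)⁻¹ x = x := by
      intro m
      have h1 := hpow m
      calc A.ρ (g ^ m)⁻¹ x = A.ρ (g ^ m)⁻¹ (A.ρ (g ^ m) x) := by rw [h1]
        _ = x := by
          rw [← Module.End.mul_apply, ← map_mul, inv_mul_cancel, map_one, Module.End.one_apply]
    cases n with
    | ofNat m => simpa using hpow m
    | negSucc m => simpa [zpow_negSucc] using hinv (m + 1)
  · intro h
    exact h g

lemma mem_range_nrm_sigma_iff (x : A) :
    x ∈ (nrm (sigma A g) (Fintype.card G)).range ↔ ∃ a : A, A.ρ.norm a = x := by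
  constructor
  · rintro ⟨a, rfl⟩
    exact ⟨a, (nrm_sigma_apply A g hg a).symm⟩
  · rintro ⟨a, rfl⟩
    exact ⟨a, nrm_sigma_apply A g hg a⟩

lemma mem_ker_nrm_sigma_iff (x : A) :
    x ∈ (nrm (sigma A g) (Fintype.card G)).ker ↔ x ∈ LinearMap.ker A.ρ.norm := by
  rw [AddMonoidHom.mem_ker, nrm_sigma_apply A g hg, LinearMap.mem_ker]

/-- `|Ĥ⁰(G, A)| = [ker (σ - 1) : im N]`. -/
theorem card_tateH0_eq_hIdx :
    Nat.card (tateCohomology A 0) =
      hIdx (dlt (sigma A g)) (nrm (sigma A g) (Fintype.card G)) := by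
  let ι : (dlt (sigma A g)).ker →+ A.ρ.invariants :=
    { toFun := fun x => ⟨x.1, (mem_ker_dlt_sigma_iff A g hg x.1).mp x.2⟩
      map_zero' := rfl
      map_add' := fun _ _ => rfl }
  refine card_eq_relIndex (dlt (sigma A g)).ker (nrm (sigma A g) (Fintype.card G)).range
    ((tateH0π A).hom.toAddMonoidHom.comp ι) ?_ ?_
  · intro y
    obtain ⟨x, rfl⟩ := tateH0π_surjective A y
    exact ⟨⟨x.1, (mem_ker_dlt_sigma_iff A g hg x.1).mpr x.2⟩, rfl⟩
  · intro x
    rw [mem_range_nrm_sigma_iff A g hg]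
    exact tateH0π_eq_zero_iff A (ι x)

/-- `|Ĥ⁻¹(G, A)| = [ker N : im (σ - 1)]`. -/
theorem card_tateHm1_eq_hIdx :
    Nat.card (tateCohomology A (-1)) =
      hIdx (nrm (sigma A g) (Fintype.card G)) (dlt (sigma A g)) := by
  let ι : (nrm (sigma A g) (Fintype.card G)).ker →+ LinearMap.ker A.ρ.norm :=
    { toFun := fun x => ⟨x.1, (mem_ker_nrm_sigma_iff A g hg x.1).mp x.2⟩
      map_zero' := rfl
      map_add' := fun _ _ => rfl }
  refine card_eq_relIndex (nrm (sigma A g) (Fintype.card G)).ker (dlt (sigma A g)).range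
    ((tateHm1π A).hom.toAddMonoidHom.comp ι) ?_ ?_
  · intro y
    obtain ⟨x, rfl⟩ := tateHm1π_surjective A y
    exact ⟨⟨x.1, (mem_ker_nrm_sigma_iff A g hg x.1).mpr x.2⟩, rfl⟩
  · intro x
    have h1 := tateHm1π_eq_zero_iff A (ι x)
    rw [Representation.FiniteCyclicGroup.coinvariantsKer_eq_range A.ρ g hg] at h1
    refine h1.trans ?_
    constructor
    · rintro ⟨a, ha⟩
      exact ⟨a, ha⟩
    · rintro ⟨a, ha⟩
      exact ⟨a, ha⟩

end General

/-! ### Ordinary cohomology of a finite cyclic group -/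

section Comm

open Rep.FiniteCyclicGroup

variable {k G : Type u} [CommRing k] [CommGroup G] [Fintype G] (A : Rep k G) (g : G)
  (hg : ∀ x, x ∈ Subgroup.zpowers g)
include hg

lemma groupCohomologyπEven_surjective (i : ℕ) [NeZero i] (hi : Even i) :
    Function.Surjective (groupCohomologyπEven A g hg i hi) := by
  intro y
  have hsurj : Function.Surjective ((normHomCompSub A g).homologyπ) :=
    (ModuleCat.epi_iff_surjective _).mp inferInstance
  obtain ⟨c, hc⟩ := hsurj ((groupCohomologyIsoEven A g hg i hi).hom y)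
  refine ⟨(normHomCompSub A g).moduleCatCyclesIso.hom c, ?_⟩
  change (groupCohomologyIsoEven A g hg i hi).inv ((normHomCompSub A g).homologyπ
    ((normHomCompSub A g).moduleCatCyclesIso.inv
      ((normHomCompSub A g).moduleCatCyclesIso.hom c))) = y
  rw [Iso.hom_inv_id_apply, hc, Iso.hom_inv_id_apply]

lemma groupCohomologyπOdd_surjective (i : ℕ) (hi : Odd i) :
    Function.Surjective (groupCohomologyπOdd A g hg i hi) := by
  intro y
  have hsurj : Function.Surjective ((subCompNormHom A g).homologyπ) :=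
    (ModuleCat.epi_iff_surjective _).mp inferInstance
  obtain ⟨c, hc⟩ := hsurj ((groupCohomologyIsoOdd A g hg i hi).hom y)
  refine ⟨(subCompNormHom A g).moduleCatCyclesIso.hom c, ?_⟩
  change (groupCohomologyIsoOdd A g hg i hi).inv ((subCompNormHom A g).homologyπ
    ((subCompNormHom A g).moduleCatCyclesIso.inv
      ((subCompNormHom A g).moduleCatCyclesIso.hom c))) = y
  rw [Iso.hom_inv_id_apply, hc, Iso.hom_inv_id_apply]

omit hg [Fintype G] in
lemma applyAsHom_sub_id_apply (x : A) :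
    (Rep.applyAsHom A g - 𝟙 A).hom.toLinearMap x = A.ρ g x - x := by
  simp [Rep.sub_hom, Rep.applyAsHom_apply]

/-- `|Hⁱ(G, A)| = [ker (σ - 1) : im N]` for even `i > 0`. -/
theorem card_groupCohomology_even_eq_hIdx (i : ℕ) [NeZero i] (hi : Even i) :
    Nat.card (groupCohomology A i) =
      hIdx (dlt (sigma A g)) (nrm (sigma A g) (Fintype.card G)) := by
  have hmem : ∀ x : A, x ∈ (dlt (sigma A g)).ker ↔
      x ∈ LinearMap.ker (Rep.applyAsHom A g - 𝟙 A).hom.toLinearMap := by
    intro x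
    rw [AddMonoidHom.mem_ker, LinearMap.mem_ker, applyAsHom_sub_id_apply, dlt_apply, sigma_apply]
  let ι : (dlt (sigma A g)).ker →+
      LinearMap.ker (Rep.applyAsHom A g - 𝟙 A).hom.toLinearMap :=
    { toFun := fun x => ⟨x.1, (hmem x.1).mp x.2⟩
      map_zero' := rfl
      map_add' := fun _ _ => rfl }
  refine card_eq_relIndex (dlt (sigma A g)).ker (nrm (sigma A g) (Fintype.card G)).range
    ((groupCohomologyπEven A g hg i hi).hom.toAddMonoidHom.comp ι) ?_ ?_
  · intro y
    obtain ⟨x, rfl⟩ := groupCohomologyπEven_surjective A g hg i hi y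
    exact ⟨⟨x.1, (hmem x.1).mpr x.2⟩, rfl⟩
  · intro x
    have h1 := groupCohomologyπEven_eq_zero_iff A g hg i hi (ι x)
    refine h1.trans ?_
    rw [mem_range_nrm_sigma_iff A g hg]
    constructor
    · rintro ⟨a, ha⟩
      exact ⟨a, ha⟩
    · rintro ⟨a, ha⟩
      exact ⟨a, ha⟩

/-- `|Hⁱ(G, A)| = [ker N : im (σ - 1)]` for odd `i`. -/
theorem card_groupCohomology_odd_eq_hIdx (i : ℕ) (hi : Odd i) :
    Nat.card (groupCohomology A i) =
      hIdx (nrm (sigma A g) (Fintype.card G)) (dlt (sigma A g)) := by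
  have hmem : ∀ x : A, x ∈ (nrm (sigma A g) (Fintype.card G)).ker ↔
      x ∈ LinearMap.ker A.norm.hom.toLinearMap := by
    intro x
    rw [mem_ker_nrm_sigma_iff A g hg]
    rfl
  let ι : (nrm (sigma A g) (Fintype.card G)).ker →+ LinearMap.ker A.norm.hom.toLinearMap :=
    { toFun := fun x => ⟨x.1, (hmem x.1).mp x.2⟩
      map_zero' := rfl
      map_add' := fun _ _ => rfl }
  refine card_eq_relIndex (nrm (sigma A g) (Fintype.card G)).ker (dlt (sigma A g)).range
    ((groupCohomologyπOdd A g hg i hi).hom.toAddMonoidHom.comp ι) ?_ ?_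
  · intro y
    obtain ⟨x, rfl⟩ := groupCohomologyπOdd_surjective A g hg i hi y
    exact ⟨⟨x.1, (hmem x.1).mpr x.2⟩, rfl⟩
  · intro x
    have h1 := groupCohomologyπOdd_eq_zero_iff A g hg i hi (ι x)
    refine h1.trans ?_
    constructor
    · rintro ⟨a, ha⟩
      exact ⟨a, by rw [dlt_apply, sigma_apply, ← applyAsHom_sub_id_apply]; exact ha⟩
    · rintro ⟨a, ha⟩
      exact ⟨a, by rw [applyAsHom_sub_id_apply]; exact ha⟩

/-- Periodicity in terms of cardinalities: `|H²| = |Ĥ⁰|`, `|H¹| = |Ĥ⁻¹|`. -/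
theorem card_groupCohomology_two_eq_card_tateH0 :
    Nat.card (groupCohomology A 2) = Nat.card (tateCohomology A 0) := by
  rw [card_groupCohomology_even_eq_hIdx A g hg 2 (by decide), card_tateH0_eq_hIdx A g hg]

theorem card_groupCohomology_one_eq_card_tateHm1 :
    Nat.card (groupCohomology A 1) = Nat.card (tateCohomology A (-1)) := by
  rw [card_groupCohomology_odd_eq_hIdx A g hg 1 (by decide), card_tateHm1_eq_hIdx A g hg]

end Comm

end Fermat.Agent.S55.GC.HerbrandBridge
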