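/-
S55 / LOC5 + GLO8: the coefficient-free part of the layer transport of `GC/GaloisLayer.lean`.

`L/F` finite Galois, `G = Gal(L/F)`, `H ≤ G`, `N ◁ H`, `F₁ = L^H`, `L₁ = L^N` (`layerField`).
* `layerGroupEquiv F L H N : H ⧸ N ≃* Gal(L₁/F₁)`, with `layerGroupEquiv_mk_coe` (the class of `h`
  acts on `L₁` as `h` does on `L`);
* `layerIsoOfEquiv` : for ANY `A : Rep k G` and `B : Rep k Gal(L₁/F₁)` with an equivariant linear
  equivalence `(res_H A)^N ≃ B`:  `Hⁿ(H ⧸ N, (res_H A)^N) ≅ Hⁿ(Gal(L₁/F₁), B)`;
* `layerHyp_of_fields` : helper7's `CF1.LayerHyp p A` from the corresponding statement for the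
  Galois groups of the layers of intermediate fields.
(helper16)
-/
import Mathlib
import Fermat.Agent.S55.GC.GaloisLayer

set_option autoImplicit false
set_option linter.unusedSectionVars false

open CategoryTheory groupCohomology Rep IntermediateField

namespace Fermat.Agent.S55.GC.GaloisLayer

section Normal

variable (K L : Type) [Field K] [Field L] [Algebra K L] [FiniteDimensional K L] [IsGalois K L]
variable (N : Subgroup (L ≃ₐ[K] L)) [N.Normal]

/-- `Gal(L/K) ⧸ N ≃* Gal(L^N/K)` acts on `L^N` by restriction. -/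
theorem normalAutEquivQuotient_mk_coe (g : L ≃ₐ[K] L) (x : fixedField N) :
    ((IsGalois.normalAutEquivQuotient N (QuotientGroup.mk g) x : fixedField N) : L) =
      g (x : L) :=
  AlgEquiv.restrictNormal_commutes g (fixedField N) x

end Normal

section Sub

variable (F L : Type) [Field F] [Field L] [Algebra F L] [FiniteDimensional F L] [IsGalois F L]
variable (H : Subgroup (L ≃ₐ[F] L)) (N : Subgroup H) [N.Normal]

/-- `H ⧸ N ≃* Gal(L^N / L^H)`. -/
noncomputable def layerGroupEquiv :
    H ⧸ N ≃* (layerField F L H N ≃ₐ[fixedField H] layerField F L H N) :=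
  (QuotientGroup.congr N (imgN F L H N) (subEquiv F L H) rfl).trans
    (IsGalois.normalAutEquivQuotient (imgN F L H N))

theorem layerGroupEquiv_mk_coe (h : H) (x : layerField F L H N) :
    ((layerGroupEquiv F L H N (QuotientGroup.mk h) x : layerField F L H N) : L) =
      (h : L ≃ₐ[F] L) (x : L) :=
  normalAutEquivQuotient_mk_coe (fixedField H) L (imgN F L H N) (subEquiv F L H h) x

/-- Layer transport for arbitrary coefficients. -/
noncomputable def layerIsoOfEquiv {k : Type} [CommRing k] (A : Rep k (L ≃ₐ[F] L))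
    (B : Rep k (layerField F L H N ≃ₐ[fixedField H] layerField F L H N))
    (e₁ : ((res H.subtype A).quotientToInvariants N).V ≃ₗ[k] B.V)
    (he : ∀ q, e₁.toLinearMap ∘ₗ ((res H.subtype A).quotientToInvariants N).ρ q =
      B.ρ (layerGroupEquiv F L H N q) ∘ₗ e₁.toLinearMap) (n : ℕ) :
    groupCohomology ((res H.subtype A).quotientToInvariants N) n ≅ groupCohomology B n :=
  groupCohomology.mapIso (layerGroupEquiv F L H N) e₁ he n

/-- `CF1.LayerHyp p A` from the statement for the Galois groups of the layers of intermediate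
fields: for each `(H, N)` with `[H:N] = p`, a `Gal(L^N/L^H)`-module `B` equivariantly isomorphic to
`(res_H A)^N` with `H¹ = 0` and `|H²| ∣ p`. -/
theorem layerHyp_of_fields {k : Type} [CommRing k] (p : ℕ) (A : Rep k (L ≃ₐ[F] L))
    (h : ∀ (H : Subgroup (L ≃ₐ[F] L)) (N : Subgroup H) [N.Normal], N.index = p →
      ∃ (B : Rep k (layerField F L H N ≃ₐ[fixedField H] layerField F L H N))
        (e₁ : ((res H.subtype A).quotientToInvariants N).V ≃ₗ[k] B.V),
        (∀ q, e₁.toLinearMap ∘ₗ ((res H.subtype A).quotientToInvariants N).ρ q =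
          B.ρ (layerGroupEquiv F L H N q) ∘ₗ e₁.toLinearMap) ∧
        Limits.IsZero (groupCohomology B 1) ∧ Nat.card (groupCohomology B 2) ∣ p) :
    Fermat.Agent.S55.GL.CF1.LayerHyp p A := by
  intro H N _ hN
  obtain ⟨B, e₁, he, h1, h2⟩ := h H N hN
  refine ⟨h1.of_iso (layerIsoOfEquiv F L H N A B e₁ he 1), ?_⟩
  rw [Nat.card_congr (layerIsoOfEquiv F L H N A B e₁ he 2).toLinearEquiv.toEquiv]
  exact h2

end Sub

end Fermat.Agent.S55.GC.GaloisLayer
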