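import Fermat.Agent.S55.GC.SplitModule

/-!
# S55 / ALG7 (c): cohomology of the splitting module; `H³` of a class module

* `card_smul_H1_eq_zero`: `H¹(H, A)` is killed by `|H|`; `isZero_H1_of_isTrivial`;
* `genH1 φ`, `exists_eq_smul_genH1`: `H¹(H, I_G)` is generated by the class of `h ↦ e_h - e_1`;
* `isZero_H2_res_augRep`: `H²(H, I_G) = 0`;
* `δ_genH1`: the connecting map of `0 → C → C(u) → I_G → 0` sends the generator to `res [u]`;
* `IsClassModule C γ`: `H¹(H, C) = 0`, `H²(H, C)` generated by `res γ` of order exactly `|H|`,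
  for all subgroups `H`;
* `vanishAt_one_splitRep`, `vanishAt_two_splitRep`: `H¹(H, C(u)) = H²(H, C(u)) = 0`;
* `IsClassModule.vanishAt_three_of_isPGroup`: `H³(H, C) = 0` for all subgroups of a `p`-group;
* `IsClassModule.map_sylow_eq_zero`: every class of `H³(G, C)` dies on every Sylow subgroup.
-/

set_option autoImplicit false

namespace Fermat.Agent.S55.GC

open CategoryTheory groupCohomology Rep Limits

universe u

section General

variable {k : Type u} [CommRing k] {H : Type u} [Group H]

/-- Elementary form of `H¹(H, A) = 0`. -/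
theorem exists_eq_sub_of_isZero_H1' (A : Rep.{u} k H)
    (h : IsZero (groupCohomology A 1)) (f : H → A.V) (hf : f ∈ cocycles₁ A) :
    ∃ y : A.V, ∀ s : H, f s = A.ρ s y - y := by
  have h0 : H1π A ⟨f, hf⟩ = 0 := (ModuleCat.isZero_iff_subsingleton.mp h).elim _ _
  rw [H1π_eq_zero_iff] at h0
  obtain ⟨y, hy⟩ := h0
  exact ⟨y, fun s => (congrFun hy s).symm⟩

/-- `H¹(H, A)` is killed by `|H|`. -/
theorem card_smul_H1_eq_zero [Fintype H] (A : Rep.{u} k H) (x : groupCohomology A 1) :
    (Fintype.card H : k) • x = 0 := by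
  induction x using H1_induction_on with | h c =>
  rw [← map_smul, H1π_eq_zero_iff]
  refine ⟨-∑ h : H, c h, ?_⟩
  funext g
  have hc : ∀ h : H, c (g * h) = A.ρ g (c h) + c g := fun h => (mem_cocycles₁_iff c).1 c.2 g h
  have hsum : ∑ h : H, c (g * h) = ∑ h : H, c h :=
    Fintype.sum_equiv (Equiv.mulLeft g) _ _ (fun h => rfl)
  have h2 : ∑ h : H, c (g * h) = A.ρ g (∑ h : H, c h) + (Fintype.card H : k) • c g := by
    simp_rw [hc]
    rw [Finset.sum_add_distrib, ← map_sum, Finset.sum_const, Finset.card_univ,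
      Nat.cast_smul_eq_nsmul]
  rw [hsum] at h2
  change A.ρ g (-∑ h : H, c h) - (-∑ h : H, c h) = ((Fintype.card H : k) • c) g
  have h3 : ((Fintype.card H : k) • c) g = (Fintype.card H : k) • c g := rfl
  rw [h3, map_neg]
  rw [eq_comm, ← sub_eq_zero]
  have : (Fintype.card H : k) • c g = ∑ h : H, c h - A.ρ g (∑ h : H, c h) := by
    rw [eq_sub_iff_add_eq, add_comm]; exact h2.symm
  rw [this]; abel

/-- `H¹(H, A) = 0` for a trivial representation without `|H|`-torsion. -/
theorem isZero_H1_of_isTrivial [Fintype H] (A : Rep.{u} k H) [A.IsTrivial]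
    (hA : ∀ a : A.V, (Fintype.card H : k) • a = 0 → a = 0) :
    IsZero (groupCohomology A 1) := by
  rw [ModuleCat.isZero_iff_subsingleton]
  refine ⟨fun x y => ?_⟩
  have key : ∀ z : groupCohomology A 1, z = 0 := by
    intro z
    induction z using H1_induction_on with | h c =>
    rw [H1π_eq_zero_iff]
    refine ⟨0, ?_⟩
    funext g
    have h1 := card_smul_H1_eq_zero A (H1π A c)
    rw [← map_smul, H1π_eq_zero_iff, coboundaries₁_eq_bot_of_isTrivial] at h1
    have h2 : ((Fintype.card H : k) • c : cocycles₁ A) g = 0 := by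
      have := (Submodule.mem_bot k).1 h1
      exact congrFun this g
    have h3 : (Fintype.card H : k) • c g = 0 := h2
    rw [map_zero]
    exact (hA _ h3).symm
  rw [key x, key y]

end General

section Basis

variable (k : Type u) [CommRing k] {G : Type u} [Group G] [Fintype G] [DecidableEq G]

/-- The "basis element" `e_τ` of `Fun(G, k) = k[G]`: the indicator function of `τ⁻¹`. With the
right-translation action, `σ • e_τ = e_{σ τ}`. -/
def eFun (τ : G) : G → k := Pi.single τ⁻¹ 1

omit [Fintype G] in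
lemma funRepn_eFun (σ τ : G) : funRepn k G k σ (eFun k τ) = eFun k (σ * τ) := by
  funext x
  simp only [funRepn_apply, eFun, Pi.single_apply, mul_inv_rev]
  congr 1
  rw [eq_iff_iff]
  constructor
  · intro h; rw [← h]; group
  · intro h; rw [h]; group

lemma sum_eFun (τ : G) : ∑ x, eFun k τ x = 1 := by
  simp [eFun, Finset.sum_pi_single']

lemma sum_smul_eFun (τ : G) (v : G → k) : ∑ x, eFun k τ x * v x = v τ⁻¹ := by
  simp [eFun, Pi.single_apply]

/-- `d_τ = e_τ - e_1 ∈ I_G`. -/
def dAug (τ : G) : augSub k G :=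
  ⟨eFun k τ - eFun k 1, by
    rw [mem_augSub]
    simp only [Pi.sub_apply, Finset.sum_sub_distrib, sum_eFun, sub_self]⟩

lemma augRepn_dAug (σ τ : G) : augRepn k G σ (dAug k τ) = dAug k (σ * τ) - dAug k σ := by
  apply Subtype.ext
  change funRepn k G k σ (eFun k τ - eFun k 1) = (eFun k (σ * τ) - eFun k 1) - (eFun k σ - eFun k 1)
  rw [map_sub, funRepn_eFun, funRepn_eFun, mul_one]
  abel

end Basis

section K1

variable {k : Type u} [CommRing k] {G : Type u} [Group G] [Fintype G] [DecidableEq G]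
  {H : Type u} [Group H] (φ : H →* G)

/-- The generating cocycle `h ↦ e_{φ h} - e_1` of `H¹(H, I_G)`. -/
lemma genCoc_mem : (fun h : H => dAug k (φ h)) ∈ cocycles₁ (res φ (augRep k G)) := by
  rw [mem_cocycles₁_iff]
  intro g h
  change dAug k (φ (g * h)) = augRepn k G (φ g) (dAug k (φ h)) + dAug k (φ g)
  rw [augRepn_dAug, map_mul]
  abel

/-- The canonical generator of `H¹(H, I_G)`. -/
noncomputable def genH1 : groupCohomology (res φ (augRep k G)) 1 :=
  H1π (res φ (augRep k G)) ⟨fun h : H => dAug k (φ h), genCoc_mem φ⟩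

variable {φ}

/-- `H¹(H, I_G)` is generated by `genH1`. -/
theorem exists_eq_smul_genH1 (hφ : Function.Injective φ)
    (y : groupCohomology (res φ (augRep k G)) 1) : ∃ m : k, y = m • genH1 φ := by
  induction y using H1_induction_on with | h c =>
  -- `ι ∘ c` is a cocycle of `Fun(G, k)`, hence a coboundary
  have hc := (mem_cocycles₁_iff c).1 c.2
  have hmem : (fun h : H => ((c h : augSub k G) : G → k)) ∈ cocycles₁ (res φ (funRep k G k)) := by
    rw [mem_cocycles₁_iff]
    intro g h
    have := congrArg (fun z : augSub k G => (z : G → k)) (hc g h)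
    exact this
  obtain ⟨F, hF⟩ := exists_eq_sub_of_isZero_H1' (res φ (funRep k G k))
    (isZero_groupCohomology_res_funRep φ k hφ 0) _ hmem
  refine ⟨∑ x, F x, ?_⟩
  unfold genH1
  rw [← map_smul, H1π_eq_iff]
  have hb : F - (∑ x, F x) • eFun k (1 : G) ∈ augSub k G := by
    rw [mem_augSub]
    simp only [Pi.sub_apply, Pi.smul_apply, smul_eq_mul, Finset.sum_sub_distrib,
      ← Finset.mul_sum, sum_eFun, mul_one, sub_self]
  refine ⟨⟨F - (∑ x, F x) • eFun k (1 : G), hb⟩, ?_⟩
  funext h
  apply Subtype.ext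
  change funRepn k G k (φ h) (F - (∑ x, F x) • eFun k (1 : G)) - (F - (∑ x, F x) • eFun k (1 : G))
    = ((c h : augSub k G) : G → k) - (∑ x, F x) • (eFun k (φ h) - eFun k 1)
  rw [hF h, map_sub, map_smul, funRepn_eFun, mul_one]
  change funRepn k G k (φ h) F - (∑ x, F x) • eFun k (φ h) - (F - (∑ x, F x) • eFun k (1 : G)) =
    funRepn k G k (φ h) F - F - (∑ x, F x) • (eFun k (φ h) - eFun k 1)
  rw [smul_sub]
  abel

end K1

section K2

variable {k : Type u} [CommRing k] {G : Type u} [Group G] [Fintype G]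
  {H : Type u} [Group H] {φ : H →* G}

/-- `H²(H, I_G) = 0` (for torsion-free coefficients). -/
theorem isZero_H2_res_augRep [IsAddTorsionFree k] (hφ : Function.Injective φ) :
    IsZero (groupCohomology (res φ (augRep k G)) 2) := by
  have hX := (shortExact_res φ).2 (augSC_shortExact k G)
  have : Finite H := Finite.of_injective φ hφ
  let _ : Fintype H := Fintype.ofFinite H
  have htriv : (res φ (Rep.trivial k G k)).IsTrivial := ⟨fun g => rfl⟩
  have h3 : IsZero (groupCohomology (res φ (Rep.trivial k G k)) 1) := by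
    apply isZero_H1_of_isTrivial
    intro a ha
    have hne : Fintype.card H ≠ 0 := Fintype.card_ne_zero
    have ha' : Fintype.card H • a = 0 := by
      rw [← Nat.cast_smul_eq_nsmul k]; exact ha
    exact (nsmul_eq_zero_iff_right hne).1 ha'
  have h2 : IsZero (groupCohomology (res φ (funRep k G k)) 2) :=
    isZero_groupCohomology_res_funRep φ k hφ 1
  exact (mapShortComplex₁_exact hX (i := 1) rfl).isZero_of_both_isZero h3 h2

end K2

section K3

variable {k : Type u} [CommRing k] {G : Type u} [Group G] [Fintype G] [DecidableEq G]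
  {H : Type u} [Group H] (φ : H →* G) (C : Rep.{u} k G) {u : G × G → C.V} (hu : u ∈ cocycles₂ C)

lemma twist_eFun (σ τ : G) : twist C u σ (eFun k τ) = u (σ, τ) := by
  rw [twist_apply]
  simp [eFun, Pi.single_apply]

/-- The connecting homomorphism of `0 → C → C(u) → I_G → 0` sends the canonical generator of
`H¹(H, I_G)` to the restriction of the class of `u`. -/
theorem δ_genH1 :
    δ ((shortExact_res φ).2 (splitSC_shortExact C hu)) 1 2 rfl (genH1 φ) =
      map φ (𝟙 (res φ C)) 2 (H2π C ⟨u, hu⟩) := by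
  have hX := (shortExact_res φ).2 (splitSC_shortExact C hu)
  let y : H → (C.V × augSub k G) := fun h => (0, dAug k (φ h))
  let x : H × H → C.V := fun p => u (φ p.1, φ p.2) - u (φ p.1, 1)
  have hx : ((splitSC C hu).map (resFunctor φ)).f.hom ∘ x =
      d₁₂ ((splitSC C hu).map (resFunctor φ)).X₂ y := by
    funext p
    obtain ⟨g, h⟩ := p
    change ((x (g, h), 0) : C.V × augSub k G) =
      splitAct C u (φ g) (y h) - y (g * h) + y g
    rw [splitAct_apply]
    refine Prod.ext ?_ ?_
    · change u (φ g, φ h) - u (φ g, 1) =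
        (C.ρ (φ g) 0 + twist C u (φ g) (eFun k (φ h) - eFun k 1)) - 0 + 0
      rw [map_sub, twist_eFun, twist_eFun]
      simp
    · change (0 : augSub k G) =
        augRepn k G (φ g) (dAug k (φ h)) - dAug k (φ (g * h)) + dAug k (φ g)
      rw [augRepn_dAug, map_mul]
      abel
  refine (δ₁_apply hX ⟨fun h : H => dAug k (φ h), genCoc_mem φ⟩ y rfl x hx).trans ?_
  have h2 : map φ (𝟙 (res φ C)) 2 (H2π C ⟨u, hu⟩) =
      H2π (res φ C) (mapCocycles₂ φ (𝟙 (res φ C)) ⟨u, hu⟩) := H2π_comp_map_apply _ _ _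
  rw [h2]
  refine (H2π_eq_iff (A := res φ C) ⟨x, mem_cocycles₂_of_comp_eq_d₁₂ hX hx⟩
    (mapCocycles₂ φ (𝟙 (res φ C)) ⟨u, hu⟩)).2 ?_
  refine ⟨fun _ => -u (1, 1), ?_⟩
  funext p
  obtain ⟨g, h⟩ := p
  have h1 : u (φ g, 1) = C.ρ (φ g) (u (1, 1)) := cocycles₂_map_one_snd ⟨u, hu⟩ (φ g)
  change C.ρ (φ g) (-u (1, 1)) - -u (1, 1) + -u (1, 1) =
    (u (φ g, φ h) - u (φ g, 1)) - u (φ g, φ h)
  rw [h1, map_neg]
  abel

end K3

section ClassModule

variable {k : Type u} [CommRing k] {G : Type u} [Group G]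

/-- `(C, γ)` is a *class module* for `G`: for every subgroup `H` (injective `φ : H →* G`),
`H¹(H, C) = 0` and `H²(H, C)` is generated by `res γ`, which has order exactly `|H|`. -/
structure IsClassModule (C : Rep.{u} k G) (γ : groupCohomology C 2) : Prop where
  h1 : VanishAt C 1
  gen : ∀ (H : Type u) [Group H] (φ : H →* G), Function.Injective φ →
    ∀ x : groupCohomology (res φ C) 2, ∃ m : k, x = m • map φ (𝟙 (res φ C)) 2 γ
  ord : ∀ (H : Type u) [Group H] (φ : H →* G), Function.Injective φ →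
    ∀ m : k, m • map φ (𝟙 (res φ C)) 2 γ = 0 → ∃ m' : k, m = (Nat.card H : k) * m'

variable [Fintype G] {C : Rep.{u} k G} {u : G × G → C.V} (hu : u ∈ cocycles₂ C)

/-- `H¹(H, C(u)) = 0` for a class module. -/
theorem vanishAt_one_splitRep (hC : IsClassModule C (H2π C ⟨u, hu⟩)) :
    VanishAt (splitRep C hu) 1 := by
  classical
  intro H _ φ hφ
  have hX := (shortExact_res φ).2 (splitSC_shortExact C hu)
  have : Finite H := Finite.of_injective φ hφ
  let _ : Fintype H := Fintype.ofFinite H
  -- `δ` is injective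
  have hδ : ∀ y : groupCohomology (res φ (augRep k G)) 1, δ hX 1 2 rfl y = 0 → y = 0 := by
    intro y hy
    obtain ⟨m, rfl⟩ := exists_eq_smul_genH1 hφ y
    have e1 : δ hX 1 2 rfl (m • genH1 φ) = m • map φ (𝟙 (res φ C)) 2 (H2π C ⟨u, hu⟩) :=
      ((δ hX 1 2 rfl).hom.map_smul m (genH1 φ)).trans (congrArg (m • ·) (δ_genH1 φ C hu))
    obtain ⟨m', rfl⟩ := hC.ord H φ hφ m (e1.symm.trans hy)
    rw [mul_comm, mul_smul, Nat.card_eq_fintype_card, card_smul_H1_eq_zero, smul_zero]
  rw [ModuleCat.isZero_iff_subsingleton]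
  refine ⟨fun a b => ?_⟩
  have key : ∀ w : groupCohomology (res φ (splitRep C hu)) 1, w = 0 := by
    intro w
    have h3 : δ hX 1 2 rfl ((mapShortComplex₃ hX (i := 1) rfl).f w) = 0 := by
      have := (mapShortComplex₃ hX (i := 1) rfl).zero
      exact congrArg (fun t => t.hom w) this
    have h4 := hδ _ h3
    obtain ⟨c, hc⟩ := (ShortComplex.moduleCat_exact_iff _).1 (mapShortComplex₂_exact hX 1) w h4
    have hc0 : c = 0 := (ModuleCat.isZero_iff_subsingleton.1 (hC.h1 H φ hφ)).elim _ _
    rw [← hc, hc0]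
    exact map_zero _
  rw [key a, key b]

/-- `H²(H, C(u)) = 0` for a class module. -/
theorem vanishAt_two_splitRep [IsAddTorsionFree k] (hC : IsClassModule C (H2π C ⟨u, hu⟩)) :
    VanishAt (splitRep C hu) 2 := by
  classical
  intro H _ φ hφ
  have hX := (shortExact_res φ).2 (splitSC_shortExact C hu)
  rw [ModuleCat.isZero_iff_subsingleton]
  refine ⟨fun a b => ?_⟩
  have key : ∀ w : groupCohomology (res φ (splitRep C hu)) 2, w = 0 := by
    intro w
    have h0 : (mapShortComplex₂ ((splitSC C hu).map (resFunctor φ)) 2).g w = 0 :=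
      (ModuleCat.isZero_iff_subsingleton.1 (isZero_H2_res_augRep (k := k) hφ)).elim _ _
    obtain ⟨c, hc⟩ := (ShortComplex.moduleCat_exact_iff _).1 (mapShortComplex₂_exact hX 2) w h0
    obtain ⟨m, hm⟩ := hC.gen H φ hφ c
    have hm' : c = δ hX 1 2 rfl (m • genH1 φ) :=
      hm.trans ((congrArg (m • ·) (δ_genH1 φ C hu)).symm.trans
        ((δ hX 1 2 rfl).hom.map_smul m (genH1 φ)).symm)
    rw [← hc, hm']
    have := (mapShortComplex₁ hX (i := 1) rfl).zero
    exact congrArg (fun t => t.hom (m • genH1 φ)) this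
  rw [key a, key b]

end ClassModule

section Final

variable {k : Type u} [CommRing k] {G : Type u} [Group G]

/-- Transitivity of restriction on cohomology classes. -/
lemma map_res_res {P H : Type u} [Group P] [Group H] (ψ : P →* G) (φ : H →* P)
    (C : Rep.{u} k G) (n : ℕ) (x : groupCohomology C n) :
    map φ (𝟙 (res φ (res ψ C))) n (map ψ (𝟙 (res ψ C)) n x) =
      map (ψ.comp φ) (𝟙 (res (ψ.comp φ) C)) n x := by
  have h := map_comp (k := k) (A := C) (B := res ψ C) (C := res φ (res ψ C)) ψ φ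
    (𝟙 (res ψ C)) (𝟙 (res φ (res ψ C))) n
  have h2 : (resFunctor φ).map (𝟙 (res ψ C)) ≫ 𝟙 (res φ (res ψ C)) =
      𝟙 (res (ψ.comp φ) C) := by
    rw [CategoryTheory.Functor.map_id, Category.comp_id]
    rfl
  rw [h2] at h
  exact (congrArg (fun t => t.hom x) h).symm

/-- A class module restricts to a class module on every subgroup. -/
theorem IsClassModule.res {C : Rep.{u} k G} {γ : groupCohomology C 2} (hC : IsClassModule C γ)
    {P : Type u} [Group P] (ψ : P →* G) (hψ : Function.Injective ψ) :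
    IsClassModule (res ψ C) (map ψ (𝟙 (res ψ C)) 2 γ) where
  h1 := hC.h1.res ψ hψ
  gen H _ φ hφ x := by
    obtain ⟨m, hm⟩ := hC.gen H (ψ.comp φ) (hψ.comp hφ) x
    exact ⟨m, hm.trans (congrArg (m • ·) (map_res_res ψ φ C 2 γ).symm)⟩
  ord H _ φ hφ m hm := by
    refine hC.ord H (ψ.comp φ) (hψ.comp hφ) m ?_
    exact (congrArg (m • ·) (map_res_res ψ φ C 2 γ).symm).trans hm

variable [IsAddTorsionFree k] [Finite G]

/-- **Tate's theorem in positive degrees, `p`-group case**: for a class module `(C, γ)` of a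
finite `p`-group `G`, `H³(H, C) = 0` for every subgroup `H`. -/
theorem IsClassModule.vanishAt_three_of_isPGroup {p : ℕ} [Fact p.Prime] (hG : IsPGroup p G)
    {C : Rep.{u} k G} {γ : groupCohomology C 2} (hC : IsClassModule C γ) : VanishAt C 3 := by
  classical
  let _ : Fintype G := Fintype.ofFinite G
  induction γ using H2_induction_on with | h uc =>
  obtain ⟨u, hu⟩ := uc
  have hD : CohTrivPos (splitRep C hu) :=
    cohTrivPos_of_isPGroup hG _ (vanishAt_one_splitRep hu hC) (vanishAt_two_splitRep hu hC)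
  intro H _ φ hφ
  have hX := (shortExact_res φ).2 (splitSC_shortExact C hu)
  exact (mapShortComplex₁_exact hX (i := 2) rfl).isZero_of_both_isZero
    (isZero_H2_res_augRep (k := k) hφ) (hD 2 H φ hφ)

/-- **`H³` of a class module, general finite `G`**: every class in `H³(G, C)` dies on each Sylow
subgroup. Combined with `cores ∘ res = index` this gives `H³(G, C) = 0`. -/
theorem IsClassModule.map_sylow_eq_zero {p : ℕ} [Fact p.Prime] (P : Sylow p G)
    {C : Rep.{u} k G} {γ : groupCohomology C 2} (hC : IsClassModule C γ)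
    (x : groupCohomology C 3) :
    map (P : Subgroup G).subtype (𝟙 (Rep.res (P : Subgroup G).subtype C)) 3 x = 0 := by
  have hP : IsPGroup p (P : Subgroup G) := P.isPGroup'
  have h3 := (hC.res (P : Subgroup G).subtype (Subgroup.subtype_injective _)).vanishAt_three_of_isPGroup hP
  exact (ModuleCat.isZero_iff_subsingleton.1 h3.self).elim _ _

end Final

end Fermat.Agent.S55.GC
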