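import Mathlib

/-!
# S55 / GC3 (positive degrees): the co-induced ("function") representation `Fun(G, X)`

`funRep k G X` is the representation of `G` on functions `G → X` by right translation.
* it is isomorphic to Mathlib's `Rep.coind ⊥.subtype (trivial X)`, hence (Shapiro) its group
  cohomology vanishes in positive degrees;
* its restriction along an injective group homomorphism `φ : K →* G` is again a function
  representation `Fun(K, G ⧸ φ.range → X)`, hence also acyclic in positive degrees.
-/

set_option autoImplicit false

namespace Fermat.Agent.S55.GC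

open CategoryTheory groupCohomology Rep

universe u

section Defs

variable (k : Type u) (G : Type u) [CommRing k] [Group G] (X : Type u) [AddCommGroup X] [Module k X]

/-- Right translation on functions `G → X`. -/
def funRepn : Representation k G (G → X) where
  toFun g := LinearMap.funLeft k X (· * g)
  map_one' := by ext f x; simp
  map_mul' g h := by ext f x; simp [mul_assoc]

@[simp] lemma funRepn_apply (g : G) (f : G → X) (x : G) : funRepn k G X g f x = f (x * g) := rfl

/-- The function representation `Fun(G, X)` as an object of `Rep k G`. -/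
noncomputable abbrev funRep : Rep.{u} k G := Rep.of (funRepn k G X)

/-- `Fun(G, X)` is Mathlib's coinduction from the trivial subgroup. -/
noncomputable def funRepEquivCoind :
    (funRepn k G X).Equiv
      (Representation.coind (⊥ : Subgroup G).subtype
        (Representation.trivial k (⊥ : Subgroup G) X)) :=
  Representation.Equiv.mk
    { toFun := fun f => ⟨f, by
        rintro ⟨g, hg⟩ h
        have : g = 1 := Subgroup.mem_bot.1 hg
        subst this
        simp⟩
      map_add' := fun _ _ => rfl
      map_smul' := fun _ _ => rfl
      invFun := fun f => f.1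
      left_inv := fun _ => rfl
      right_inv := fun _ => rfl }
    (by intro g; ext f x; rfl)

/-- `Fun(G, X) ≅ Coind_1^G X` in `Rep k G`. -/
noncomputable def funRepIsoCoind :
    funRep k G X ≅ Rep.coind (⊥ : Subgroup G).subtype (Rep.trivial k (⊥ : Subgroup G) X) :=
  Rep.mkIso (funRepEquivCoind k G X)

/-- Shapiro: `Hⁿ⁺¹(G, Fun(G, X)) = 0`. -/
theorem isZero_groupCohomology_funRep (n : ℕ) :
    Limits.IsZero (groupCohomology (funRep k G X) (n + 1)) := by
  have h1 : Limits.IsZero (groupCohomology (Rep.trivial k (⊥ : Subgroup G) X) (n + 1)) :=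
    isZero_groupCohomology_succ_of_subsingleton _ n
  have h2 := h1.of_iso (coindIso (Rep.trivial k (⊥ : Subgroup G) X) (n + 1))
  exact h2.of_iso ((groupCohomology.functor k G (n + 1)).mapIso (funRepIsoCoind k G X))

end Defs

section Res

variable {k : Type u} {G K : Type u} [CommRing k] [Group G] [Group K] (φ : K →* G)
  (X : Type u) [AddCommGroup X] [Module k X]

noncomputable def cosetRep (g : G) : G := Quotient.out (g : G ⧸ φ.range)

lemma mk_cosetRep (g : G) : ((cosetRep φ g : G) : G ⧸ φ.range) = (g : G ⧸ φ.range) :=
  Quotient.out_eq' _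

lemma cosetRep_inv_mul_mem (g : G) : (cosetRep φ g)⁻¹ * g ∈ φ.range :=
  QuotientGroup.eq.1 (mk_cosetRep φ g)

noncomputable def kap (g : G) : K := (cosetRep_inv_mul_mem φ g).choose

lemma map_kap (g : G) : φ (kap φ g) = (cosetRep φ g)⁻¹ * g := (cosetRep_inv_mul_mem φ g).choose_spec

lemma cosetRep_mul_map_kap (g : G) : cosetRep φ g * φ (kap φ g) = g := by
  rw [map_kap]; group

lemma cosetRep_mul_map (g : G) (x : K) : cosetRep φ (g * φ x) = cosetRep φ g := by
  unfold cosetRep
  congr 1
  exact QuotientGroup.eq.2 (by
    have : (g * φ x)⁻¹ * g = φ x⁻¹ := by rw [map_inv]; group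
    rw [this]; exact ⟨x⁻¹, rfl⟩)

variable {φ}

lemma kap_mul_map (hφ : Function.Injective φ) (g : G) (x : K) :
    kap φ (g * φ x) = kap φ g * x := by
  apply hφ
  rw [map_mul, map_kap, map_kap, cosetRep_mul_map]
  group

lemma kap_out (hφ : Function.Injective φ) (c : G ⧸ φ.range) : kap φ (Quotient.out c) = 1 := by
  apply hφ
  rw [map_kap, map_one]
  have : cosetRep φ (Quotient.out c) = Quotient.out c := by
    unfold cosetRep
    congr 1
    exact Quotient.out_eq' c
  rw [this]; group

variable (φ)

noncomputable def resFunEquiv (hφ : Function.Injective φ) :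
    (G → X) ≃ₗ[k] (K → (G ⧸ φ.range → X)) where
  toFun f := fun x c => f (Quotient.out c * φ x)
  map_add' _ _ := rfl
  map_smul' _ _ := rfl
  invFun F := fun g => F (kap φ g) (g : G ⧸ φ.range)
  left_inv f := by
    funext g
    have h1 : Quotient.out ((g : G ⧸ φ.range)) = cosetRep φ g := rfl
    simp only [h1, cosetRep_mul_map_kap]
  right_inv F := by
    funext x c
    simp only
    have h2 : ((Quotient.out c * φ x : G) : G ⧸ φ.range) = c := by
      have : ((Quotient.out c * φ x : G) : G ⧸ φ.range) = ((Quotient.out c : G) : G ⧸ φ.range) :=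
        QuotientGroup.eq.2 (by
          have : (Quotient.out c * φ x)⁻¹ * Quotient.out c = φ x⁻¹ := by rw [map_inv]; group
          rw [this]; exact ⟨x⁻¹, rfl⟩)
      rw [this]; exact Quotient.out_eq' c
    rw [kap_mul_map hφ, kap_out hφ, one_mul, h2]

/-- The restriction of `Fun(G, X)` along an injective `φ : K →* G` is `Fun(K, G ⧸ φ.range → X)`. -/
noncomputable def resFunRepIso (hφ : Function.Injective φ) :
    Rep.res φ (funRep k G X) ≅ funRep k K (G ⧸ φ.range → X) :=
  Rep.mkIso (ρ := (funRepn k G X).comp φ) (σ := funRepn k K (G ⧸ φ.range → X))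
    (Representation.Equiv.mk (resFunEquiv φ X hφ) (by
      intro g
      ext f x c
      simp [resFunEquiv, mul_assoc]))

theorem isZero_groupCohomology_res_funRep (hφ : Function.Injective φ) (n : ℕ) :
    Limits.IsZero (groupCohomology (Rep.res φ (funRep k G X)) (n + 1)) :=
  (isZero_groupCohomology_funRep k K (G ⧸ φ.range → X) n).of_iso
    ((groupCohomology.functor k K (n + 1)).mapIso (resFunRepIso φ X hφ))

end Res

section Embed

variable {k : Type u} {G : Type u} [CommRing k] [Group G] (A : Rep.{u} k G)

/-- `a ↦ (x ↦ ρ(x) a)`, the canonical embedding `A → Fun(G, A)`. -/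
noncomputable def toFunRep : A ⟶ funRep k G A.V :=
  Rep.ofHom (ρ := A.ρ) (σ := funRepn k G A.V)
    ⟨{ toFun := fun a x => A.ρ x a
       map_add' := fun a b => by funext x; simp
       map_smul' := fun c a => by funext x; simp }, by
      intro g
      ext a x
      simp⟩

@[simp] lemma toFunRep_apply (a : A.V) (x : G) : (toFunRep A).hom a x = A.ρ x a := rfl

lemma toFunRep_injective : Function.Injective (toFunRep A).hom := by
  intro a b h
  have := congrFun h 1
  rw [toFunRep_apply, toFunRep_apply] at this
  simpa using this

instance : Mono (toFunRep A) := (Rep.mono_iff_injective _).2 (toFunRep_injective A)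

end Embed

end Fermat.Agent.S55.GC
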