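/-
S55 / LOC5 (5-C): base change of layers of the unit module — the field-language form of the
"killing" hypothesis (K) of the abstract class formation (`CFAbs.Formation.kill`).

`Ω/K` Galois, `G = Gal(Ω/K)`, `A = Ωˣ`.  `F'/K` a normal intermediate field (`U = Gal(Ω/F')`),
`E'` an intermediate field of `Ω/F'`, normal over `F'` and over `K` (`V = Gal(Ω/E')`), `E/K` normal
with `E ⊆ E'` (`W = Gal(Ω/E)`).  Then the composite
  `H²(G/W, A^W) --infLayer--> H²(G/V, A^V) --res--> H²(U/V, A^V)`
is, up to the layer isomorphisms, the map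
  `H²(Gal(E/K), Eˣ) ⟶ H²(Gal(E'/F'), E'ˣ)`
induced by restriction `Gal(E'/F') → Gal(E/K)` and the inclusion `Eˣ → E'ˣ`
(`res2_infLayer_eq`).  In particular if the latter kills every class, so does the former
(`kill_of_map_eq_zero`).
(helper16)
-/
import Mathlib
import Fermat.Agent.S55.GC.GaloisLayerInf
import Fermat.Agent.S55.CFAbs
import Fermat.Agent.S55.GaloisLevel

set_option autoImplicit false
set_option linter.unusedSectionVars false

open CategoryTheory groupCohomology Rep IntermediateField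

namespace Fermat.Agent.S55.GC.GaloisLayerBC

open Fermat.Agent.S55.GC.GaloisLayerInf Fermat.Agent.S55.GC.InfRes2 Fermat.Agent.S55.CFAbs
  Fermat.Agent.S55.LevelLayer

variable (K Ω : Type) [Field K] [Field Ω] [Algebra K Ω]
variable (F' : IntermediateField K Ω) (E' : IntermediateField F' Ω) (E : IntermediateField K Ω)

section Restriction

variable {K Ω F' E' E}
variable (hE : E ≤ E'.restrictScalars K)

/-- The inclusion `E → E'` as a ring homomorphism. -/
def inclBC : E →+* E' where
  toFun x := ⟨x.1, hE x.2⟩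
  map_one' := rfl
  map_mul' _ _ := rfl
  map_zero' := rfl
  map_add' _ _ := rfl

@[simp] theorem coe_inclBC (x : E) : ((inclBC hE x : E') : Ω) = (x : Ω) := rfl

theorem isScalarTower_inclBC :
    letI := (inclBC hE).toAlgebra
    IsScalarTower K E E' := by
  letI := (inclBC hE).toAlgebra
  refine IsScalarTower.of_algebraMap_eq fun x => Subtype.ext ?_
  rfl

/-- Restriction `Gal(E'/F') → Gal(E/K)`. -/
noncomputable def resGalBC [Normal K E] : (E' ≃ₐ[F'] E') →* (E ≃ₐ[K] E) :=
  letI := (inclBC hE).toAlgebra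
  haveI : IsScalarTower K E E' := isScalarTower_inclBC hE
  (AlgEquiv.restrictNormalHom E).comp (AlgEquiv.restrictScalarsHom K)

theorem coe_resGalBC [Normal K E] (d : E' ≃ₐ[F'] E') (y : E) :
    ((resGalBC hE d y : E) : Ω) = (d (inclBC hE y) : Ω) := by
  letI := (inclBC hE).toAlgebra
  haveI : IsScalarTower K E E' := isScalarTower_inclBC hE
  exact congrArg Subtype.val (AlgEquiv.restrictNormal_commutes (d.restrictScalars K) E y)

/-- The inclusion `Eˣ → E'ˣ`, as a morphism of `Gal(E'/F')`-modules. -/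
noncomputable def unitsInclBC [Normal K E] :
    res (resGalBC hE) (Rep.ofAlgebraAutOnUnits K E) ⟶ Rep.ofAlgebraAutOnUnits F' E' :=
  Rep.ofHom ⟨(Units.map (inclBC hE).toMonoidHom).toAdditive.toIntLinearMap,
    fun d => by
      ext x
      exact coe_resGalBC hE d _⟩

theorem unitsInclBC_coe [Normal K E] (x : (Rep.ofAlgebraAutOnUnits K E).V) :
    (((Additive.toMul ((unitsInclBC hE).hom x : Additive E'ˣ) : E'ˣ) : E') : Ω) =
      (((Additive.toMul (x : Additive Eˣ) : Eˣ) : E) : Ω) := rfl

end Restriction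

section Layer

variable {K Ω F' E' E}
variable [IsGalois K Ω] [Normal K F'] [Normal F' E'] [Normal K (E'.restrictScalars K)]
  [Normal K E]

omit [IsGalois K Ω] [Normal K F'] [Normal F' E'] [Normal K (E'.restrictScalars K)] [Normal K E] in
theorem fixingSubgroup_restrictScalars_le :
    (E'.restrictScalars K).fixingSubgroup ≤ F'.fixingSubgroup := by
  intro σ hσ
  rw [IntermediateField.mem_fixingSubgroup_iff] at hσ ⊢
  intro x hx
  exact hσ x (E'.algebraMap_mem (⟨x, hx⟩ : F'))

/-- `Gal(Ω/F') → Gal(E'/F')`, on the fixing subgroup of `F'` in `Gal(Ω/K)`. -/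
noncomputable def hBC : ↥F'.fixingSubgroup →* (E' ≃ₐ[F'] E') :=
  (AlgEquiv.restrictNormalHom E').comp (fixingSubgroupEquiv F').toMonoidHom

omit [IsGalois K Ω] [Normal K F'] [Normal K (E'.restrictScalars K)] [Normal K E] in
theorem coe_hBC (u : F'.fixingSubgroup) (x : E') :
    ((hBC (E' := E') u x : E') : Ω) = (u : Ω ≃ₐ[K] Ω) (x : Ω) :=
  AlgEquiv.restrictNormal_commutes (fixingSubgroupEquiv F' u) E' x

omit [IsGalois K Ω] [Normal K E] in
theorem ker_subgroupMap_le_ker_hBC :
    ((QuotientGroup.mk' (E'.restrictScalars K).fixingSubgroup).subgroupMap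
      F'.fixingSubgroup).ker ≤ (hBC (E' := E')).ker := by
  intro u hu
  rw [MonoidHom.mem_ker] at hu ⊢
  have h1 : (QuotientGroup.mk' (E'.restrictScalars K).fixingSubgroup) (u : Ω ≃ₐ[K] Ω) = 1 :=
    congrArg Subtype.val hu
  have h2 : (u : Ω ≃ₐ[K] Ω) ∈ (E'.restrictScalars K).fixingSubgroup :=
    (QuotientGroup.eq_one_iff _).1 h1
  ext x
  rw [coe_hBC]
  exact (IntermediateField.mem_fixingSubgroup_iff _ _).1 h2 (x : Ω) x.2

/-- `U/V → Gal(E'/F')` where `U = Gal(Ω/F')`, `V = Gal(Ω/E')`. -/
noncomputable def gBC :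
    ↥(imQ F'.fixingSubgroup (E'.restrictScalars K).fixingSubgroup) →* (E' ≃ₐ[F'] E') :=
  MonoidHom.liftOfSurjective _
    (MonoidHom.subgroupMap_surjective (QuotientGroup.mk' (E'.restrictScalars K).fixingSubgroup)
      F'.fixingSubgroup) ⟨hBC, ker_subgroupMap_le_ker_hBC⟩

omit [IsGalois K Ω] [Normal K E] in
theorem gBC_subgroupMap (u : F'.fixingSubgroup) :
    gBC (E' := E') ((QuotientGroup.mk' (E'.restrictScalars K).fixingSubgroup).subgroupMap
      F'.fixingSubgroup u) = hBC (E' := E') u :=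
  MonoidHom.liftOfRightInverse_comp_apply _ _ _ _ u

/-- A unit of `E'` is invariant under `V = Gal(Ω/E')`. -/
theorem unitsE'_mem_invariants (x : (Rep.ofAlgebraAutOnUnits F' E').V) :
    (Additive.ofMul (Units.map (algebraMap E' Ω).toMonoidHom
        (Additive.toMul (x : Additive E'ˣ))) : (Rep.ofAlgebraAutOnUnits K Ω).V) ∈
      Representation.invariants ((Rep.ofAlgebraAutOnUnits K Ω).ρ.comp
        (E'.restrictScalars K).fixingSubgroup.subtype) := by
  intro n
  apply congrArg Additive.ofMul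
  apply Units.ext
  exact n.2 ⟨(((Additive.toMul (x : Additive E'ˣ) : E'ˣ) : E') : Ω),
    ((Additive.toMul (x : Additive E'ˣ) : E'ˣ) : E').2⟩

/-- The linear map `E'ˣ → (Ωˣ)^V`. -/
noncomputable def γLin :
    (Rep.ofAlgebraAutOnUnits F' E').V →ₗ[ℤ]
      ((Rep.ofAlgebraAutOnUnits K Ω).quotientToInvariants
        (E'.restrictScalars K).fixingSubgroup).V :=
  AddMonoidHom.toIntLinearMap
    { toFun := fun x => ⟨_, unitsE'_mem_invariants (K := K) x⟩
      map_zero' := by
        apply Subtype.ext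
        apply congrArg Additive.ofMul
        apply Units.ext
        rfl
      map_add' := fun x y => by
        apply Subtype.ext
        apply congrArg Additive.ofMul
        apply Units.ext
        rfl }

theorem γLin_coe (x : (Rep.ofAlgebraAutOnUnits F' E').V) :
    ((Additive.toMul (((γLin (K := K) (E' := E')) x).1 : Additive Ωˣ) : Ωˣ) : Ω) =
      (((Additive.toMul (x : Additive E'ˣ) : E'ˣ) : E') : Ω) := rfl

/-- `E'ˣ → (Ωˣ)^V` as a morphism of `U/V`-modules. -/
noncomputable def γBC :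
    res (gBC (K := K) (E' := E')) (Rep.ofAlgebraAutOnUnits F' E') ⟶
      res (imQ F'.fixingSubgroup (E'.restrictScalars K).fixingSubgroup).subtype
        ((Rep.ofAlgebraAutOnUnits K Ω).quotientToInvariants
          (E'.restrictScalars K).fixingSubgroup) :=
  Rep.ofHom ⟨γLin, fun q => by
    obtain ⟨u, rfl⟩ := MonoidHom.subgroupMap_surjective
      (QuotientGroup.mk' (E'.restrictScalars K).fixingSubgroup) F'.fixingSubgroup q
    ext x
    apply Additive.toMul.injective
    apply Units.ext
    show (((gBC (K := K) (E' := E') _) _ : E') : Ω) = _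
    rw [gBC_subgroupMap, coe_hBC]
    rfl⟩

omit [IsGalois K Ω] [Normal K F'] [Normal F' E'] [Normal K (E'.restrictScalars K)] [Normal K E] in
theorem fixingSubgroup_restrictScalars_le_of_le (hE : E ≤ E'.restrictScalars K) :
    (E'.restrictScalars K).fixingSubgroup ≤ E.fixingSubgroup :=
  IntermediateField.fixingSubgroup_antitone hE

variable (hE : E ≤ E'.restrictScalars K)

/-- **Restriction of an inflated layer class, in field language.** -/
theorem res2_infLayer_eq :
    (unitsLayerIsoF K Ω E 2).hom ≫ groupCohomology.map (resGalBC hE) (unitsInclBC hE) 2 ≫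
        groupCohomology.map (gBC (K := K) (E' := E')) γBC 2 =
      infLayer (Rep.ofAlgebraAutOnUnits K Ω) (fixingSubgroup_restrictScalars_le_of_le hE) 2 ≫
        res2 ((Rep.ofAlgebraAutOnUnits K Ω).quotientToInvariants
          (E'.restrictScalars K).fixingSubgroup)
          (imQ F'.fixingSubgroup (E'.restrictScalars K).fixingSubgroup) := by
  have hgrp : ((galQuotEquiv K Ω E).symm.toMonoidHom.comp (resGalBC hE)).comp
      (gBC (K := K) (E' := E')) =
      (quotMap (fixingSubgroup_restrictScalars_le_of_le hE)).comp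
        (imQ F'.fixingSubgroup (E'.restrictScalars K).fixingSubgroup).subtype := by
    ext q
    obtain ⟨u, rfl⟩ := MonoidHom.subgroupMap_surjective
      (QuotientGroup.mk' (E'.restrictScalars K).fixingSubgroup) F'.fixingSubgroup q
    show (galQuotEquiv K Ω E).symm (resGalBC hE (gBC (K := K) (E' := E') _)) =
      QuotientGroup.mk (u : Ω ≃ₐ[K] Ω)
    rw [gBC_subgroupMap, MulEquiv.symm_apply_eq, galQuotEquiv_mk]
    ext y
    rw [coe_resGalBC, coe_hBC]
    exact (AlgEquiv.restrictNormal_commutes (u : Ω ≃ₐ[K] Ω) E y).symm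
  show groupCohomology.map _ _ 2 ≫ groupCohomology.map _ _ 2 ≫ groupCohomology.map _ _ 2 =
    groupCohomology.map _ _ 2 ≫ groupCohomology.map _ _ 2
  rw [← groupCohomology.map_comp, ← groupCohomology.map_comp, ← groupCohomology.map_comp]
  refine groupCohomology.map_congr hgrp ?_ 2
  ext x
  apply Additive.toMul.injective
  apply Units.ext
  rfl

/-- **Killing, field form ⇒ layer form**: if restriction `Gal(E'/F') → Gal(E/K)` kills
`H²(Gal(E/K), Eˣ)`, then the inflations of the classes of the layer `G/W` (`W = Gal(Ω/E)`) to the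
layer `G/V` (`V = Gal(Ω/E')`) die on `U/V` (`U = Gal(Ω/F')`). -/
theorem kill_of_map_eq_zero
    (h : ∀ y' : groupCohomology (Rep.ofAlgebraAutOnUnits K E) 2,
      (groupCohomology.map (resGalBC hE) (unitsInclBC hE) 2).hom y' = 0)
    (y : groupCohomology
      ((Rep.ofAlgebraAutOnUnits K Ω).quotientToInvariants E.fixingSubgroup) 2) :
    (res2 ((Rep.ofAlgebraAutOnUnits K Ω).quotientToInvariants
        (E'.restrictScalars K).fixingSubgroup)
        (imQ F'.fixingSubgroup (E'.restrictScalars K).fixingSubgroup)).hom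
      ((infLayer (Rep.ofAlgebraAutOnUnits K Ω)
        (fixingSubgroup_restrictScalars_le_of_le hE) 2).hom y) = 0 := by
  have h1 := congrArg (fun t => t.hom y) (res2_infLayer_eq (F' := F') hE)
  simp only [ModuleCat.hom_comp, LinearMap.comp_apply] at h1
  rw [← h1, h, map_zero]

end Layer

section BaseChange

/-- `Gal(Ω/F') → Gal(Ω/K)`. -/
noncomputable def bcHom : (Ω ≃ₐ[F'] Ω) →* (Ω ≃ₐ[K] Ω) := AlgEquiv.restrictScalarsHom K

theorem bcHom_apply (τ : Ω ≃ₐ[F'] Ω) (x : Ω) : bcHom K Ω F' τ x = τ x := rfl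

/-- The identity of `Ωˣ`, as a morphism from the restriction of the `Gal(Ω/K)`-module `Ωˣ` to the
`Gal(Ω/F')`-module `Ωˣ`. -/
noncomputable def bcUnits :
    res (bcHom K Ω F') (Rep.ofAlgebraAutOnUnits K Ω) ⟶ Rep.ofAlgebraAutOnUnits F' Ω :=
  Rep.ofHom ⟨LinearMap.id, fun τ => by
    ext x
    rfl⟩

theorem bcUnits_apply (x : (Rep.ofAlgebraAutOnUnits K Ω).V) :
    (bcUnits K Ω F').hom x = x := rfl

variable {K Ω F' E' E}

theorem fixingSubgroup_le_comap_bcHom (hE : E ≤ E'.restrictScalars K) :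
    E'.fixingSubgroup ≤ E.fixingSubgroup.comap (bcHom K Ω F') := by
  intro τ hτ
  rw [Subgroup.mem_comap, IntermediateField.mem_fixingSubgroup_iff]
  intro x hx
  exact (IntermediateField.mem_fixingSubgroup_iff _ _).1 hτ x (hE hx)

/-- **Base change between layers, in field language**: under the layer isomorphisms, the base
change `Hⁿ(Gal(Ω/K) ⧸ Gal(Ω/E), (Ωˣ)^{..}) ⟶ Hⁿ(Gal(Ω/F') ⧸ Gal(Ω/E'), (Ωˣ)^{..})` is the map
`Hⁿ(Gal(E/K), Eˣ) ⟶ Hⁿ(Gal(E'/F'), E'ˣ)` induced by restriction and inclusion. -/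
theorem layerBC_unitsLayerIsoF [IsGalois K Ω] [Normal K E] [Normal F' E']
    (hE : E ≤ E'.restrictScalars K) (n : ℕ) :
    layerBC (bcHom K Ω F') (bcUnits K Ω F') (fixingSubgroup_le_comap_bcHom hE) n ≫
        (unitsLayerIsoF F' Ω E' n).hom =
      (unitsLayerIsoF K Ω E n).hom ≫
        groupCohomology.map (resGalBC hE) (unitsInclBC hE) n := by
  have hgrp : (layerHom (bcHom K Ω F') (fixingSubgroup_le_comap_bcHom hE)).comp
      (galQuotEquiv F' Ω E').symm.toMonoidHom =
      (galQuotEquiv K Ω E).symm.toMonoidHom.comp (resGalBC hE) := by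
    ext d
    obtain ⟨τ, rfl⟩ := AlgEquiv.restrictNormalHom_surjective Ω d
    show layerHom (bcHom K Ω F') (fixingSubgroup_le_comap_bcHom hE)
        ((galQuotEquiv F' Ω E').symm (AlgEquiv.restrictNormalHom E' τ)) =
      (galQuotEquiv K Ω E).symm (resGalBC hE (AlgEquiv.restrictNormalHom E' τ))
    rw [← galQuotEquiv_mk F' Ω E' τ, MulEquiv.symm_apply_apply, layerHom_mk,
      eq_comm, MulEquiv.symm_apply_eq, galQuotEquiv_mk]
    ext y
    rw [coe_resGalBC]
    have h1 := AlgEquiv.restrictNormal_commutes τ E' (inclBC hE y)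
    have h2 := AlgEquiv.restrictNormal_commutes (bcHom K Ω F' τ) E y
    exact h1.trans h2.symm
  show groupCohomology.map _ _ n ≫ groupCohomology.map _ _ n =
    groupCohomology.map _ _ n ≫ groupCohomology.map _ _ n
  rw [← groupCohomology.map_comp, ← groupCohomology.map_comp]
  refine groupCohomology.map_congr hgrp ?_ n
  ext x
  apply Additive.toMul.injective
  apply Units.ext
  rfl

end BaseChange

section Refines

open Fermat.Agent.S55.GaloisLevel Fermat.Agent.S55.Level

/-- The Krull level structure of `Gal(Ω/F')` refines the pullback of that of `Gal(Ω/K)`. -/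
theorem krullLevel_refines_bcHom [IsGalois K Ω] [FiniteDimensional K F'] :
    (krullLevel F' Ω).Refines (krullLevel K Ω) (bcHom K Ω F') := by
  rintro U ⟨hUn, E₀, hE₀, hE₀U⟩
  refine ⟨U.comap (bcHom K Ω F'), ⟨hUn.comap _, ?_⟩, le_rfl⟩
  have : FiniteDimensional K ↥(E₀ ⊔ F') := IntermediateField.finiteDimensional_sup E₀ F'
  have : Module.Finite K ↥(IntermediateField.extendScalars (le_sup_right : F' ≤ E₀ ⊔ F')) :=
    (inferInstance : Module.Finite K ↥(E₀ ⊔ F'))
  refine ⟨IntermediateField.extendScalars (le_sup_right : F' ≤ E₀ ⊔ F'), ?_, ?_⟩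
  · exact Module.Finite.right K F' ↥(IntermediateField.extendScalars (le_sup_right : F' ≤ E₀ ⊔ F'))
  · intro τ hτ
    rw [Subgroup.mem_comap]
    apply hE₀U
    rw [IntermediateField.mem_fixingSubgroup_iff]
    intro x hx
    exact (IntermediateField.mem_fixingSubgroup_iff _ _).1 hτ x
      ((le_sup_left : E₀ ≤ E₀ ⊔ F') hx)

end Refines


end Fermat.Agent.S55.GC.GaloisLayerBC
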