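import Fermat.Agent.S55.GC.InvShift

/-!
# S55 / ALG7 (a): the `H³`-lemma for finite `p`-groups (positive-degree Nakayama–Tate)

`G` a finite `p`-group, `A : Rep k G` with `H¹(H, A) = H²(H, A) = 0` for every subgroup `H`
(`VanishAt A 1`, `VanishAt A 2`). Then `H³(G, A) = 0`, and in fact `Hⁿ(H, A) = 0` for all `n ≥ 1`
and all subgroups `H` (`CohTrivPos A`).
-/

set_option autoImplicit false

namespace Fermat.Agent.S55.GC

open CategoryTheory groupCohomology Rep Limits

universe u

section PGroup

variable {k : Type u} [CommRing k] (p : ℕ) [hp : Fact p.Prime]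

/-- The `H³`-lemma, by induction on the order of the `p`-group. -/
theorem isZero_H3_of_card_eq_pow (n : ℕ) :
    ∀ (G : Type u) [Group G] [Finite G], Nat.card G = p ^ n → ∀ A : Rep.{u} k G,
      VanishAt A 1 → VanishAt A 2 → IsZero (groupCohomology A 3) := by
  induction n with
  | zero =>
    intro G _ _ hcard A _ _
    have : Subsingleton G := (Nat.card_eq_one_iff_unique.1 (by simpa using hcard)).1
    exact isZero_groupCohomology_succ_of_subsingleton A 2
  | succ n ih =>
    intro G _ _ hcard A h1 h2
    obtain ⟨S, hS⟩ := Sylow.exists_subgroup_card_pow_prime p (n := n) (G := G)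
      (by rw [hcard]; exact pow_dvd_pow p (Nat.le_succ n))
    have hidx : S.index = p := by
      have h := S.card_mul_index
      rw [hS, hcard, pow_succ] at h
      exact Nat.eq_of_mul_eq_mul_left (pow_pos hp.1.pos n) h
    have hnormal : S.Normal := by
      apply Subgroup.normal_of_index_eq_minFac_card
      rw [hidx, hcard, Nat.Prime.pow_minFac hp.1 (Nat.succ_ne_zero n)]
    have hcardQ : Nat.card (G ⧸ S) = p := by
      rw [← hidx]; rfl
    have : IsCyclic (G ⧸ S) := isCyclic_of_prime_card hcardQ
    have hinj : Function.Injective S.subtype := S.subtype_injective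
    have h3S : IsZero (groupCohomology (res S.subtype A) 3) :=
      ih S hS (res S.subtype A) (h1.res S.subtype hinj) (h2.res S.subtype hinj)
    exact isZero_H3_of_normal_cyclic S A (h1 S S.subtype hinj) (h2 S S.subtype hinj) h3S h1.self

variable {p} {G : Type u} [Group G] [Finite G]

/-- `H³`-lemma: for a finite `p`-group, vanishing of `H¹` and `H²` on all subgroups implies
vanishing of `H³` on all subgroups. -/
theorem vanishAt_three_of_isPGroup (hG : IsPGroup p G) (A : Rep.{u} k G)
    (h1 : VanishAt A 1) (h2 : VanishAt A 2) : VanishAt A 3 := by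
  intro K _ φ hφ
  have : Finite K := Finite.of_injective φ hφ
  have hK : IsPGroup p K := hG.of_injective φ hφ
  obtain ⟨n, hn⟩ := hK.exists_card_eq
  exact isZero_H3_of_card_eq_pow p n K hn (res φ A) (h1.res φ hφ) (h2.res φ hφ)

/-- Two consecutive vanishing degrees propagate upwards (finite `p`-group). -/
theorem vanishAt_add_two_of_isPGroup (hG : IsPGroup p G) (n : ℕ) :
    ∀ A : Rep.{u} k G, VanishAt A (n + 1) → VanishAt A (n + 2) → VanishAt A (n + 3) := by
  induction n with
  | zero => exact fun A h1 h2 => vanishAt_three_of_isPGroup hG A h1 h2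
  | succ n ih =>
    intro A h1 h2
    rw [← vanishAt_up_iff] at h1 h2 ⊢
    exact ih (up A) h1 h2

/-- **Positive-degree Nakayama–Tate** for finite `p`-groups: if `H¹` and `H²` vanish on all
subgroups, so do all `Hⁿ`, `n ≥ 1`. -/
theorem cohTrivPos_of_isPGroup (hG : IsPGroup p G) (A : Rep.{u} k G)
    (h1 : VanishAt A 1) (h2 : VanishAt A 2) : CohTrivPos A := by
  have key : ∀ n : ℕ, VanishAt A (n + 1) ∧ VanishAt A (n + 2) := by
    intro n
    induction n with
    | zero => exact ⟨h1, h2⟩
    | succ n ih => exact ⟨ih.2, vanishAt_add_two_of_isPGroup hG n A ih.1 ih.2⟩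
  exact fun n => (key n).1

end PGroup

end Fermat.Agent.S55.GC
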