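import Fermat.Agent.S55.GC.TateH3
import Fermat.Agent.S55.GC.SemiLocal
import Fermat.Agent.S55.GC.CyclicH2

/-!
# S55 / GC: integral and divisible coefficients for finite groups

* `isZero_of_card_nsmul_bijective`: `Hⁿ⁺¹(G, V) = 0` if `|G|` acts bijectively on `V`;
* `deltaChar χ ∈ H²(G, ℤ)` for `χ : G → ℤ/|G|` (class of helper19's carry cocycle `cupChar χ 1`);
  `exists_deltaChar_eq` (every class is a `δχ`), `deltaChar_mul`, `deltaChar_eq_zero_iff`:
  `H²(G, ℤ) ≅ Hom(G, ℤ/|G|) = Hom(G, ℚ/ℤ)`.
-/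

set_option autoImplicit false

namespace Fermat.Agent.S55.GC.IntCoeff

open CategoryTheory groupCohomology Rep Limits
open Fermat.Agent.S55.GC.CyclicH2

universe u

section Divisible

variable {k : Type u} [CommRing k] {G : Type u} [Group G] [Finite G]

/-- `Hⁿ⁺¹(G, V) = 0` when multiplication by `|G|` is bijective on `V` (e.g. `V` uniquely
divisible). -/
theorem isZero_of_card_nsmul_bijective (V : Rep.{u} k G)
    (hV : Function.Bijective (fun v : V.V => Nat.card G • v)) (n : ℕ) :
    IsZero (groupCohomology V (n + 1)) := by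
  -- `μ = N • 𝟙` is an isomorphism of representations
  have hbij : Function.Bijective (Nat.card G • 𝟙 V : V ⟶ V).hom := hV
  have hiso : IsIso (Nat.card G • 𝟙 V : V ⟶ V) := by
    have : IsIso ((forget (Rep k G)).map (Nat.card G • 𝟙 V : V ⟶ V)) :=
      (isIso_iff_bijective _).2 hbij
    exact isIso_of_reflects_iso _ (forget (Rep k G))
  have hF : IsIso ((functor k G (n + 1)).map (Nat.card G • 𝟙 V : V ⟶ V)) := inferInstance
  have h0 : (functor k G (n + 1)).map (Nat.card G • 𝟙 V : V ⟶ V) = 0 := by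
    rw [Functor.map_nsmul, CategoryTheory.Functor.map_id]
    ext x
    exact Cores.card_nsmul_eq_zero V n x
  rw [IsZero.iff_id_eq_zero]
  have h1 := IsIso.hom_inv_id ((functor k G (n + 1)).map (Nat.card G • 𝟙 V : V ⟶ V))
  have h2 : (functor k G (n + 1)).map (Nat.card G • 𝟙 V : V ⟶ V) ≫
      inv ((functor k G (n + 1)).map (Nat.card G • 𝟙 V : V ⟶ V)) = 0 := by
    conv_lhs => lhs; rw [h0]
    exact zero_comp
  exact h1.symm.trans h2

end Divisible

section H2Int

variable {G : Type} [Group G] [Finite G]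

/-- The class `δχ ∈ H²(G, ℤ)` of a character `χ : G → ℤ/|G|`. -/
noncomputable def deltaChar (χ : G →* Multiplicative (ZMod (Nat.card G))) :
    groupCohomology (Rep.trivial ℤ G ℤ) 2 :=
  H2π (Rep.trivial ℤ G ℤ) ⟨cupChar (Rep.trivial ℤ G ℤ) χ (1 : ℤ),
    cupChar_mem_cocycles₂ χ (fun _ => rfl)⟩

/-- Every class of `H²(G, ℤ)` is `δχ` for a character `χ : G → ℤ/|G|`. -/
theorem exists_deltaChar_eq (x : groupCohomology (Rep.trivial ℤ G ℤ) 2) :
    ∃ χ : G →* Multiplicative (ZMod (Nat.card G)), x = deltaChar χ := by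
  classical
  let _ : Fintype G := Fintype.ofFinite G
  induction x using H2_induction_on with | h c =>
  have hc : ∀ g h j : G, c (g * h, j) + c (g, h) = c (h, j) + c (g, h * j) :=
    fun g h j => (mem_cocycles₂_iff c).1 c.2 g h j
  set N := Nat.card G with hN
  have hNpos : 0 < N := Nat.card_pos
  have hNcard : (Fintype.card G : ℤ) = N := by rw [hN, Nat.card_eq_fintype_card]
  let b : G → ℤ := fun g => ∑ j : G, c (g, j)
  have hb : ∀ g h : G, b (g * h) + N * c (g, h) = b h + b g := by
    intro g h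
    have h1 : ∑ j : G, (c (g * h, j) + c (g, h)) = ∑ j : G, (c (h, j) + c (g, h * j)) :=
      Finset.sum_congr rfl (fun j _ => hc g h j)
    rw [Finset.sum_add_distrib, Finset.sum_add_distrib, Finset.sum_const, Finset.card_univ,
      nsmul_eq_mul, hNcard] at h1
    have h2 : ∑ j : G, c (g, h * j) = b g :=
      Fintype.sum_equiv (Equiv.mulLeft h) _ _ (fun j => rfl)
    rw [h2] at h1
    exact h1
  let χ : G →* Multiplicative (ZMod N) :=
    { toFun := fun g => Multiplicative.ofAdd ((b g : ℤ) : ZMod N)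
      map_one' := by
        have := hb 1 1
        simp only [mul_one] at this
        have h3 : ((b 1 : ℤ) : ZMod N) = 0 := by
          have h4 : b 1 = N * c (1, 1) := by linarith
          rw [h4]; push_cast; simp
        simp [h3]
      map_mul' := fun g h => by
        have h3 : ((b (g * h) : ℤ) : ZMod N) = (b g : ZMod N) + (b h : ZMod N) := by
          have h4 : b (g * h) = b g + b h - N * c (g, h) := by linarith [hb g h]
          rw [h4]; push_cast; simp
        rw [← ofAdd_add, h3] }
  refine ⟨χ, ?_⟩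
  unfold deltaChar
  rw [H2π_eq_iff]
  refine ⟨fun g => b g / N, ?_⟩
  funext gh
  obtain ⟨g, h⟩ := gh
  have hv : ∀ g : G, (((χ g).toAdd.val : ℕ) : ℤ) = b g % N := fun g => by
    change ((((b g : ℤ) : ZMod N).val : ℕ) : ℤ) = b g % N
    exact ZMod.val_intCast (b g)
  have hdiv : ∀ g : G, b g = b g % N + N * (b g / N) := fun g =>
    (Int.emod_add_mul_ediv (b g) N).symm
  have hcarry := val_add_val (χ g).toAdd (χ h).toAdd
  have hχ : (χ g).toAdd + (χ h).toAdd = (χ (g * h)).toAdd := by
    rw [map_mul, toAdd_mul]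
  rw [hχ] at hcarry
  have hcarry' : b g % N + b h % N = b (g * h) % N +
      N * (carry (χ g).toAdd (χ h).toAdd : ℤ) := by
    rw [← hv, ← hv, ← hv]
    exact_mod_cast hcarry
  have hNne : (N : ℤ) ≠ 0 := by exact_mod_cast hNpos.ne'
  change (b h / N - b (g * h) / N + b g / N : ℤ) =
    c (g, h) - (carry (χ g).toAdd (χ h).toAdd • (1 : ℤ))
  apply mul_left_cancel₀ hNne
  have e1 := hdiv g
  have e2 := hdiv h
  have e3 := hdiv (g * h)
  have e4 := hb g h
  rw [nsmul_eq_mul, mul_one]
  linarith

/-- `δ(χ ψ) = δχ + δψ`. -/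
theorem deltaChar_mul (χ ψ : G →* Multiplicative (ZMod (Nat.card G))) :
    deltaChar (χ * ψ) = deltaChar χ + deltaChar ψ := by
  unfold deltaChar
  rw [← map_add, H2π_eq_iff]
  refine ⟨fun g => -(carry (χ g).toAdd (ψ g).toAdd • (1 : ℤ)), ?_⟩
  have h := cupChar_mul (A := Rep.trivial ℤ G ℤ) χ ψ (a := (1 : ℤ)) (fun _ => rfl)
  have h' : cupChar (Rep.trivial ℤ G ℤ) (χ * ψ) (1 : ℤ) -
      (cupChar (Rep.trivial ℤ G ℤ) χ (1 : ℤ) + cupChar (Rep.trivial ℤ G ℤ) ψ (1 : ℤ)) =
      -(d₁₂ (Rep.trivial ℤ G ℤ) (fun g => carry (χ g).toAdd (ψ g).toAdd • (1 : ℤ))) := by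
    rw [← h]; abel
  rw [← map_neg] at h'
  exact h'.symm

/-- `δχ = 0` iff `χ` is trivial. -/
theorem deltaChar_eq_zero_iff (χ : G →* Multiplicative (ZMod (Nat.card G))) :
    deltaChar χ = 0 ↔ χ = 1 := by
  classical
  constructor
  · intro h
    unfold deltaChar at h
    rw [H2π_eq_zero_iff] at h
    obtain ⟨a, ha⟩ := h
    have hNpos : 0 < Nat.card G := Nat.card_pos
    have hfun : ∀ g h : G, a h - a (g * h) + a g = (carry (χ g).toAdd (χ h).toAdd : ℤ) := by
      intro g h
      have := congrFun ha (g, h)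
      rw [d₁₂_hom_apply] at this
      change (a h - a (g * h) + a g : ℤ) = carry (χ g).toAdd (χ h).toAdd • (1 : ℤ) at this
      rw [this, nsmul_eq_mul, mul_one]
    let f : G → ℤ := fun g => ((χ g).toAdd.val : ℤ) - Nat.card G * a g
    have hf : ∀ g h : G, f (g * h) = f g + f h := by
      intro g h
      have hcarry := val_add_val (χ g).toAdd (χ h).toAdd
      have hχ : (χ g).toAdd + (χ h).toAdd = (χ (g * h)).toAdd := by
        rw [map_mul, toAdd_mul]
      rw [hχ] at hcarry
      have hcarry' : (((χ g).toAdd.val : ℕ) : ℤ) + ((χ h).toAdd.val : ℕ) =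
          ((χ (g * h)).toAdd.val : ℕ) + Nat.card G * (carry (χ g).toAdd (χ h).toAdd : ℤ) := by
        exact_mod_cast hcarry
      have := hfun g h
      simp only [f]
      linear_combination (-1 : ℤ) * hcarry' + (Nat.card G : ℤ) * this
    let F : Additive G →+ ℤ :=
      { toFun := fun g => f g.toMul
        map_zero' := by
          have := hf 1 1
          simp only [mul_one] at this
          change f 1 = 0
          linarith
        map_add' := fun g h => hf g.toMul h.toMul }
    have hF : ∀ g : G, f g = 0 := by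
      intro g
      have h1 : Nat.card G • F (Additive.ofMul g) = 0 := by
        rw [← map_nsmul]
        have : Nat.card G • Additive.ofMul g = 0 := by
          rw [← ofMul_pow, pow_card_eq_one']
          rfl
        rw [this, map_zero]
      have h2 : F (Additive.ofMul g) = 0 := by
        rcases smul_eq_zero.1 h1 with h | h
        · exact absurd h hNpos.ne'
        · exact h
      exact h2
    ext g
    have hg := hF g
    simp only [f] at hg
    have hlt : (χ g).toAdd.val < Nat.card G := ZMod.val_lt _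
    have hval : (χ g).toAdd.val = 0 := by
      have h3 : (((χ g).toAdd.val : ℕ) : ℤ) = Nat.card G * a g := by linarith
      have h4 : (Nat.card G : ℤ) ∣ ((χ g).toAdd.val : ℕ) := ⟨a g, h3⟩
      have h5 : Nat.card G ∣ (χ g).toAdd.val := by exact_mod_cast h4
      exact Nat.eq_zero_of_dvd_of_lt h5 hlt
    have h6 : (χ g).toAdd = 0 := (ZMod.val_eq_zero _).1 hval
    simpa using h6
  · rintro rfl
    unfold deltaChar
    rw [H2π_eq_zero_iff]
    refine ⟨fun _ => (0 : ℤ), ?_⟩
    funext gh
    rw [d₁₂_hom_apply]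
    change ((0 : ℤ) - 0 + 0 : ℤ) = carry (0 : ZMod (Nat.card G)) 0 • (1 : ℤ)
    rw [carry_zero_left]
    simp

end H2Int

end Fermat.Agent.S55.GC.IntCoeff
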