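/-
S55 / ALG13 : layer induction (the group-cohomological core of CF1 / local class formation).

`A : Rep k G`.  If for all "cyclic layers of prime degree `p`" (`H → G` injective, `N ◁ H` of
index `p`) one has `H¹(H ⧸ N, A^N) = 0` and `|H²(H ⧸ N, A^N)| ∣ p`, then for every `p`-group `H`
over `G`: `H¹(H, A) = 0` and `|H²(H, A)| ∣ |H|`  (induction on `|H|`, inflation-restriction in
degrees 1 and 2).  Sylow then gives the statements on `p`-primary parts for any finite `G`.
-/
import Mathlib
import Fermat.Agent.S55.GC.InfRes2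
import Fermat.Agent.S55.GC.Cores

set_option autoImplicit false

universe u

namespace Fermat.Agent.S55.GC.LayerInduction

open CategoryTheory groupCohomology Rep Limits

section Counting

variable {k : Type u} [CommRing k]

/-- For an exact `X₁ ⟶ X₂ ⟶ X₃` of modules, `|X₂|` divides `|X₁| * |X₃|` (as `Nat.card`;
no finiteness needed). -/
theorem card_dvd_of_exact (S : ShortComplex (ModuleCat.{u} k)) (hS : S.Exact) :
    Nat.card S.X₂ ∣ Nat.card S.X₁ * Nat.card S.X₃ := by
  rw [ShortComplex.moduleCat_exact_iff_range_eq_ker] at hS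
  -- |X₂| = |X₂ ⧸ ker g| * |ker g|
  have h1 : Nat.card S.X₂ =
      Nat.card (S.X₂ ⧸ (LinearMap.ker S.g.hom)) * Nat.card (LinearMap.ker S.g.hom) :=
    (LinearMap.ker S.g.hom).toAddSubgroup.card_eq_card_quotient_mul_card_addSubgroup
  have h2 : Nat.card (S.X₂ ⧸ (LinearMap.ker S.g.hom)) = Nat.card (LinearMap.range S.g.hom) :=
    Nat.card_congr (LinearMap.quotKerEquivRange S.g.hom).toEquiv
  have h3 : Nat.card (LinearMap.range S.g.hom) ∣ Nat.card S.X₃ :=
    (LinearMap.range S.g.hom).toAddSubgroup.card_addSubgroup_dvd_card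
  have h4 : Nat.card (LinearMap.ker S.g.hom) ∣ Nat.card S.X₁ := by
    rw [← hS]
    exact AddSubgroup.card_dvd_of_surjective (LinearMap.rangeRestrict S.f.hom).toAddMonoidHom
      (LinearMap.surjective_rangeRestrict _)
  rw [h1, h2, mul_comm (Nat.card S.X₁)]
  exact Nat.mul_dvd_mul h3 h4

end Counting

section Layers

variable {k G : Type u} [CommRing k] [Group G]

/-- The layer hypothesis in degree-`p` cyclic layers: for every `p`-group `H` over `G` (injective
`φ : H →* G`) and every normal subgroup `N ◁ H` of index `p`, `H¹(H ⧸ N, A^N) = 0` and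
`|H²(H ⧸ N, A^N)|` divides `p`. -/
def LayerHyp (A : Rep.{u} k G) (p : ℕ) : Prop :=
  ∀ (H : Type u) [Group H] (φ : H →* G), Function.Injective φ → IsPGroup p H →
    ∀ (N : Subgroup H) [N.Normal], Nat.card (H ⧸ N) = p →
      IsZero (groupCohomology ((res φ A).quotientToInvariants N) 1) ∧
      Nat.card (groupCohomology ((res φ A).quotientToInvariants N) 2) ∣ p

lemma LayerHyp.res {A : Rep.{u} k G} {p : ℕ} (h : LayerHyp A p) {K : Type u} [Group K]
    (ψ : K →* G) (hψ : Function.Injective ψ) : LayerHyp (res ψ A) p := by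
  intro H _ φ hφ hH N _ hN
  exact h H (ψ.comp φ) (hψ.comp hφ) hH N hN

lemma LayerHyp.self {A : Rep.{u} k G} {p : ℕ} (h : LayerHyp A p) (hG : IsPGroup p G)
    (N : Subgroup G) [N.Normal] (hN : Nat.card (G ⧸ N) = p) :
    IsZero (groupCohomology (A.quotientToInvariants N) 1) ∧
      Nat.card (groupCohomology (A.quotientToInvariants N) 2) ∣ p :=
  h G (MonoidHom.id G) Function.injective_id hG N hN

end Layers

section PGroup

variable {k : Type u} [CommRing k] (p : ℕ) [hp : Fact p.Prime]

/-- **Layer induction**, by induction on the order of the `p`-group. -/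
theorem layer_of_card_eq_pow (n : ℕ) :
    ∀ (G : Type u) [Group G] [Finite G], Nat.card G = p ^ n → ∀ A : Rep.{u} k G,
      LayerHyp A p →
      IsZero (groupCohomology A 1) ∧ Nat.card (groupCohomology A 2) ∣ p ^ n := by
  induction n with
  | zero =>
    intro G _ _ hcard A _
    have : Subsingleton G := (Nat.card_eq_one_iff_unique.1 (by simpa using hcard)).1
    have h2 : IsZero (groupCohomology A 2) := isZero_groupCohomology_succ_of_subsingleton A 1
    have : Subsingleton (groupCohomology A 2) := ModuleCat.subsingleton_of_isZero h2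
    refine ⟨isZero_groupCohomology_succ_of_subsingleton A 0, ?_⟩
    simp
  | succ n ih =>
    intro G _ _ hcard A hA
    obtain ⟨S, hS⟩ := Sylow.exists_subgroup_card_pow_prime p (n := n) (G := G)
      (by rw [hcard]; exact pow_dvd_pow p (Nat.le_succ n))
    have hidx : S.index = p := by
      have h := S.card_mul_index
      rw [hS, hcard, pow_succ] at h
      exact Nat.eq_of_mul_eq_mul_left (pow_pos hp.1.pos n) h
    have hnormal : S.Normal := by
      apply Subgroup.normal_of_index_eq_minFac_card
      rw [hidx, hcard, Nat.Prime.pow_minFac hp.1 (Nat.succ_ne_zero n)]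
    have hcardQ : Nat.card (G ⧸ S) = p := by
      rw [← hidx]; rfl
    obtain ⟨hS1, hS2⟩ := ih S hS (res S.subtype A) (hA.res S.subtype S.subtype_injective)
    obtain ⟨hQ1, hQ2⟩ := hA.self (IsPGroup.of_card hcard) S hcardQ
    constructor
    · -- degree 1
      have hex := H1InfRes_exact A S
      exact hex.isZero_of_both_zeros (hQ1.eq_of_src _ _) (hS1.eq_of_tgt _ _)
    · -- degree 2
      have hex := InfRes2.H2InfRes_exact_of_isZero A S hS1
      have h := card_dvd_of_exact _ hex
      refine h.trans ?_
      rw [pow_succ, mul_comm]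
      exact Nat.mul_dvd_mul hS2 hQ2

variable {p} {G : Type u} [Group G] [Finite G]

/-- **Layer induction for `p`-groups**: under the layer hypothesis, `H¹(G, A) = 0` and
`|H²(G, A)|` divides `|G|`. -/
theorem layer_of_isPGroup (hG : IsPGroup p G) (A : Rep.{u} k G) (hA : LayerHyp A p) :
    IsZero (groupCohomology A 1) ∧ Nat.card (groupCohomology A 2) ∣ Nat.card G := by
  obtain ⟨n, hn⟩ := hG.exists_card_eq
  rw [hn]
  exact layer_of_card_eq_pow p n G hn A hA

omit [Finite G] in
/-- The same for every `p`-group `K` over `G`. -/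
theorem layer_of_isPGroup_res (A : Rep.{u} k G) (hA : LayerHyp A p) {K : Type u} [Group K]
    [Finite K] (hK : IsPGroup p K) (φ : K →* G) (hφ : Function.Injective φ) :
    IsZero (groupCohomology (res φ A) 1) ∧
      Nat.card (groupCohomology (res φ A) 2) ∣ Nat.card K :=
  layer_of_isPGroup hK (res φ A) (hA.res φ hφ)

end PGroup

section Sylow

/-- The `p`-primary torsion subgroup `{x | ∃ j, p ^ j • x = 0}`. -/
def pTorsion (p : ℕ) (M : Type*) [AddCommGroup M] : AddSubgroup M where
  carrier := {x | ∃ j : ℕ, p ^ j • x = 0}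
  zero_mem' := ⟨0, by simp⟩
  add_mem' := by
    rintro x y ⟨i, hi⟩ ⟨j, hj⟩
    refine ⟨i + j, ?_⟩
    have h1 : p ^ (i + j) • x = 0 := by rw [pow_add, mul_comm, mul_smul, hi, smul_zero]
    have h2 : p ^ (i + j) • y = 0 := by rw [pow_add, mul_smul, hj, smul_zero]
    rw [smul_add, h1, h2, add_zero]
  neg_mem' := by
    rintro x ⟨i, hi⟩
    exact ⟨i, by rw [smul_neg, hi, neg_zero]⟩

lemma mem_pTorsion {p : ℕ} {M : Type*} [AddCommGroup M] {x : M} :
    x ∈ pTorsion p M ↔ ∃ j : ℕ, p ^ j • x = 0 := Iff.rfl

variable {k G : Type u} [CommRing k] [Group G] [Finite G] {p : ℕ} [hp : Fact p.Prime]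

open Cores in
/-- Under the layer hypothesis at `p`, `H¹(G, A)` has no `p`-primary torsion. -/
theorem eq_zero_of_pow_nsmul_H1 (A : Rep.{u} k G) (hA : LayerHyp A p)
    (x : groupCohomology A 1) {j : ℕ} (hx : p ^ j • x = 0) : x = 0 := by
  obtain ⟨P⟩ : Nonempty (Sylow p G) := inferInstance
  have h1 := (layer_of_isPGroup_res A hA P.isPGroup' (P : Subgroup G).subtype
    (P : Subgroup G).subtype_injective).1
  have := ModuleCat.subsingleton_of_isZero h1
  exact eq_zero_of_resMap_sylow_eq_zero A P 1 x hx (Subsingleton.elim _ _)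

open Cores in
/-- Under the layer hypothesis at `p`, the `p`-primary part of `H²(G, A)` has order dividing the
order of a Sylow `p`-subgroup. -/
theorem card_pTorsion_H2_dvd (A : Rep.{u} k G) (hA : LayerHyp A p) :
    Nat.card (pTorsion p (groupCohomology A 2)) ∣ p ^ (Nat.card G).factorization p := by
  obtain ⟨P⟩ : Nonempty (Sylow p G) := inferInstance
  have h2 := (layer_of_isPGroup_res A hA P.isPGroup' (P : Subgroup G).subtype
    (P : Subgroup G).subtype_injective).2
  rw [← P.card_eq_multiplicity]
  refine Dvd.dvd.trans ?_ h2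
  let f : pTorsion p (groupCohomology A 2) →+
      groupCohomology (res (P : Subgroup G).subtype A) 2 :=
    (resMap (P : Subgroup G) A 2).hom.toAddMonoidHom.comp (pTorsion p _).subtype
  refine AddSubgroup.card_dvd_of_injective f ?_
  rw [injective_iff_map_eq_zero]
  rintro ⟨x, j, hj⟩ hx
  apply Subtype.ext
  exact eq_zero_of_resMap_sylow_eq_zero A P 2 x hj hx

end Sylow

section Transport

variable {k : Type u} [CommRing k] {H H' : Type u} [Group H] [Group H']

/-- The invariants of two isomorphic pairs correspond. -/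
noncomputable def invariantsEquiv (e : H ≃* H') (B : Rep.{u} k H) (B' : Rep.{u} k H')
    (ε : B.V ≃ₗ[k] B'.V) (hε : ∀ h b, ε (B.ρ h b) = B'.ρ (e h) (ε b))
    (N : Subgroup H) (N' : Subgroup H') (hN : N.map e.toMonoidHom = N') :
    Representation.invariants (B.ρ.comp N.subtype) ≃ₗ[k]
      Representation.invariants (B'.ρ.comp N'.subtype) where
  toFun b := ⟨ε b.1, by
    rintro ⟨s', hs'⟩
    rw [← hN] at hs'
    obtain ⟨s, hs, rfl⟩ := hs'
    have := b.2 ⟨s, hs⟩
    simp only [MonoidHom.coe_comp, Subgroup.coe_subtype, Function.comp_apply] at this ⊢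
    change B'.ρ (e s) (ε b.1) = ε b.1
    rw [← hε, this]⟩
  invFun b' := ⟨ε.symm b'.1, by
    rintro ⟨s, hs⟩
    have hs' : e s ∈ N' := by rw [← hN]; exact ⟨s, hs, rfl⟩
    have := b'.2 ⟨e s, hs'⟩
    simp only [MonoidHom.coe_comp, Subgroup.coe_subtype, Function.comp_apply] at this ⊢
    apply ε.injective
    rw [hε, LinearEquiv.apply_symm_apply, this]⟩
  map_add' x y := Subtype.ext (by simp)
  map_smul' c x := Subtype.ext (by simp)
  left_inv x := Subtype.ext (by simp)
  right_inv x := Subtype.ext (by simp)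

/-- **Transport of a layer along an isomorphism of pairs.** -/
noncomputable def layerIso (e : H ≃* H') (B : Rep.{u} k H) (B' : Rep.{u} k H')
    (ε : B.V ≃ₗ[k] B'.V) (hε : ∀ h b, ε (B.ρ h b) = B'.ρ (e h) (ε b))
    (N : Subgroup H) [N.Normal] (N' : Subgroup H') [N'.Normal]
    (hN : N.map e.toMonoidHom = N') (n : ℕ) :
    groupCohomology (B.quotientToInvariants N) n ≅
      groupCohomology (B'.quotientToInvariants N') n :=
  mapIso (QuotientGroup.congr N N' e hN) (invariantsEquiv e B B' ε hε N N' hN)
    (fun g => by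
      induction g using QuotientGroup.induction_on with
      | H h =>
        ext b
        exact hε h b.1) n

end Transport

section Bridge

variable {k G : Type u} [CommRing k] [Group G]

/-- The layer hypothesis quantified over `p`-subgroups `H ≤ G` and `N ◁ H` of index `p`. -/
def LayerHypSub (A : Rep.{u} k G) (p : ℕ) : Prop :=
  ∀ (H : Subgroup G), IsPGroup p H → ∀ (N : Subgroup H) [N.Normal], Nat.card (H ⧸ N) = p →
    IsZero (groupCohomology ((res H.subtype A).quotientToInvariants N) 1) ∧
    Nat.card (groupCohomology ((res H.subtype A).quotientToInvariants N) 2) ∣ p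

/-- The subgroup form of the layer hypothesis implies the abstract one. -/
theorem layerHyp_of_sub {A : Rep.{u} k G} {p : ℕ} (h : LayerHypSub A p) : LayerHyp A p := by
  intro H _ φ hφ hH N _ hN
  let e : H ≃* φ.range := MonoidHom.ofInjective hφ
  have hnorm : (N.map e.toMonoidHom).Normal :=
    Subgroup.Normal.map inferInstance e.toMonoidHom e.surjective
  have hcard : Nat.card (φ.range ⧸ N.map e.toMonoidHom) = p := by
    rw [← hN]
    exact Nat.card_congr (QuotientGroup.congr N (N.map e.toMonoidHom) e rfl).symm.toEquiv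
  obtain ⟨h1, h2⟩ := h φ.range (hH.of_surjective e.toMonoidHom e.surjective)
    (N.map e.toMonoidHom) hcard
  have iso := fun n => layerIso e (res φ A) (res φ.range.subtype A) (LinearEquiv.refl k A.V)
    (fun h b => rfl) N (N.map e.toMonoidHom) rfl n
  refine ⟨h1.of_iso (iso 1), ?_⟩
  rw [Nat.card_congr (iso 2).toLinearEquiv.toEquiv]
  exact h2

end Bridge

end Fermat.Agent.S55.GC.LayerInduction
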