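import Fermat.Agent.S55.GC.H3Lemma

/-!
# S55 / ALG7 (c): the splitting module `C(u)` of a 2-cocycle

For a finite group `G`, `C : Rep k G` and a 2-cocycle `u : G × G → C`:
* `augRep k G` : the augmentation representation `I_G ⊆ Fun(G, k)` (functions of total sum `0`,
  right translation), with the sequence `augSC : 0 → I_G → Fun(G, k) → k → 0`;
* `splitRep C hu` : the splitting module `C(u) = C × I_G` with the twisted action
  `σ (c, f) = (σ c + ∑ x, f x • u (σ, x⁻¹), σ f)`, and the sequence
  `splitSC C hu : 0 → C → C(u) → I_G → 0`.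
-/

set_option autoImplicit false

namespace Fermat.Agent.S55.GC

open CategoryTheory groupCohomology Rep Limits

universe u

section Aug

variable (k : Type u) [CommRing k] (G : Type u) [Group G] [Fintype G]

/-- The sum map `Fun(G, k) → k`. -/
def sumLin : (G → k) →ₗ[k] k := ∑ x : G, LinearMap.proj x

omit [Group G] in
@[simp] lemma sumLin_apply (f : G → k) : sumLin k G f = ∑ x, f x := by
  simp [sumLin]

lemma sumLin_funRepn (g : G) (f : G → k) : sumLin k G (funRepn k G k g f) = sumLin k G f := by
  simp only [sumLin_apply, funRepn_apply]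
  exact Fintype.sum_equiv (Equiv.mulRight g) _ _ (fun x => rfl)

/-- The augmentation submodule of `Fun(G, k)`: functions of total sum zero. -/
def augSub : Submodule k (G → k) := LinearMap.ker (sumLin k G)

omit [Group G] in
lemma mem_augSub (f : G → k) : f ∈ augSub k G ↔ ∑ x, f x = 0 := by
  simp [augSub]

/-- The augmentation representation `I_G ⊆ Fun(G, k)`. -/
def augRepn : Representation k G (augSub k G) :=
  (funRepn k G k).subrepresentation (augSub k G) (fun g f hf => by
    change sumLin k G (funRepn k G k g f) = 0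
    rw [sumLin_funRepn]; exact hf)

@[simp] lemma augRepn_apply_coe (g : G) (f : augSub k G) (x : G) :
    (augRepn k G g f : G → k) x = (f : G → k) (x * g) := rfl

end Aug

section Split

variable {k : Type u} [CommRing k] {G : Type u} [Group G] [Fintype G] (C : Rep.{u} k G)
  (u : G × G → C.V)

/-- The twisting term `f ↦ ∑ x, f x • u (σ, x⁻¹)`. -/
def twist (σ : G) : (G → k) →ₗ[k] C.V :=
  ∑ x : G, (LinearMap.proj x : (G → k) →ₗ[k] k).smulRight (u (σ, x⁻¹))

lemma twist_apply (σ : G) (f : G → k) : twist C u σ f = ∑ x, f x • u (σ, x⁻¹) := by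
  simp [twist]

variable {C u}

lemma twist_one (hu : u ∈ cocycles₂ C) (f : G → k) (hf : ∑ x, f x = 0) : twist C u 1 f = 0 := by
  rw [twist_apply]
  have h1 : ∀ x : G, u (1, x⁻¹) = u (1, 1) := fun x => cocycles₂_map_one_fst ⟨u, hu⟩ x⁻¹
  simp_rw [h1, ← Finset.sum_smul, hf, zero_smul]

lemma twist_mul (hu : u ∈ cocycles₂ C) (σ' σ : G) (f : G → k) (hf : ∑ x, f x = 0) :
    twist C u (σ' * σ) f =
      C.ρ σ' (twist C u σ f) + twist C u σ' (funRepn k G k σ f) := by
  simp only [twist_apply, funRepn_apply, map_sum, map_smul]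
  have hre : ∑ x : G, f (x * σ) • u (σ', x⁻¹) = ∑ y : G, f y • u (σ', σ * y⁻¹) := by
    refine Fintype.sum_equiv (Equiv.mulRight σ) _ _ (fun x => ?_)
    simp [mul_inv_rev]
  rw [hre, ← Finset.sum_add_distrib]
  have hc : ∀ x : G, C.ρ σ' (u (σ, x⁻¹)) + u (σ', σ * x⁻¹) = u (σ' * σ, x⁻¹) + u (σ', σ) :=
    fun x => ((mem_cocycles₂_iff u).1 hu σ' σ x⁻¹).symm
  have : ∀ x : G, f x • C.ρ σ' (u (σ, x⁻¹)) + f x • u (σ', σ * x⁻¹) =
      f x • u (σ' * σ, x⁻¹) + f x • u (σ', σ) := fun x => by
    rw [← smul_add, hc, smul_add]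
  simp_rw [this, Finset.sum_add_distrib, ← Finset.sum_smul, hf, zero_smul, add_zero]

variable (C u)

/-- The action of `σ` on `C × I_G` defining the splitting module. -/
def splitAct (σ : G) : (C.V × augSub k G) →ₗ[k] (C.V × augSub k G) :=
  LinearMap.prod
    ((C.ρ σ).comp (LinearMap.fst k C.V (augSub k G)) +
      ((twist C u σ).comp (augSub k G).subtype).comp (LinearMap.snd k C.V (augSub k G)))
    ((augRepn k G σ).comp (LinearMap.snd k C.V (augSub k G)))

lemma splitAct_apply (σ : G) (x : C.V × augSub k G) :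
    splitAct C u σ x = (C.ρ σ x.1 + twist C u σ x.2.1, augRepn k G σ x.2) := rfl

/-- The splitting module `C(u) = C × I_G` of a 2-cocycle `u`. -/
def splitRepn (hu : u ∈ cocycles₂ C) : Representation k G (C.V × augSub k G) where
  toFun σ := splitAct C u σ
  map_one' := by
    apply LinearMap.ext
    intro x
    rw [splitAct_apply]
    refine Prod.ext ?_ ?_
    · simp [twist_one hu x.2.1 ((mem_augSub k G _).1 x.2.2)]
    · simp
  map_mul' σ' σ := by
    apply LinearMap.ext
    intro x
    rw [Module.End.mul_apply, splitAct_apply, splitAct_apply, splitAct_apply]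
    refine Prod.ext ?_ ?_
    · simp only [map_add, map_mul, Module.End.mul_apply]
      rw [twist_mul hu σ' σ x.2.1 ((mem_augSub k G _).1 x.2.2)]
      rw [add_assoc]
      rfl
    · simp

end Split

section Seqs

variable (k : Type u) [CommRing k] (G : Type u) [Group G] [Fintype G]

/-- `I_G` as an object of `Rep k G`. -/
noncomputable abbrev augRep : Rep.{u} k G := Rep.of (augRepn k G)

/-- The inclusion `I_G → Fun(G, k)`. -/
noncomputable def augIncl : augRep k G ⟶ funRep k G k :=
  Rep.ofHom (ρ := augRepn k G) (σ := funRepn k G k)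
    ⟨(augSub k G).subtype, fun g => by ext f x; rfl⟩

/-- The sum map as a morphism `Fun(G, k) → k` of representations. -/
noncomputable def sumHom : funRep k G k ⟶ Rep.trivial k G k :=
  Rep.ofHom (ρ := funRepn k G k) (σ := Representation.trivial k G k) ⟨sumLin k G, fun g => by
    apply LinearMap.ext
    intro f
    simp only [LinearMap.coe_comp, Function.comp_apply]
    rw [sumLin_funRepn]
    rfl⟩

/-- The augmentation sequence `0 → I_G → Fun(G, k) → k → 0`. -/
noncomputable def augSC : ShortComplex (Rep.{u} k G) :=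
  ShortComplex.mk (augIncl k G) (sumHom k G) (by
    ext f
    exact f.2)

lemma augSC_shortExact : (augSC k G).ShortExact where
  exact := by
    rw [rep_exact_iff]
    intro f hf
    exact ⟨⟨f, hf⟩, rfl⟩
  mono_f := by
    rw [Rep.mono_iff_injective]
    exact Subtype.val_injective
  epi_g := by
    rw [Rep.epi_iff_surjective]
    intro m
    classical
    have hm : ∃ m' : k, m' = m := ⟨m, rfl⟩
    obtain ⟨m', hm'⟩ := hm
    refine ⟨(Pi.single 1 m' : G → k), ?_⟩
    rw [← hm']
    change sumLin k G (Pi.single 1 m') = m'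
    rw [sumLin_apply, Finset.sum_pi_single']
    simp

variable {k G} (C : Rep.{u} k G) {u : G × G → C.V} (hu : u ∈ cocycles₂ C)

/-- The splitting module `C(u)` as an object of `Rep k G`. -/
noncomputable abbrev splitRep : Rep.{u} k G := Rep.of (splitRepn C u hu)

/-- The inclusion `C → C(u)`. -/
noncomputable def splitIncl : C ⟶ splitRep C hu :=
  Rep.ofHom (ρ := C.ρ) (σ := splitRepn C u hu)
    ⟨LinearMap.inl k C.V (augSub k G), fun g => by
      apply LinearMap.ext
      intro c
      change (C.ρ g c, (0 : augSub k G)) = splitAct C u g (c, 0)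
      rw [splitAct_apply]
      simp⟩

/-- The projection `C(u) → I_G`. -/
noncomputable def splitProj : splitRep C hu ⟶ augRep k G :=
  Rep.ofHom (ρ := splitRepn C u hu) (σ := augRepn k G)
    ⟨LinearMap.snd k C.V (augSub k G), fun g => by
      apply LinearMap.ext
      intro x
      rfl⟩

/-- The sequence `0 → C → C(u) → I_G → 0`. -/
noncomputable def splitSC : ShortComplex (Rep.{u} k G) :=
  ShortComplex.mk (splitIncl C hu) (splitProj C hu) (by
    ext c
    rfl)

lemma splitSC_shortExact : (splitSC C hu).ShortExact where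
  exact := by
    rw [rep_exact_iff]
    intro x hx
    refine ⟨x.1, ?_⟩
    change ((x.1, 0) : C.V × augSub k G) = x
    exact Prod.ext rfl (hx : x.2 = 0).symm
  mono_f := by
    rw [Rep.mono_iff_injective]
    exact LinearMap.inl_injective
  epi_g := by
    rw [Rep.epi_iff_surjective]
    exact LinearMap.snd_surjective

end Seqs

end Fermat.Agent.S55.GC
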