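import Fermat.Agent.S55.GC.ClassModule
import Fermat.Agent.S55.GC.Cores

/-!
# S55 / ALG7 (b)+(c): `H³` of a class module vanishes (Tate's theorem, degree 3)

For a finite group `G` and a class module `(C, γ)` (`H¹(H, C) = 0`, `H²(H, C)` generated by
`res γ` of order exactly `|H|`, for all subgroups `H`): `H³(H, C) = 0` for all subgroups `H`.
Sylow reduction (helper27's `Cores.isZero_of_isZero_sylow`) to the `p`-group case
(`IsClassModule.vanishAt_three_of_isPGroup`).
-/

set_option autoImplicit false

namespace Fermat.Agent.S55.GC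

open CategoryTheory groupCohomology Rep Limits

universe u

variable {k : Type u} [CommRing k] [IsAddTorsionFree k] {G : Type u} [Group G] [Finite G]

/-- **Tate's theorem in degree 3**: `H³(G, C) = 0` for a class module `(C, γ)` of a finite
group `G`. -/
theorem IsClassModule.isZero_H3 {C : Rep.{u} k G} {γ : groupCohomology C 2}
    (hC : IsClassModule C γ) : IsZero (groupCohomology C 3) := by
  apply Cores.isZero_of_isZero_sylow C 2
  intro p hp _
  haveI : Fact p.Prime := ⟨hp⟩
  obtain ⟨P⟩ : Nonempty (Sylow p G) := inferInstance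
  refine ⟨P, ?_⟩
  exact ((hC.res (P : Subgroup G).subtype (Subgroup.subtype_injective _)).vanishAt_three_of_isPGroup
    P.isPGroup').self

/-- `H³(H, C) = 0` for every subgroup `H` of `G`, for a class module `(C, γ)`. -/
theorem IsClassModule.vanishAt_three {C : Rep.{u} k G} {γ : groupCohomology C 2}
    (hC : IsClassModule C γ) : VanishAt C 3 := by
  intro H _ φ hφ
  have : Finite H := Finite.of_injective φ hφ
  exact (hC.res φ hφ).isZero_H3

section OfSubgroup

omit [IsAddTorsionFree k] [Finite G]

lemma groupCohomologyIsoOfMulEquiv_hom {K H : Type u} [Group K] [Group H] (e : K ≃* H)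
    (B : Rep.{u} k H) (n : ℕ) :
    (groupCohomologyIsoOfMulEquiv e B n).hom =
      map e.toMonoidHom (𝟙 (Rep.res e.toMonoidHom B)) n := rfl

/-- The class-module axioms can be checked on subgroups `H ≤ G` only. -/
theorem IsClassModule.of_subgroup {C : Rep.{u} k G} {γ : groupCohomology C 2}
    (h1 : ∀ H : Subgroup G, IsZero (groupCohomology (Rep.res H.subtype C) 1))
    (gen : ∀ (H : Subgroup G) (x : groupCohomology (Rep.res H.subtype C) 2),
      ∃ m : k, x = m • map H.subtype (𝟙 (Rep.res H.subtype C)) 2 γ)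
    (ord : ∀ (H : Subgroup G) (m : k), m • map H.subtype (𝟙 (Rep.res H.subtype C)) 2 γ = 0 →
      ∃ m' : k, m = (Nat.card H : k) * m') :
    IsClassModule C γ := by
  have key : ∀ (H : Type u) [Group H] (φ : H →* G) (hφ : Function.Injective φ),
      map φ (𝟙 (Rep.res φ C)) 2 γ =
        (groupCohomologyIsoOfMulEquiv (MonoidHom.ofInjective hφ) (Rep.res φ.range.subtype C) 2).hom
          (map φ.range.subtype (𝟙 (Rep.res φ.range.subtype C)) 2 γ) := by
    intro H _ φ hφ
    rw [groupCohomologyIsoOfMulEquiv_hom]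
    exact (map_res_res φ.range.subtype (MonoidHom.ofInjective hφ).toMonoidHom C 2 γ).symm
  refine ⟨(vanishAt_iff_forall_subgroup C 1).2 h1, ?_, ?_⟩
  · intro H _ φ hφ x
    obtain ⟨m, hm⟩ := gen φ.range
      ((groupCohomologyIsoOfMulEquiv (MonoidHom.ofInjective hφ)
        (Rep.res φ.range.subtype C) 2).inv x)
    refine ⟨m, ?_⟩
    have h2 := congrArg (groupCohomologyIsoOfMulEquiv (MonoidHom.ofInjective hφ)
        (Rep.res φ.range.subtype C) 2).hom hm
    rw [Iso.inv_hom_id_apply, map_smul] at h2
    exact h2.trans (congrArg (m • ·) (key H φ hφ).symm)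
  · intro H _ φ hφ m hm
    have hm2 : (groupCohomologyIsoOfMulEquiv (MonoidHom.ofInjective hφ)
        (Rep.res φ.range.subtype C) 2).hom
          (m • map φ.range.subtype (𝟙 (Rep.res φ.range.subtype C)) 2 γ) = 0 := by
      rw [map_smul]
      exact (congrArg (m • ·) (key H φ hφ).symm).trans hm
    have hm' : m • map φ.range.subtype (𝟙 (Rep.res φ.range.subtype C)) 2 γ = 0 := by
      have := congrArg (groupCohomologyIsoOfMulEquiv (MonoidHom.ofInjective hφ)
        (Rep.res φ.range.subtype C) 2).inv hm2
      rwa [Iso.hom_inv_id_apply, map_zero] at this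
    obtain ⟨m', hm''⟩ := ord φ.range m hm'
    refine ⟨m', ?_⟩
    rw [hm'', Nat.card_congr (MonoidHom.ofInjective hφ).toEquiv]

end OfSubgroup

end Fermat.Agent.S55.GC
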