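/-
S55 package GC2, part 2 (continues `TateLow.lean`).

* `index_nsmul_tateH0_eq_zero`, `index_nsmul_tateHm1_eq_zero`: for a subgroup `H ≤ G`, if the Tate
  cohomology of the restriction to `H` vanishes in degree `0` (resp. `-1`), then `[G : H]` kills the
  Tate cohomology of `G` in that degree (the explicit degree `0`, `-1` case of `cores ∘ res = index`).
* `tateNegTwoEquivAb : Ĥ⁻²(G, ℤ) ≃+ Gᵃᵇ`, `Ĥ⁻¹(G, ℤ) = 0`, `Ĥ⁰(G, ℤ) ≃+ ℤ / |G|`.
Mathlib + `TateLow.lean` only.
-/
import Mathlib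
import Fermat.Agent.S55.GC.TateLow

set_option autoImplicit false

universe u

open CategoryTheory groupCohomology groupHomology

namespace Fermat.Agent.S55.GC.TateLow

variable {R G : Type u} [CommRing R] [Group G] [Fintype G] (A : Rep R G)

/-! ### Coset decomposition of the norm -/

/-- `(G ⧸ H) × H ≃ G`, `(c, h) ↦ c.out * h`. -/
noncomputable def cosetProdEquiv (H : Subgroup G) : (G ⧸ H) × H ≃ G where
  toFun p := Quotient.out p.1 * (p.2 : G)
  invFun g := (QuotientGroup.mk g, ⟨(Quotient.out (QuotientGroup.mk g : G ⧸ H))⁻¹ * g,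
    QuotientGroup.leftRel_apply.mp (Quotient.exact' (Quotient.out_eq' (QuotientGroup.mk g)))⟩)
  left_inv p := by
    have h1 : (QuotientGroup.mk (Quotient.out p.1 * (p.2 : G)) : G ⧸ H) = p.1 := by
      rw [QuotientGroup.mk_mul_of_mem _ p.2.2]
      exact Quotient.out_eq' p.1
    ext
    · exact h1
    · simp only [h1]
      simp
  right_inv g := by simp

omit [Fintype G] in
lemma cosetProdEquiv_apply (H : Subgroup G) (p : (G ⧸ H) × H) :
    cosetProdEquiv H p = Quotient.out p.1 * (p.2 : G) := rfl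


variable (H : Subgroup G) [Fintype H]

/-- The norm of `G` is the sum over coset representatives of the norm of `H`. -/
lemma norm_eq_sum_out_norm_res [Fintype (G ⧸ H)] (a : A) :
    A.ρ.norm a = ∑ c : G ⧸ H, A.ρ (Quotient.out c) ((Rep.res H.subtype A).ρ.norm a) := by
  classical
  simp only [Representation.norm, LinearMap.sum_apply, map_sum]
  rw [← Equiv.sum_comp (cosetProdEquiv H), Fintype.sum_prod_type]
  refine Finset.sum_congr rfl fun c _ => Finset.sum_congr rfl fun h _ => ?_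
  rw [cosetProdEquiv_apply, map_mul]
  rfl

/-- The other decomposition: the norm of `H` applied to a sum over inverse coset
representatives. -/
lemma norm_eq_norm_res_sum_out [Fintype (G ⧸ H)] (a : A) :
    A.ρ.norm a =
      (Rep.res H.subtype A).ρ.norm (∑ c : G ⧸ H, A.ρ (Quotient.out c)⁻¹ a) := by
  classical
  simp only [Representation.norm, LinearMap.sum_apply, map_sum]
  have h1 : ∑ g : G, A.ρ g a = ∑ p : (G ⧸ H) × H, A.ρ ((cosetProdEquiv H p)⁻¹) a := by
    rw [← Equiv.sum_comp ((cosetProdEquiv H).trans (Equiv.inv G)) (fun g => A.ρ g a)]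
    rfl
  rw [h1, Fintype.sum_prod_type, Finset.sum_comm]
  have h2 : ∀ X : A, ∑ h : H, (Rep.res H.subtype A).ρ h X =
      ∑ h : H, A.ρ ((h : G)⁻¹) X := by
    intro X
    rw [← Equiv.sum_comp (Equiv.inv H) (fun h => (Rep.res H.subtype A).ρ h X)]
    rfl
  rw [Finset.sum_comm]
  refine Finset.sum_congr rfl fun c _ => ?_
  rw [h2]
  refine Finset.sum_congr rfl fun h _ => ?_
  rw [cosetProdEquiv_apply, mul_inv_rev, map_mul]
  rfl

/-! ### `[G : H]` kills `Ĥ⁰` and `Ĥ⁻¹` when they vanish for `H` -/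

/-- Explicit form in degree `0`: if every `H`-invariant is an `H`-norm, then `[G:H] • x` is a
`G`-norm for every `G`-invariant `x`. -/
lemma exists_norm_eq_index_nsmul
    (hH : ∀ x ∈ (Rep.res H.subtype A).ρ.invariants, ∃ a, (Rep.res H.subtype A).ρ.norm a = x)
    {x : A} (hx : x ∈ A.ρ.invariants) : ∃ a : A, A.ρ.norm a = H.index • x := by
  classical
  have : Fintype (G ⧸ H) := Fintype.ofFinite _
  have hxH : x ∈ (Rep.res H.subtype A).ρ.invariants := fun h => hx (h : G)
  obtain ⟨b, hb⟩ := hH x hxH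
  refine ⟨b, ?_⟩
  rw [norm_eq_sum_out_norm_res A H b, hb]
  simp only [hx _, Finset.sum_const, Finset.card_univ]
  rw [Subgroup.index, Nat.card_eq_fintype_card]

theorem index_nsmul_tateH0_eq_zero
    (hH : Limits.IsZero (tateCohomology (Rep.res H.subtype A) 0)) (y : tateCohomology A 0) :
    H.index • y = 0 := by
  obtain ⟨x, rfl⟩ := tateH0π_surjective A y
  rw [← map_nsmul, tateH0π_eq_zero_iff]
  exact exists_norm_eq_index_nsmul A H
    ((isZero_tateCohomology_zero_iff (Rep.res H.subtype A)).mp hH) x.2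

/-- Explicit form in degree `-1`. -/
lemma index_nsmul_mem_coinvariantsKer
    (hH : LinearMap.ker (Rep.res H.subtype A).ρ.norm ≤
      Representation.Coinvariants.ker (Rep.res H.subtype A).ρ)
    {x : A} (hx : x ∈ LinearMap.ker A.ρ.norm) :
    H.index • x ∈ Representation.Coinvariants.ker A.ρ := by
  classical
  have : Fintype (G ⧸ H) := Fintype.ofFinite _
  -- `s := ∑_c c̄⁻¹ x` is in the kernel of the norm of `H`
  set s : A := ∑ c : G ⧸ H, A.ρ (Quotient.out c)⁻¹ x with hs
  have hsker : s ∈ LinearMap.ker (Rep.res H.subtype A).ρ.norm := by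
    rw [LinearMap.mem_ker, ← norm_eq_norm_res_sum_out A H x]
    exact hx
  have hle : Representation.Coinvariants.ker (Rep.res H.subtype A).ρ ≤
      Representation.Coinvariants.ker A.ρ := by
    apply Submodule.span_le.mpr
    rintro _ ⟨⟨h, a⟩, rfl⟩
    exact Representation.Coinvariants.mem_ker_of_eq (h : G) a _ rfl
  have hsI : s ∈ Representation.Coinvariants.ker A.ρ := hle (hH hsker)
  -- `s ≡ [G:H] x` modulo `I_G A`
  have hdiff : s - H.index • x ∈ Representation.Coinvariants.ker A.ρ := by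
    have : s - H.index • x = ∑ c : G ⧸ H, (A.ρ (Quotient.out c)⁻¹ x - x) := by
      rw [Finset.sum_sub_distrib, Finset.sum_const, Finset.card_univ, Subgroup.index,
        Nat.card_eq_fintype_card]
    rw [this]
    refine Submodule.sum_mem _ fun c _ => ?_
    exact Representation.Coinvariants.mem_ker_of_eq _ x _ rfl
  have := Submodule.sub_mem _ hsI hdiff
  simpa using this

theorem index_nsmul_tateHm1_eq_zero
    (hH : Limits.IsZero (tateCohomology (Rep.res H.subtype A) (-1)))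
    (y : tateCohomology A (-1)) : H.index • y = 0 := by
  obtain ⟨x, rfl⟩ := tateHm1π_surjective A y
  rw [← map_nsmul, tateHm1π_eq_zero_iff]
  exact index_nsmul_mem_coinvariantsKer A H
    ((isZero_tateCohomology_neg_one_iff (Rep.res H.subtype A)).mp hH) x.2

/-! ### Coefficients `ℤ` -/

section Int

variable (Γ : Type) [Group Γ] [Fintype Γ]

/-- `Ĥ⁻²(Γ, ℤ) ≃ Γᵃᵇ`. -/
noncomputable def tateNegTwoEquivAb :
    tateCohomology (Rep.trivial ℤ Γ ℤ) (-2) ≃+ Additive (Abelianization Γ) :=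
  (((TateCohomology.isoGroupHomology (R := ℤ) (G := Γ) (-2) 1 (by norm_num)).app
      (Rep.trivial ℤ Γ ℤ)).toLinearEquiv.toAddEquiv.trans
    (groupHomology.H1AddEquivOfIsTrivial (Rep.trivial ℤ Γ ℤ))).trans
    (TensorProduct.rid ℤ (Additive (Abelianization Γ))).toAddEquiv

lemma norm_trivial_int (n : ℤ) :
    (Rep.trivial ℤ Γ ℤ).ρ.norm n = (Fintype.card Γ : ℤ) * n := by
  simp [Representation.norm]

/-- `Ĥ⁻¹(Γ, ℤ) = 0`. -/
theorem isZero_tateCohomology_neg_one_int :
    Limits.IsZero (tateCohomology (Rep.trivial ℤ Γ ℤ) (-1)) := by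
  rw [isZero_tateCohomology_neg_one_iff]
  intro n hn
  rw [LinearMap.mem_ker, norm_trivial_int] at hn
  have hcard : (Fintype.card Γ : ℤ) ≠ 0 := by exact_mod_cast Fintype.card_ne_zero
  have : n = 0 := (mul_eq_zero.mp hn).resolve_left hcard
  rw [this]
  exact Submodule.zero_mem _

/-- The class of `n : ℤ` in `Ĥ⁰(Γ, ℤ)`. -/
noncomputable def tateH0IntMk : ℤ →+ tateCohomology (Rep.trivial ℤ Γ ℤ) 0 :=
  (tateH0π (Rep.trivial ℤ Γ ℤ)).hom.toAddMonoidHom.comp
    { toFun := fun n => (⟨n, fun _ => rfl⟩ : (Rep.trivial ℤ Γ ℤ).ρ.invariants)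
      map_zero' := rfl
      map_add' := fun _ _ => rfl }

lemma tateH0IntMk_surjective : Function.Surjective (tateH0IntMk Γ) := by
  intro y
  obtain ⟨x, rfl⟩ := tateH0π_surjective (Rep.trivial ℤ Γ ℤ) y
  exact ⟨(x : ℤ), rfl⟩

lemma tateH0IntMk_eq_zero_iff (n : ℤ) :
    tateH0IntMk Γ n = 0 ↔ (Fintype.card Γ : ℤ) ∣ n := by
  change tateH0π (Rep.trivial ℤ Γ ℤ) ⟨n, _⟩ = 0 ↔ _
  rw [tateH0π_eq_zero_iff]
  constructor
  · rintro ⟨a, ha⟩
    rw [norm_trivial_int] at ha
    exact ⟨a, ha.symm⟩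
  · rintro ⟨a, ha⟩
    exact ⟨a, by rw [norm_trivial_int]; exact ha.symm⟩

/-- `Ĥ⁰(Γ, ℤ) ≃ ℤ / |Γ|`. -/
noncomputable def tateH0IntEquiv :
    tateCohomology (Rep.trivial ℤ Γ ℤ) 0 ≃+ ZMod (Fintype.card Γ) :=
  ((QuotientAddGroup.quotientKerEquivOfSurjective (tateH0IntMk Γ)
      (tateH0IntMk_surjective Γ)).symm.trans
    (QuotientAddGroup.quotientAddEquivOfEq (by
      ext n
      rw [AddMonoidHom.mem_ker, tateH0IntMk_eq_zero_iff, AddSubgroup.mem_zmultiples_iff]
      constructor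
      · rintro ⟨a, ha⟩
        exact ⟨a, by rw [ha]; simp [mul_comm]⟩
      · rintro ⟨a, ha⟩
        exact ⟨a, by rw [← ha]; simp [mul_comm]⟩))).trans
    (Int.quotientZMultiplesNatEquivZMod (Fintype.card Γ))

end Int

end Fermat.Agent.S55.GC.TateLow
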